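import Fermat.Agent.Carayol.Main

/-!
# The abstract theorem for an arbitrary number of components
-/

set_option autoImplicit false
set_option linter.unusedSectionVars false
set_option linter.style.haveILetI false

noncomputable section

namespace Fermat.Agent.CarG

open Fermat.Agent.Carayol Fermat.Agent.Models Polynomial

variable {A₀ K₀ κ F 𝓕 : Type*} [CommRing A₀] [IsDomain A₀] [IsDiscreteValuationRing A₀] [Field K₀]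
  [Algebra A₀ K₀] [IsFractionRing A₀ K₀] [Field F] [Algebra K₀ F] [Algebra A₀ F]
  [IsScalarTower A₀ K₀ F] [Field 𝓕] [Field κ] [Algebra κ 𝓕] {ι : Type*} [Fintype ι] [DecidableEq ι]

/-- The data of the model with components indexed by `ι`. -/
structure SetupG (K₀ κ : Type*) [Field K₀] [Algebra A₀ K₀] [Algebra K₀ F] [Field κ] [Algebra κ 𝓕]
    (C : ι → Res F 𝓕) (B0 B1 : Subring F) (R0 R1 : Subring 𝓕) (t : F) (ϖ₀ : A₀)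
    (π : A₀ →+* κ) : Prop extends TwoCharts K₀ C B0 B1 R0 R1 t ϖ₀ where
  π_surj : Function.Surjective π
  r_alg : ∀ i (a : A₀), (C i).r (algebraMap A₀ F a) = algebraMap κ 𝓕 (π a)
  inc0 : ∀ i j, i ≠ j → ∃ x : F, x ∈ B0 ∧ (C j).r x = 0 ∧ (C i).r x ≠ 0
  inc1 : ∀ i j, i ≠ j → ∃ x : F, x ∈ B1 ∧ (C j).r x = 0 ∧ (C i).r x ≠ 0
  R_closed0 : ∀ (y : 𝓕) (n : ℕ), 0 < n → y ^ n ∈ R0 → y ∈ R0
  R_closed1 : ∀ (y : 𝓕) (n : ℕ), 0 < n → y ^ n ∈ R1 → y ∈ R1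
  res0 : ∀ 𝔪 : Ideal B0, 𝔪.IsMaximal → (⟨algebraMap A₀ F ϖ₀, c0.ϖ_mem⟩ : B0) ∈ 𝔪 →
    ∀ b : B0, ∃ a : A₀, b - ⟨algebraMap A₀ F a, A_mem0 a⟩ ∈ 𝔪
  res1 : ∀ 𝔪 : Ideal B1, 𝔪.IsMaximal → (⟨algebraMap A₀ F ϖ₀, c1.ϖ_mem⟩ : B1) ∈ 𝔪 →
    ∀ b : B1, ∃ a : A₀, b - ⟨algebraMap A₀ F a, A_mem1 a⟩ ∈ 𝔪
  gen0 : ∀ 𝔪 : Ideal B0, 𝔪.IsMaximal → (⟨algebraMap A₀ F ϖ₀, c0.ϖ_mem⟩ : B0) ∈ 𝔪 →
    ∃ i x, c0.P i ≤ 𝔪 ∧ c0.LocGen 𝔪 i x
  gen1 : ∀ 𝔪 : Ideal B1, 𝔪.IsMaximal → (⟨algebraMap A₀ F ϖ₀, c1.ϖ_mem⟩ : B1) ∈ 𝔪 →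
    (⟨t⁻¹, t_mem'⟩ : B1) ∈ 𝔪 → ∃ i x, c1.P i ≤ 𝔪 ∧ c1.LocGen 𝔪 i x
  all0 : ∀ 𝔪 : Ideal B0, 𝔪.IsMaximal → (⟨algebraMap A₀ F ϖ₀, c0.ϖ_mem⟩ : B0) ∈ 𝔪 →
    ∀ i j, i ≠ j → c0.P i ≤ 𝔪 → c0.P j ≤ 𝔪 → ∀ k, c0.P k ≤ 𝔪
  meet1 : ∀ 𝔪 : Ideal B1, 𝔪.IsMaximal → (⟨algebraMap A₀ F ϖ₀, c1.ϖ_mem⟩ : B1) ∈ 𝔪 →
    (⟨t⁻¹, t_mem'⟩ : B1) ∈ 𝔪 → ∀ i j, c1.P i ≤ 𝔪 → c1.P j ≤ 𝔪 → i = j

/-- the conditions on a norm map -/
structure NormG (C : ι → Res F 𝓕) (B0 : Subring F) (q : ℕ) (N : F →* F) (T : Set ι) : Prop where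
  mem : ∀ x ∈ B0, N x ∈ B0
  r : ∀ b ∈ T, ∀ x, x ∈ (C b).O → N x ∈ (C b).O ∧ (C b).r (N x) = (C b).r x ^ q

namespace SetupG

variable {C : ι → Res F 𝓕} {B0 B1 : Subring F} {R0 R1 : Subring 𝓕} {t : F} {ϖ₀ : A₀}
  {π : A₀ →+* κ}

/-- the property of an evaluation at the point `𝔪` of the component `k` -/
def IsEv (hS : SetupG K₀ κ C B0 B1 R0 R1 t ϖ₀ π) (𝔪 : Ideal B0) (k : ι) (ev : R0 →+* κ) : Prop :=
  ∀ (b : B0) (a : A₀), b - ⟨algebraMap A₀ F a, hS.A_mem0 a⟩ ∈ 𝔪 → ev (hS.c0.rho k b) = π a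

theorem cmem (hS : SetupG K₀ κ C B0 B1 R0 R1 t ϖ₀ π) (k : ι) (c : κ) :
    algebraMap κ 𝓕 c ∈ R0 := by
  obtain ⟨a, rfl⟩ := hS.π_surj c
  rw [← hS.r_alg k]
  exact hS.c0.mem_R k _ (hS.A_mem0 a)

theorem exists_ev (hS : SetupG K₀ κ C B0 B1 R0 R1 t ϖ₀ π) {𝔪 : Ideal B0} (h𝔪 : 𝔪.IsMaximal)
    (hϖ : (⟨algebraMap A₀ F ϖ₀, hS.c0.ϖ_mem⟩ : B0) ∈ 𝔪) {k : ι} (hk : hS.c0.P k ≤ 𝔪) :
    ∃ ev : R0 →+* κ, hS.IsEv 𝔪 k ev := by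
  have h𝔫top : 𝔪.map (hS.c0.rho k) ≠ ⊤ := hS.c0.map_rho_ne_top hk
  have hcR : ∀ c : κ, algebraMap κ 𝓕 c ∈ R0 := hS.cmem k
  let i₀ : κ →+* R0 := RingHom.codRestrict (algebraMap κ 𝓕) R0 hcR
  let f : κ →+* R0 ⧸ 𝔪.map (hS.c0.rho k) := (Ideal.Quotient.mk _).comp i₀
  have : Nontrivial (R0 ⧸ 𝔪.map (hS.c0.rho k)) := Ideal.Quotient.nontrivial_iff.2 h𝔫top
  have hfa : ∀ (b : B0) (a : A₀), b - ⟨algebraMap A₀ F a, hS.A_mem0 a⟩ ∈ 𝔪 →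
      f (π a) = Ideal.Quotient.mk _ (hS.c0.rho k b) := by
    intro b a ha
    have h0 := Ideal.mem_map_of_mem (hS.c0.rho k) ha
    rw [map_sub] at h0
    have h1 : hS.c0.rho k ⟨algebraMap A₀ F a, hS.A_mem0 a⟩ = i₀ (π a) :=
      Subtype.ext (hS.r_alg k a)
    rw [h1] at h0
    exact ((Ideal.Quotient.eq).2 h0).symm
  have hf : Function.Bijective f := by
    refine ⟨f.injective, fun y => ?_⟩
    obtain ⟨y, rfl⟩ := Ideal.Quotient.mk_surjective y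
    obtain ⟨b, rfl⟩ := hS.c0.rho_surjective k y
    obtain ⟨a, ha⟩ := hS.res0 𝔪 h𝔪 hϖ b
    exact ⟨π a, hfa b a ha⟩
  let e : κ ≃+* R0 ⧸ 𝔪.map (hS.c0.rho k) := RingEquiv.ofBijective f hf
  refine ⟨(e.symm : (R0 ⧸ 𝔪.map (hS.c0.rho k)) →+* κ).comp (Ideal.Quotient.mk _),
    fun b a ha => ?_⟩
  rw [RingHom.comp_apply, ← hfa b a ha]
  exact e.symm_apply_apply (π a)

theorem ev_const (hS : SetupG K₀ κ C B0 B1 R0 R1 t ϖ₀ π) {𝔪 : Ideal B0} {k : ι}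
    {ev : R0 →+* κ} (hev : hS.IsEv 𝔪 k ev) (c : κ) (h : algebraMap κ 𝓕 c ∈ R0) :
    ev ⟨_, h⟩ = c := by
  obtain ⟨a, rfl⟩ := hS.π_surj c
  have h1 := hev ⟨algebraMap A₀ F a, hS.A_mem0 a⟩ a (by rw [sub_self]; exact 𝔪.zero_mem)
  have h2 : hS.c0.rho k ⟨algebraMap A₀ F a, hS.A_mem0 a⟩ = ⟨algebraMap κ 𝓕 (π a), h⟩ :=
    Subtype.ext (hS.r_alg k a)
  rwa [h2] at h1

theorem ev_eq_zero (hS : SetupG K₀ κ C B0 B1 R0 R1 t ϖ₀ π) {𝔪 : Ideal B0} (h𝔪 : 𝔪.IsMaximal)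
    (hϖ : (⟨algebraMap A₀ F ϖ₀, hS.c0.ϖ_mem⟩ : B0) ∈ 𝔪) {k : ι} (hk : hS.c0.P k ≤ 𝔪)
    {ev : R0 →+* κ} (hev : hS.IsEv 𝔪 k ev) {b : B0} (hb : ev (hS.c0.rho k b) = 0) : b ∈ 𝔪 := by
  obtain ⟨a, ha⟩ := hS.res0 𝔪 h𝔪 hϖ b
  have h1 := hev b a ha
  rw [hb] at h1
  have h2 : (⟨algebraMap A₀ F a, hS.A_mem0 a⟩ : B0) ∈ 𝔪 := by
    apply hk
    rw [hS.c0.mem_P]
    change (C k).r (algebraMap A₀ F a) = 0
    rw [hS.r_alg k, ← h1, map_zero]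
  have := 𝔪.add_mem ha h2
  rwa [sub_add_cancel] at this

omit [DecidableEq ι] in
/-- roots are integral at the components -/
theorem root_mem {i : ι} {m : ℕ} (hm : 0 < m) {v n : F} (hv : (C i).r v ≠ 0) (hvn : v = n ^ m) :
    n ∈ (C i).O ∧ (C i).r n ^ m = (C i).r v := by
  have hn0 : n ≠ 0 := by
    rintro rfl
    rw [hvn, zero_pow hm.ne'] at hv
    exact hv Res.r_zero
  have h1 : n ∈ (C i).O := by
    rcases (C i).O.mem_or_inv_mem n with h | h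
    · exact h
    · have h2 : n ^ m ∈ (C i).O := hvn ▸ Res.mem_of_r_ne_zero hv
      have h3 : n = n ^ m * n⁻¹ ^ (m - 1) := by
        obtain ⟨k, rfl⟩ := Nat.exists_eq_succ_of_ne_zero hm.ne'
        rw [Nat.succ_sub_one, pow_succ', mul_assoc, ← mul_pow, mul_inv_cancel₀ hn0, one_pow,
          mul_one]
      rw [h3]; exact mul_mem h2 (pow_mem h _)
  exact ⟨h1, by rw [hvn, Res.r_pow h1]⟩

omit [DecidableEq ι] in
/-- the constant relating two roots -/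
theorem exists_const [IsAlgClosed κ] {i : ι} {m : ℕ} (hm : 0 < m) {v n : F} {g : 𝓕} (hg : g ≠ 0)
    (hv : (C i).r v = g ^ m) (hvn : v = n ^ m) :
    n ∈ (C i).O ∧ ∃ ζ : κ, ζ ^ m = 1 ∧ (C i).r n = algebraMap κ 𝓕 ζ * g := by
  obtain ⟨hn, hn'⟩ := root_mem (C := C) (i := i) hm (by rw [hv]; exact pow_ne_zero m hg) hvn
  refine ⟨hn, ?_⟩
  have h1 : ((C i).r n / g) ^ m = 1 := by
    rw [div_pow, hn', hv, div_self (pow_ne_zero m hg)]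
  obtain ⟨ζ, hζ⟩ := root_of_unity_const (κ := κ) hm h1
  refine ⟨ζ, ?_, by rw [hζ, div_mul_cancel₀ _ hg]⟩
  apply (algebraMap κ 𝓕).injective
  rw [map_pow, hζ, h1, map_one]

/-- relation between two components along one norm map -/
theorem norm_relation [IsAlgClosed κ] (hS : SetupG K₀ κ C B0 B1 R0 R1 t ϖ₀ π)
    {N : F →* F} (hN : ∀ x ∈ B0, N x ∈ B0) {m : ℕ} (hm : 0 < m) {u : F} {n : F}
    (hn : N u = n ^ m) {b b' : ι} {G G' : 𝓕} {H H' : F → 𝓕}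
    (hG0 : G ≠ 0) (hG0' : G' ≠ 0)
    (hG : (C b).r (N u) = G ^ m) (hG' : (C b').r (N u) = G' ^ m)
    (hH : ∀ h : F, h ^ m * u ∈ B0 → N h ∈ (C b).O ∧ (C b).r (N h) = H h)
    (hH' : ∀ h : F, h ^ m * u ∈ B0 → N h ∈ (C b').O ∧ (C b').r (N h) = H' h) :
    ∃ ζ ζ' : κ, ζ ^ m = 1 ∧ ζ' ^ m = 1 ∧ ∀ 𝔪 : Ideal B0, 𝔪.IsMaximal →
      (⟨algebraMap A₀ F ϖ₀, hS.c0.ϖ_mem⟩ : B0) ∈ 𝔪 →
      ∀ ev ev' : R0 →+* κ, hS.IsEv 𝔪 b ev → hS.IsEv 𝔪 b' ev' →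
      ∀ h : F, h ^ m * u ∈ B0 → ∀ Γ Γ' : R0, (Γ : 𝓕) = G * H h → (Γ' : 𝓕) = G' * H' h →
      ζ * ev Γ = ζ' * ev' Γ' := by
  obtain ⟨hnO, ζ, hζ, hnζ⟩ := exists_const (κ := κ) (C := C) hm hG0 hG hn
  obtain ⟨hnO', ζ', hζ', hnζ'⟩ := exists_const (κ := κ) (C := C) hm hG0' hG' hn
  refine ⟨ζ, ζ', hζ, hζ', fun 𝔪 h𝔪 hϖ ev ev' hev hev' h hh Γ Γ' hΓ hΓ' => ?_⟩
  set ν : F := N h * n with hν
  have hνB : ν ∈ B0 := by
    refine hS.c0.closed _ m hm ?_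
    rw [hν, mul_pow, ← hn, ← map_pow, ← map_mul]
    exact hN _ hh
  have e1 : hS.c0.rho b ⟨ν, hνB⟩ = ⟨_, hS.cmem b ζ⟩ * Γ := by
    apply Subtype.ext
    rw [hS.c0.rho_apply]
    change (C b).r (N h * n) = _
    rw [Res.r_mul (hH h hh).1 hnO, (hH h hh).2, hnζ]
    push_cast
    rw [hΓ]; ring
  have e2 : hS.c0.rho b' ⟨ν, hνB⟩ = ⟨_, hS.cmem b' ζ'⟩ * Γ' := by
    apply Subtype.ext
    rw [hS.c0.rho_apply]
    change (C b').r (N h * n) = _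
    rw [Res.r_mul (hH' h hh).1 hnO', (hH' h hh).2, hnζ']
    push_cast
    rw [hΓ']; ring
  obtain ⟨a₁, ha₁⟩ := hS.res0 𝔪 h𝔪 hϖ ⟨ν, hνB⟩
  have e3 := hev _ _ ha₁
  have e4 := hev' _ _ ha₁
  rw [e1, map_mul, hS.ev_const hev] at e3
  rw [e2, map_mul, hS.ev_const hev'] at e4
  rw [e3, e4]

/-- the gluing constants -/
theorem glue [IsAlgClosed κ] (hS : SetupG K₀ κ C B0 B1 R0 R1 t ϖ₀ π) {q : ℕ} (hq : 2 ≤ q)
    {m : ℕ} (hm : 0 < m) {u : F} {g : ι → 𝓕} (hg0 : ∀ i, g i ≠ 0)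
    (hg : ∀ i, (C i).r u = g i ^ m) {Nα Nβ : F →* F} {Sα Sβ : Set ι} (top sub : ι)
    (hα : NormG C B0 q Nα Sα) (hβ : NormG C B0 q Nβ Sβ) (hcov : ∀ i, i ∈ Sα ∨ i ∈ Sβ)
    (htop : top ∈ Sβ) (hsub : sub ∈ Sβ)
    (htopα : ∀ x, x ∈ (C top).O → x ∈ (C sub).O →
      Nα x ∈ (C top).O ∧ (C top).r (Nα x) = (C top).r x * (C sub).r x ^ (q - 1))
    (hts : ∀ y ∈ R0, ∃ x ∈ B0, (C top).r x = y ∧ (C sub).r x = y)
    {na nb : F} (hna : Nα u = na ^ m) (hnb : Nβ u = nb ^ m) (b : ι) :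
    ∃ μ : κ, μ ^ m = 1 ∧ ∀ 𝔪 : Ideal B0, 𝔪.IsMaximal →
      (⟨algebraMap A₀ F ϖ₀, hS.c0.ϖ_mem⟩ : B0) ∈ 𝔪 →
      ∀ ev : ι → R0 →+* κ, (∀ k, hS.IsEv 𝔪 k (ev k)) →
      ∀ h : F, h ^ m * u ∈ B0 → ∀ γ : ι → R0, (∀ i, (γ i : 𝓕) = g i * (C i).r h) →
      (∀ i, ev i (γ i) ≠ 0) → μ * ev b (γ b) ^ (q ^ 2) = ev top (γ top) ^ (q ^ 2) := by
  have hu : ∀ i, (C i).r u ≠ 0 := fun i => by rw [hg]; exact pow_ne_zero m (hg0 i)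
  have huO : ∀ i, u ∈ (C i).O := fun i => Res.mem_of_r_ne_zero (hu i)
  have hhO : ∀ i (h : F), h ^ m * u ∈ B0 → h ∈ (C i).O := fun i h hh =>
    hS.c0.mem_O_of_pow (hu i) hm hh
  have hne : ∀ {z : κ}, z ^ m = 1 → z ≠ 0 := by
    rintro z hz rfl
    rw [zero_pow hm.ne'] at hz
    exact zero_ne_one hz
  -- along `β`
  have relβ : ∀ b ∈ Sβ, ∃ ξ : κ, ξ ^ m = 1 ∧ ∀ 𝔪 : Ideal B0, 𝔪.IsMaximal →
      (⟨algebraMap A₀ F ϖ₀, hS.c0.ϖ_mem⟩ : B0) ∈ 𝔪 →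
      ∀ ev : ι → R0 →+* κ, (∀ k, hS.IsEv 𝔪 k (ev k)) →
      ∀ h : F, h ^ m * u ∈ B0 → ∀ γ : ι → R0, (∀ i, (γ i : 𝓕) = g i * (C i).r h) →
      ev b (γ b) ^ q = ξ * ev top (γ top) ^ q := by
    intro b hb
    obtain ⟨ζ, ζ', hζ, hζ', hrel⟩ := hS.norm_relation hβ.mem hm hnb (b := b) (b' := top)
      (G := g b ^ q) (G' := g top ^ q) (H := fun h => (C b).r h ^ q)
      (H' := fun h => (C top).r h ^ q) (pow_ne_zero _ (hg0 b)) (pow_ne_zero _ (hg0 top))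
      (by rw [(hβ.r b hb u (huO b)).2, hg, ← pow_mul, ← pow_mul, mul_comm])
      (by rw [(hβ.r top htop u (huO top)).2, hg, ← pow_mul, ← pow_mul, mul_comm])
      (fun h hh => hβ.r b hb h (hhO b h hh)) (fun h hh => hβ.r top htop h (hhO top h hh))
    refine ⟨ζ' / ζ, by rw [div_pow, hζ, hζ', div_one], fun 𝔪 h𝔪 hϖ ev hev h hh γ hγ => ?_⟩
    have h1 := hrel 𝔪 h𝔪 hϖ (ev b) (ev top) (hev b) (hev top) h hh (γ b ^ q) (γ top ^ q)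
      (by push_cast; rw [hγ, mul_pow]) (by push_cast; rw [hγ, mul_pow])
    rw [map_pow, map_pow] at h1
    have := hne hζ
    field_simp
    linear_combination h1
  by_cases hbβ : b ∈ Sβ
  · obtain ⟨ξ, hξ, hrel⟩ := relβ b hbβ
    refine ⟨(ξ⁻¹) ^ q, by rw [← pow_mul, mul_comm, pow_mul, inv_pow, hξ, inv_one, one_pow],
      fun 𝔪 h𝔪 hϖ ev hev h hh γ hγ hnz => ?_⟩
    have h1 := hrel 𝔪 h𝔪 hϖ ev hev h hh γ hγ
    have hξ0 := hne hξ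
    rw [sq, pow_mul, h1, ← mul_pow, ← mul_assoc, inv_mul_cancel₀ hξ0, one_mul, ← pow_mul]
  · have hbα : b ∈ Sα := (hcov b).resolve_right hbβ
    obtain ⟨ξ, hξ, hrelβ⟩ := relβ sub hsub
    obtain ⟨ζ, ζ', hζ, hζ', hrel⟩ := hS.norm_relation hα.mem hm hna (b := b) (b' := top)
      (G := g b ^ q) (G' := g top * g sub ^ (q - 1)) (H := fun h => (C b).r h ^ q)
      (H' := fun h => (C top).r h * (C sub).r h ^ (q - 1)) (pow_ne_zero _ (hg0 b))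
      (mul_ne_zero (hg0 top) (pow_ne_zero _ (hg0 sub)))
      (by rw [(hα.r b hbα u (huO b)).2, hg, ← pow_mul, ← pow_mul, mul_comm])
      (by rw [(htopα u (huO top) (huO sub)).2, hg, hg, mul_pow, ← pow_mul, ← pow_mul,
        mul_comm m])
      (fun h hh => hα.r b hbα h (hhO b h hh))
      (fun h hh => htopα h (hhO top h hh) (hhO sub h hh))
    refine ⟨((ζ / ζ') ^ q) * (ξ⁻¹) ^ (q - 1), ?_, fun 𝔪 h𝔪 hϖ ev hev h hh γ hγ hnz => ?_⟩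
    · rw [mul_pow, ← pow_mul, mul_comm q, pow_mul, div_pow, hζ, hζ', div_one, one_pow, one_mul,
        ← pow_mul, mul_comm, pow_mul, inv_pow, hξ, inv_one, one_pow]
    · have h1 := hrel 𝔪 h𝔪 hϖ (ev b) (ev top) (hev b) (hev top) h hh (γ b ^ q)
        (γ top * γ sub ^ (q - 1)) (by push_cast; rw [hγ, mul_pow])
        (by push_cast; rw [hγ, hγ, mul_pow]; ring)
      have h2 := hrelβ 𝔪 h𝔪 hϖ ev hev h hh γ hγ
      have h3 : ev top (γ sub) = ev sub (γ sub) := by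
        obtain ⟨x, hx, hx1, hx2⟩ := hts _ (γ sub).2
        obtain ⟨a, ha⟩ := hS.res0 𝔪 h𝔪 hϖ ⟨x, hx⟩
        have e1 := hev top _ _ ha
        have e2 := hev sub _ _ ha
        have e3 : hS.c0.rho top ⟨x, hx⟩ = γ sub := Subtype.ext hx1
        have e4 : hS.c0.rho sub ⟨x, hx⟩ = γ sub := Subtype.ext hx2
        rw [e3] at e1
        rw [e4] at e2
        rw [e1, e2]
      rw [map_pow, map_mul, map_pow, h3] at h1
      have hζ0 := hne hζ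
      have hζ0' := hne hζ'
      have hξ0 := hne hξ
      obtain ⟨p, rfl⟩ : ∃ p, q = p + 1 := ⟨q - 1, by omega⟩
      rw [Nat.add_sub_cancel] at h1 ⊢
      set e := ev b (γ b)
      set e₁ := ev top (γ top)
      set e₂ := ev sub (γ sub)
      have h4 : (ζ / ζ') ^ (p + 1) * e ^ ((p + 1) ^ 2) = e₁ ^ (p + 1) * (e₂ ^ (p + 1)) ^ p := by
        have h5 : ζ / ζ' * e ^ (p + 1) = e₁ * e₂ ^ p := by
          field_simp
          rw [h1]; ring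
        calc (ζ / ζ') ^ (p + 1) * e ^ ((p + 1) ^ 2) = (ζ / ζ' * e ^ (p + 1)) ^ (p + 1) := by
              rw [sq, pow_mul, mul_pow]
          _ = (e₁ * e₂ ^ p) ^ (p + 1) := by rw [h5]
          _ = _ := by ring
      have h6 : ξ⁻¹ ^ p * ξ ^ p = 1 := by
        rw [← mul_pow, inv_mul_cancel₀ hξ0, one_pow]
      calc (ζ / ζ') ^ (p + 1) * ξ⁻¹ ^ p * e ^ ((p + 1) ^ 2)
          = ξ⁻¹ ^ p * ((ζ / ζ') ^ (p + 1) * e ^ ((p + 1) ^ 2)) := by ring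
        _ = ξ⁻¹ ^ p * (e₁ ^ (p + 1) * (ξ * e₁ ^ (p + 1)) ^ p) := by rw [h4, h2]
        _ = (ξ⁻¹ ^ p * ξ ^ p) * (e₁ ^ (p + 1) * (e₁ ^ (p + 1)) ^ p) := by ring
        _ = e₁ ^ (p + 1) * (e₁ ^ (p + 1)) ^ p := by rw [h6, one_mul]
        _ = e₁ ^ ((p + 1) ^ 2) := by rw [← pow_succ', ← pow_mul, sq]

theorem K_le_of (hS : SetupG K₀ κ C B0 B1 R0 R1 t ϖ₀ π) {V : Subring F}
    (hA : ∀ a : A₀, algebraMap A₀ F a ∈ V) (hϖ : (algebraMap A₀ F ϖ₀)⁻¹ ∈ V) (c : K₀) :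
    algebraMap K₀ F c ∈ V := by
  obtain ⟨a, b, hb, rfl⟩ := IsFractionRing.div_surjective (A := A₀) c
  have hb0 : b ≠ 0 := nonZeroDivisors.ne_zero hb
  obtain ⟨n, v, hv⟩ := IsDiscreteValuationRing.associated_pow_irreducible hb0 hS.irr
  have hinj : Function.Injective (algebraMap A₀ K₀) := IsFractionRing.injective A₀ K₀
  have hbK : algebraMap A₀ K₀ b ≠ 0 := fun h => hb0 (hinj (by rw [h, map_zero]))
  have hϖ0 : algebraMap A₀ K₀ ϖ₀ ≠ 0 := fun h => hS.irr.ne_zero (hinj (by rw [h, map_zero]))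
  have h1 : algebraMap A₀ K₀ a / algebraMap A₀ K₀ b =
      algebraMap A₀ K₀ (a * v) * ((algebraMap A₀ K₀ ϖ₀)⁻¹) ^ n := by
    rw [map_mul, inv_pow, ← map_pow, ← hv, map_mul]
    have : algebraMap A₀ K₀ (v : A₀) ≠ 0 := fun h => v.ne_zero (hinj (by rw [h, map_zero]))
    field_simp
  rw [h1, map_mul, map_pow, map_inv₀, ← IsScalarTower.algebraMap_apply,
    ← IsScalarTower.algebraMap_apply]
  exact V.mul_mem (hA _) (V.pow_mem hϖ n)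

variable (hS : SetupG K₀ κ C B0 B1 R0 R1 t ϖ₀ π)

include hS

/-- the point of the first chart corresponding to a point of the second chart with `t⁻¹ ≠ 0` -/
theorem transfer {𝔪 : Ideal B1} (h𝔪 : 𝔪.IsMaximal)
    (hϖ : (⟨algebraMap A₀ F ϖ₀, hS.c1.ϖ_mem⟩ : B1) ∈ 𝔪) (ht : (⟨t⁻¹, hS.t_mem'⟩ : B1) ∉ 𝔪) :
    ∃ 𝔪₀ : Ideal B0, 𝔪₀.IsMaximal ∧ (⟨algebraMap A₀ F ϖ₀, hS.c0.ϖ_mem⟩ : B0) ∈ 𝔪₀ ∧
      ∀ (b : B0) (n : ℕ) (h : t⁻¹ ^ n * (b : F) ∈ B1), (⟨_, h⟩ : B1) ∈ 𝔪 → b ∈ 𝔪₀ := by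
  have hp := h𝔪.isPrime
  let τ : B1 := ⟨t⁻¹, hS.t_mem'⟩
  have hτ : ∀ n, τ ^ n ∉ 𝔪 := fun n h => ht (hp.mem_of_pow_mem n h)
  have hup : ∀ (b : F) (n k : ℕ) (h : t⁻¹ ^ n * b ∈ B1), (⟨_, h⟩ : B1) ∈ 𝔪 →
      ∃ h' : t⁻¹ ^ (n + k) * b ∈ B1, (⟨_, h'⟩ : B1) ∈ 𝔪 := by
    intro b n k h hm
    have e : t⁻¹ ^ (n + k) * b = ((τ ^ k * ⟨_, h⟩ : B1) : F) := by
      push_cast
      change _ = t⁻¹ ^ k * (t⁻¹ ^ n * b)
      rw [pow_add]; ring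
    have h' : t⁻¹ ^ (n + k) * b ∈ B1 := by rw [e]; exact Subtype.mem _
    refine ⟨h', ?_⟩
    have : (⟨_, h'⟩ : B1) = τ ^ k * ⟨_, h⟩ := Subtype.ext e
    rw [this]; exact 𝔪.mul_mem_left _ hm
  let 𝔪₀ : Ideal B0 :=
    { carrier := {b | ∃ (n : ℕ) (h : t⁻¹ ^ n * (b : F) ∈ B1), (⟨_, h⟩ : B1) ∈ 𝔪}
      zero_mem' := by
        have h : t⁻¹ ^ 0 * ((0 : B0) : F) ∈ B1 := by simp
        refine ⟨0, h, ?_⟩
        have : (⟨_, h⟩ : B1) = 0 := Subtype.ext (by simp)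
        rw [this]; exact 𝔪.zero_mem
      add_mem' := by
        rintro a b ⟨n, h, hm⟩ ⟨k, h', hm'⟩
        obtain ⟨h1, hm1⟩ := hup _ n k h hm
        obtain ⟨h2, hm2⟩ := hup _ k n h' hm'
        have e : t⁻¹ ^ (n + k) * ((a + b : B0) : F) = t⁻¹ ^ (n + k) * (a : F) +
            t⁻¹ ^ (k + n) * (b : F) := by rw [add_comm k n]; push_cast; ring
        have h3 : t⁻¹ ^ (n + k) * ((a + b : B0) : F) ∈ B1 := by rw [e]; exact B1.add_mem h1 h2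
        refine ⟨n + k, h3, ?_⟩
        have : (⟨_, h3⟩ : B1) = ⟨_, h1⟩ + ⟨_, h2⟩ := Subtype.ext e
        rw [this]; exact 𝔪.add_mem hm1 hm2
      smul_mem' := by
        rintro c b ⟨n, h, hm⟩
        obtain ⟨k, hk⟩ := hS.ov0 _ c.2
        have e : t⁻¹ ^ (k + n) * ((c • b : B0) : F) = t⁻¹ ^ k * (c : F) * (t⁻¹ ^ n * (b : F)) := by
          rw [smul_eq_mul]; push_cast; rw [pow_add]; ring
        have h3 : t⁻¹ ^ (k + n) * ((c • b : B0) : F) ∈ B1 := by rw [e]; exact B1.mul_mem hk h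
        refine ⟨k + n, h3, ?_⟩
        have : (⟨_, h3⟩ : B1) = ⟨_, hk⟩ * ⟨_, h⟩ := Subtype.ext e
        rw [this]; exact 𝔪.mul_mem_left _ hm }
  have hmem : ∀ b : B0, b ∈ 𝔪₀ ↔ ∃ (n : ℕ) (h : t⁻¹ ^ n * (b : F) ∈ B1), (⟨_, h⟩ : B1) ∈ 𝔪 :=
    fun b => Iff.rfl
  have hunit : ∀ a : A₀, (⟨algebraMap A₀ F a, hS.A_mem1 a⟩ : B1) ∉ 𝔪 → IsUnit a := by
    intro a ha
    by_contra hna
    apply ha
    have h1 : a ∈ IsLocalRing.maximalIdeal A₀ := (IsLocalRing.mem_maximalIdeal a).2 hna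
    rw [hS.irr.maximalIdeal_eq, Ideal.mem_span_singleton'] at h1
    obtain ⟨c, rfl⟩ := h1
    have : (⟨algebraMap A₀ F (c * ϖ₀), hS.A_mem1 _⟩ : B1) =
        ⟨algebraMap A₀ F c, hS.A_mem1 c⟩ * ⟨algebraMap A₀ F ϖ₀, hS.c1.ϖ_mem⟩ :=
      Subtype.ext (map_mul _ _ _)
    rw [this]; exact 𝔪.mul_mem_left _ hϖ
  refine ⟨𝔪₀, ?_, ?_, fun b n h hm => (hmem b).2 ⟨n, h, hm⟩⟩
  · rw [Ideal.isMaximal_iff]
    constructor
    · rw [hmem]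
      rintro ⟨n, h, hm⟩
      apply hτ n
      have : (⟨_, h⟩ : B1) = τ ^ n := Subtype.ext (by push_cast; rw [mul_one])
      rwa [this] at hm
    · intro J x hJ hx hxJ
      obtain ⟨n, hn⟩ := hS.ov0 _ x.2
      obtain ⟨a, ha⟩ := hS.res1 𝔪 h𝔪 hϖ ⟨_, hn⟩
      obtain ⟨a', ha'⟩ := hS.res1 𝔪 h𝔪 hϖ (τ ^ n)
      have hxn : (⟨_, hn⟩ : B1) ∉ 𝔪 := fun h => hx ((hmem x).2 ⟨n, hn, h⟩)
      obtain ⟨ua, hua⟩ := hunit a (fun h => hxn (by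
        have := 𝔪.add_mem ha h; rwa [sub_add_cancel] at this))
      -- `x * (a' a⁻¹) - 1 ∈ 𝔪₀`
      let c : A₀ := a' * ((ua⁻¹ : A₀ˣ) : A₀)
      have hc : c * a = a' := by
        change a' * ((ua⁻¹ : A₀ˣ) : A₀) * a = a'
        rw [mul_assoc, ← hua, Units.inv_mul, mul_one]
      let z : B0 := ⟨algebraMap A₀ F c, hS.A_mem0 c⟩ * x - 1
      have hz : z ∈ 𝔪₀ := by
        rw [hmem]
        have e : t⁻¹ ^ n * (z : F) = ((⟨algebraMap A₀ F c, hS.A_mem1 c⟩ *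
            (⟨_, hn⟩ - ⟨algebraMap A₀ F a, hS.A_mem1 a⟩) -
            (τ ^ n - ⟨algebraMap A₀ F a', hS.A_mem1 a'⟩) : B1) : F) := by
          push_cast
          change t⁻¹ ^ n * (algebraMap A₀ F c * x - 1) = algebraMap A₀ F c *
            (t⁻¹ ^ n * (x : F) - algebraMap A₀ F a) - (t⁻¹ ^ n - algebraMap A₀ F a')
          have hcF : algebraMap A₀ F c * algebraMap A₀ F a = algebraMap A₀ F a' := by
            rw [← map_mul, hc]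
          linear_combination hcF
        have h3 : t⁻¹ ^ n * (z : F) ∈ B1 := by rw [e]; exact Subtype.mem _
        refine ⟨n, h3, ?_⟩
        have h4 : (⟨_, h3⟩ : B1) = _ := Subtype.ext e
        rw [h4]
        exact 𝔪.sub_mem (𝔪.mul_mem_left _ ha) ha'
      have h5 := J.sub_mem (J.mul_mem_left ⟨algebraMap A₀ F c, hS.A_mem0 c⟩ hxJ) (hJ hz)
      have h6 : (⟨algebraMap A₀ F c, hS.A_mem0 c⟩ : B0) * x - z = 1 := by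
        simp only [z]; ring
      rwa [h6] at h5
  · rw [hmem]
    have h : t⁻¹ ^ 0 * algebraMap A₀ F ϖ₀ ∈ B1 := by simpa using hS.c1.ϖ_mem
    refine ⟨0, h, ?_⟩
    have : (⟨_, h⟩ : B1) = ⟨algebraMap A₀ F ϖ₀, hS.c1.ϖ_mem⟩ := Subtype.ext (by simp)
    rw [this]; exact hϖ

/-- **Main theorem (abstract form).** -/
theorem main [IsAlgClosed κ] {q : ℕ} [Fact q.Prime] [CharP 𝓕 q] {m : ℕ} (hm : 0 < m)
    (hmu : IsUnit (m : A₀)) (hqm : Nat.Coprime q m) {u : F} (hu : ∀ i, (C i).r u ≠ 0)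
    (hh : ∀ V : ValuationSubring F, (∀ c : K₀, algebraMap K₀ F c ∈ V) → V ≠ ⊤ →
      ∃ y : F, y ≠ 0 ∧ u * y ^ m ∈ V ∧ (u * y ^ m)⁻¹ ∈ V)
    {Nα Nβ : F →* F} {Sα Sβ : Set ι} (top sub : ι)
    (hα : NormG C B0 q Nα Sα) (hβ : NormG C B0 q Nβ Sβ) (hcov : ∀ i, i ∈ Sα ∨ i ∈ Sβ)
    (htop : top ∈ Sβ) (hsub : sub ∈ Sβ)
    (htopα : ∀ x, x ∈ (C top).O → x ∈ (C sub).O →
      Nα x ∈ (C top).O ∧ (C top).r (Nα x) = (C top).r x * (C sub).r x ^ (q - 1))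
    (hts : ∀ y ∈ R0, ∃ x ∈ B0, (C top).r x = y ∧ (C sub).r x = y)
    {na nb : F} (hna : Nα u = na ^ m) (hnb : Nβ u = nb ^ m) :
    ∃ c : K₀, c ≠ 0 ∧ ∃ x : F, u ^ (q ^ 2) = algebraMap K₀ F c * x ^ m := by
  have hq : q.Prime := Fact.out
  haveI : Nonempty ι := ⟨top⟩
  have huO : ∀ i, u ∈ (C i).O := fun i => Res.mem_of_r_ne_zero (hu i)
  have hu0 : u ≠ 0 := Res.ne_zero_of_r (hu top)
  -- the roots on the components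
  have hroots : ∀ i, ∃ z : 𝓕, z ^ m = (C i).r u := by
    intro i
    rcases hcov i with hi | hi
    · refine exists_root_of_coprime hqm (hu i) (y := (C i).r na) ?_
      have h1 := (hα.r i hi u (huO i)).2
      rw [(root_mem (C := C) hm (by rw [h1]; exact pow_ne_zero _ (hu i)) hna).2, h1]
    · refine exists_root_of_coprime hqm (hu i) (y := (C i).r nb) ?_
      have h1 := (hβ.r i hi u (huO i)).2
      rw [(root_mem (C := C) hm (by rw [h1]; exact pow_ne_zero _ (hu i)) hnb).2, h1]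
  choose g hg' using hroots
  have hg : ∀ i, (C i).r u = g i ^ m := fun i => (hg' i).symm
  have hg0 : ∀ i, g i ≠ 0 := by
    intro i h0
    apply hu i
    rw [hg, h0, zero_pow hm.ne']
  have hglue := fun b => hS.glue hq.two_le hm hg0 hg top sub hα hβ hcov htop hsub htopα hts
    hna hnb b
  choose μ hμm hμ using hglue
  have hμ0 : ∀ i, μ i ≠ 0 := fun i h => by
    have := hμm i
    rw [h, zero_pow hm.ne'] at this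
    exact zero_ne_one this
  -- the final unit
  set w : F := u ^ (q ^ 2) with hw
  let g' : ι → 𝓕 := fun i => algebraMap κ 𝓕 (μ i) * g i ^ (q ^ 2)
  have hg0' : ∀ i, g' i ≠ 0 := fun i =>
    mul_ne_zero (by simpa using hμ0 i) (pow_ne_zero _ (hg0 i))
  have hg' : ∀ i, (C i).r w = g' i ^ m := by
    intro i
    rw [hw, Res.r_pow (huO i), hg, mul_pow, ← map_pow, hμm, map_one,
      one_mul, ← pow_mul, ← pow_mul, mul_comm]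
  have hwr : ∀ i, (C i).r w ≠ 0 := fun i => by rw [hg']; exact pow_ne_zero m (hg0' i)
  -- local roots of `u`
  have hloc : ∀ {B : Subring F} {R : Subring 𝓕} (hB : Chart B C R (algebraMap A₀ F ϖ₀))
      (hAB : ∀ a : A₀, algebraMap A₀ F a ∈ B)
      {𝔪 : Ideal B} (h𝔪 : 𝔪.IsMaximal) (hϖ : (⟨algebraMap A₀ F ϖ₀, hB.ϖ_mem⟩ : B) ∈ 𝔪)
      {i : ι} {x : B} (hi : hB.P i ≤ 𝔪) (hx : hB.LocGen 𝔪 i x),
      ∃ h : F, h ≠ 0 ∧ ∃ y : B, y ∉ 𝔪 ∧ h ^ m * u = y := by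
    intro B R hB hAB 𝔪 h𝔪 hϖ i x hi hx
    refine hB.local_root h𝔪 hi hx hϖ hm hu0 (fun i => ⟨1, one_ne_zero, ?_⟩) fun V hBV hϖV hV => ?_
    · rw [one_pow, mul_one]; exact hu i
    · exact hh V
        (fun c => hS.K_le_of (V := V.toSubring) (fun a => hBV _ (hAB a)) hϖV c) hV
  -- local lifting in the first chart
  have hL0 : ∀ 𝔪 : Ideal B0, 𝔪.IsMaximal →
      (⟨algebraMap A₀ F ϖ₀, hS.c0.ϖ_mem⟩ : B0) ∈ 𝔪 →
      ∃ N : ℕ, ∃ b ∉ 𝔪, ∃ h' : F, h' ^ m * w ^ q ^ N ∈ B0 ∧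
        ∀ i, (C i).r h' * g' i ^ q ^ N = (C i).r ((b : B0) : F) := by
    intro 𝔪 h𝔪 hϖ
    obtain ⟨i, x, hi, hx⟩ := hS.gen0 𝔪 h𝔪 hϖ
    obtain ⟨h, hh0, y, hy, hhy⟩ := hloc hS.c0 hS.A_mem0 h𝔪 hϖ hi hx
    have hhy' : (h ^ (q ^ 2)) ^ m * w = ((y ^ (q ^ 2) : B0) : F) := by
      push_cast
      rw [← hhy, hw]; ring
    have hy' : y ^ (q ^ 2) ∉ 𝔪 := fun h => hy (h𝔪.isPrime.mem_of_pow_mem _ h)
    by_cases huniq : ∀ j, hS.c0.P j ≤ 𝔪 → j = i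
    · exact hS.c0.lift_single hS.R_closed0 hS.inc0 h𝔪 hm hg0' hg' hi
        huniq hy' hhy'
    · push Not at huniq
      obtain ⟨j₀, hj₀, hji⟩ := huniq
      have hall := hS.all0 𝔪 h𝔪 hϖ j₀ i hji hj₀ hi
      choose ev hev using fun k => hS.exists_ev h𝔪 hϖ (hall k)
      have hhB : h ^ m * u ∈ B0 := hhy ▸ y.2
      have hhO : ∀ i, h ∈ (C i).O := fun i => hS.c0.mem_O_of_pow (hu i) hm hhB
      have hγm : ∀ i, (g i * (C i).r h) ^ m = (C i).r (y : F) := by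
        intro i
        rw [← hhy, Res.r_mul (pow_mem (hhO i) m) (huO i),
          Res.r_pow (hhO i), hg, mul_pow, mul_comm]
      have hγR : ∀ i, g i * (C i).r h ∈ R0 := fun i =>
        hS.R_closed0 _ m hm (by rw [hγm]; exact hS.c0.mem_R i _ y.2)
      let γ : ι → R0 := fun i => ⟨_, hγR i⟩
      have hevγ : ∀ i, ev i (γ i) ≠ 0 := by
        intro i h0
        apply hy
        apply hS.ev_eq_zero h𝔪 hϖ (hall i) (hev i)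
        have : hS.c0.rho i y = γ i ^ m := by
          apply Subtype.ext
          rw [hS.c0.rho_apply]
          push_cast
          exact (hγm i).symm
        rw [this, map_pow, h0, zero_pow hm.ne']
      have hrel := fun k => hμ k 𝔪 h𝔪 hϖ ev hev h hhB γ (fun i => rfl) hevγ
      obtain ⟨a, ha⟩ := hS.π_surj (ev top (γ top) ^ (q ^ 2))
      have hra : ∀ i, hS.c0.rho i ⟨algebraMap A₀ F a, hS.A_mem0 a⟩ =
          ⟨algebraMap κ 𝓕 (π a), hS.cmem top _⟩ := fun i => Subtype.ext (hS.r_alg i a)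
      refine hS.c0.lift_local hS.inc0 h𝔪 hm hg0' hg' hhy' ⟨algebraMap A₀ F a, hS.A_mem0 a⟩ ?_ ?_
      · intro hmem
        have h1 := hev top ⟨algebraMap A₀ F a, hS.A_mem0 a⟩ 0 (by
          have : (⟨algebraMap A₀ F 0, hS.A_mem0 0⟩ : B0) = 0 := Subtype.ext (map_zero _)
          rw [this, sub_zero]; exact hmem)
        rw [hra, hS.ev_const (hev top), map_zero, ha] at h1
        exact pow_ne_zero _ (hevγ top) h1
      · intro j _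
        let z : R0 := ⟨_, hS.cmem top (μ j)⟩ * γ j ^ (q ^ 2) - ⟨algebraMap κ 𝓕 (π a), hS.cmem top _⟩
        have hz : ev j z = 0 := by
          simp only [z]
          rw [map_sub, map_mul, map_pow, hS.ev_const (hev j), hS.ev_const (hev j), hrel j, ha,
            sub_self]
        obtain ⟨n, hn⟩ := hS.c0.rho_surjective j z
        refine ⟨n, ?_, ?_⟩
        · exact hS.ev_eq_zero h𝔪 hϖ (hall j) (hev j) (by rw [hn, hz])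
        · have e1 : (C j).r (n : F) = algebraMap κ 𝓕 (μ j) * (g j * (C j).r h) ^ (q ^ 2) -
              algebraMap κ 𝓕 (π a) := by
            rw [← hS.c0.rho_apply, hn]; rfl
          have e2 : (C j).r (algebraMap A₀ F a) = algebraMap κ 𝓕 (π a) := hS.r_alg j a
          change g' j * (C j).r (h ^ (q ^ 2)) = (C j).r (algebraMap A₀ F a) + (C j).r (n : F)
          rw [e1, e2, Res.r_pow (hhO j)]
          change algebraMap κ 𝓕 (μ j) * g j ^ (q ^ 2) * (C j).r h ^ (q ^ 2) = _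
          rw [mul_pow]; ring
  -- local lifting in the second chart
  have hL1 : ∀ 𝔪 : Ideal B1, 𝔪.IsMaximal →
      (⟨algebraMap A₀ F ϖ₀, hS.c1.ϖ_mem⟩ : B1) ∈ 𝔪 →
      ∃ N : ℕ, ∃ b ∉ 𝔪, ∃ h' : F, h' ^ m * w ^ q ^ N ∈ B1 ∧
        ∀ i, (C i).r h' * g' i ^ q ^ N = (C i).r ((b : B1) : F) := by
    intro 𝔪 h𝔪 hϖ
    by_cases ht : (⟨t⁻¹, hS.t_mem'⟩ : B1) ∈ 𝔪
    · obtain ⟨i, x, hi, hx⟩ := hS.gen1 𝔪 h𝔪 hϖ ht
      obtain ⟨h, hh0, y, hy, hhy⟩ := hloc hS.c1 hS.A_mem1 h𝔪 hϖ hi hx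
      have hhy' : (h ^ (q ^ 2)) ^ m * w = ((y ^ (q ^ 2) : B1) : F) := by
        push_cast
        rw [← hhy, hw]; ring
      have hy' : y ^ (q ^ 2) ∉ 𝔪 := fun h => hy (h𝔪.isPrime.mem_of_pow_mem _ h)
      exact hS.c1.lift_single hS.R_closed1 hS.inc1 h𝔪 hm hg0' hg' hi
        (fun j hj => hS.meet1 𝔪 h𝔪 hϖ ht j i hj hi) hy' hhy'
    · obtain ⟨𝔪₀, h𝔪₀, hϖ₀, htr⟩ := hS.transfer h𝔪 hϖ ht
      obtain ⟨N, b, hb, h', hh', hr⟩ := hL0 𝔪₀ h𝔪₀ hϖ₀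
      obtain ⟨n₁, hn₁⟩ := hS.ov0 _ b.2
      obtain ⟨n₂, hn₂⟩ := hS.ov0 _ hh'
      set n := n₁ + n₂ with hn
      have hbB1 : t⁻¹ ^ n * (b : F) ∈ B1 := by
        have : t⁻¹ ^ n * (b : F) = t⁻¹ ^ n₂ * (t⁻¹ ^ n₁ * (b : F)) := by rw [hn, pow_add]; ring
        rw [this]; exact B1.mul_mem (B1.pow_mem hS.t_mem' _) hn₁
      refine ⟨N, ⟨_, hbB1⟩, fun h => hb (htr b n hbB1 h), t⁻¹ ^ n * h', ?_, fun i => ?_⟩
      · obtain ⟨l, rfl⟩ := Nat.exists_eq_succ_of_ne_zero hm.ne'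
        have : (t⁻¹ ^ n * h') ^ l.succ * w ^ q ^ N =
            t⁻¹ ^ (n * l + n₁) * (t⁻¹ ^ n₂ * (h' ^ l.succ * w ^ q ^ N)) := by
          rw [mul_pow, ← pow_mul, Nat.mul_succ, pow_add, pow_add, hn, pow_add]; ring
        rw [this]
        exact B1.mul_mem (B1.pow_mem hS.t_mem' _) hn₂
      · have hwrN : (C i).r (w ^ q ^ N) ≠ 0 := Res.r_pow_ne_zero (hwr i) _
        have h'O : h' ∈ (C i).O := hS.c0.mem_O_of_pow hwrN hm hh'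
        have htO := pow_mem (hS.c1.le i _ hS.t_mem') n
        rw [Res.r_mul htO h'O, mul_assoc, hr, ← Res.r_mul htO (hS.c0.le i _ b.2)]
  obtain ⟨N₀, hN₀⟩ := hS.c0.lift_global (q := q) hm hg0' hg' hL0
  obtain ⟨N₁, hN₁⟩ := hS.c1.lift_global (q := q) hm hg0' hg' hL1
  obtain ⟨h₀, hh₀, hr₀⟩ := hN₀ (max N₀ N₁) (le_max_left _ _)
  obtain ⟨h₁, hh₁, hr₁⟩ := hN₁ (max N₀ N₁) (le_max_right _ _)
  set Q := q ^ max N₀ N₁ with hQ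
  have hgQ : ∀ i, g' i ^ Q ≠ 0 := fun i => pow_ne_zero _ (hg0' i)
  obtain ⟨x, hx0, c, hc⟩ := hS.toTwoCharts.kl hm hmu (U := w ^ Q)
    (fun i => Res.r_pow_ne_zero (hwr i) _) hh₀ hh₁ (fun i => by
      rw [Res.r_pow (Res.mem_of_r_ne_zero (hwr i)), hg', ← pow_mul, mul_comm m, pow_mul,
        ← mul_pow, hr₀, one_pow]) (fun i => by
      apply mul_right_cancel₀ (hgQ i)
      rw [hr₀, hr₁])
  -- conclusion
  have hw0 : w ≠ 0 := Res.ne_zero_of_r (hwr top)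
  have hc0 : c ≠ 0 := by
    rintro rfl
    rw [map_zero] at hc
    exact mul_ne_zero (pow_ne_zero _ hx0) (pow_ne_zero _ hw0) hc
  have hcop : Nat.Coprime Q m := Nat.Coprime.pow_left _ hqm
  have h1 := Nat.gcd_eq_gcd_ab Q m
  rw [Nat.Coprime.gcd_eq_one hcop] at h1
  have h1' : (Q : ℤ) * Nat.gcdA Q m + m * Nat.gcdB Q m = 1 := by rw [← h1]; rfl
  refine ⟨c ^ Nat.gcdA Q m, zpow_ne_zero _ hc0, (x⁻¹) ^ Nat.gcdA Q m * w ^ Nat.gcdB Q m, ?_⟩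
  have hwQ : w ^ Q = algebraMap K₀ F c * (x⁻¹) ^ m := by
    rw [← hc, inv_pow]
    have := pow_ne_zero m hx0
    field_simp
  calc w = w ^ ((Q : ℤ) * Nat.gcdA Q m + m * Nat.gcdB Q m) := by rw [h1', zpow_one]
    _ = (w ^ Q) ^ Nat.gcdA Q m * (w ^ Nat.gcdB Q m) ^ m := by
      rw [zpow_add₀ hw0, zpow_mul, zpow_natCast, mul_comm (m : ℤ), zpow_mul, zpow_natCast]
    _ = _ := by
      rw [hwQ, mul_zpow, map_zpow₀, mul_pow, ← zpow_natCast ((x⁻¹) ^ Nat.gcdA Q m), ← zpow_mul,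
        mul_comm _ (m : ℤ), zpow_mul, zpow_natCast]
      ring

end SetupG

end Fermat.Agent.CarG
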