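import Fermat.Agent.Carayol.Icr3

/-!
# Denominators and dominating valuation rings
-/

set_option autoImplicit false
set_option linter.unusedSectionVars false

noncomputable section

namespace Fermat.Agent.CarG

open IsLocalRing

variable {F : Type*} [Field F] {B : Subring F}

/-- `V` dominates the localisation of `B` at `𝔪` -/
structure Dom (V : ValuationSubring F) (𝔪 : Ideal B) : Prop where
  le : ∀ b : B, (b : F) ∈ V
  lt : ∀ b : B, b ∈ 𝔪 → V.valuation (b : F) < 1
  inv : ∀ b : B, b ∉ 𝔪 → (b : F)⁻¹ ∈ V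

theorem exists_den (hB : IsIntegrallyClosedIn B F) (𝔪 : Ideal B) [𝔪.IsPrime] {x : F}
    (h : ∀ V : ValuationSubring F, Dom V 𝔪 → x ∈ V) : ∃ s : B, s ∉ 𝔪 ∧ (s : F) * x ∈ B := by
  by_contra hcon
  push Not at hcon
  set R := LocalSubring.ofPrime B 𝔪 with hR
  have hinv : ∀ b : B, b ∉ 𝔪 → (b : F) ≠ 0 := by
    intro b hb h0
    apply hb
    have : b = 0 := Subtype.ext h0
    rw [this]
    exact 𝔪.zero_mem
  -- elements of `R`
  have hmem : ∀ z : F, z ∈ R.toSubring → ∃ b s : B, s ∉ 𝔪 ∧ z = b * (s : F)⁻¹ := by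
    intro z hz
    obtain ⟨⟨b, s⟩, hbs⟩ := IsLocalization.surj (M := 𝔪.primeCompl) (⟨z, hz⟩ : R.toSubring)
    refine ⟨b, s, s.2, ?_⟩
    have h1 := congrArg (Subtype.val) hbs
    have h2 : z * ((s : B) : F) = (b : F) := h1
    rw [← h2, mul_inv_cancel_right₀ (hinv _ s.2)]
  haveI : IsIntegrallyClosedIn R.toSubring F := by
    rw [isIntegrallyClosedIn_iff]
    refine ⟨Subtype.val_injective, fun {z} hz => ?_⟩
    obtain ⟨m, hm⟩ := IsIntegral.exists_multiple_integral_of_isLocalization 𝔪.primeCompl z hz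
    obtain ⟨b, hb⟩ := (isIntegrallyClosedIn_iff.1 hB).2 hm
    have h1 : ((m : B) : F) * z = (b : F) := by
      rw [show (b : F) = algebraMap B F b from rfl, hb]
      rfl
    have hbR := LocalSubring.le_ofPrime B 𝔪 b.2
    have hmi : ((m : B) : F)⁻¹ ∈ R.toSubring := by
      have h2 := IsLocalization.map_units R.toSubring m
      obtain ⟨u, hu⟩ := h2.exists_right_inv
      have h3 : ((m : B) : F) * (u : F) = 1 := congrArg Subtype.val hu
      rw [inv_eq_of_mul_eq_one_right h3]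
      exact u.2
    have h4 : z = (b : F) * ((m : B) : F)⁻¹ := by
      rw [← h1, mul_comm, inv_mul_cancel_left₀ (hinv _ m.2)]
    refine ⟨⟨z, ?_⟩, rfl⟩
    rw [h4]
    exact mul_mem hbR hmi
  have hx : x ∉ R.toSubring := by
    intro hx
    obtain ⟨b, s, hs, rfl⟩ := hmem x hx
    refine hcon s hs ?_
    rw [mul_comm, inv_mul_cancel_right₀ (hinv _ hs)]
    exact b.2
  obtain ⟨V, hV, hxV⟩ := LocalSubring.exists_le_valuationSubring_of_isIntegrallyClosedIn hx
  refine hxV (h V ?_)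
  obtain ⟨hle, hloc⟩ := hV
  refine ⟨fun b => hle (LocalSubring.le_ofPrime B 𝔪 b.2), fun b hb => ?_, fun b hb => ?_⟩
  · have h1 : (b : F) ∈ V := hle (LocalSubring.le_ofPrime B 𝔪 b.2)
    have h2 : V.valuation (b : F) ≤ 1 := (V.valuation_le_one_iff _).2 h1
    refine lt_of_le_of_ne h2 fun h3 => ?_
    have h4 : IsUnit (⟨(b : F), h1⟩ : V) := (V.valuation_eq_one_iff ⟨(b : F), h1⟩).2 h3
    have h5 : IsUnit (algebraMap B R.toSubring b) := by
      haveI := hloc
      exact (isUnit_map_iff (Subring.inclusion hle) _).1 h4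
    have h6 := (IsLocalization.AtPrime.isUnit_to_map_iff R.toSubring 𝔪 b).1 h5
    exact h6 hb
  · have h2 := IsLocalization.map_units R.toSubring (⟨b, hb⟩ : 𝔪.primeCompl)
    obtain ⟨u, hu⟩ := h2.exists_right_inv
    have h3 : (b : F) * (u : F) = 1 := congrArg Subtype.val hu
    rw [inv_eq_of_mul_eq_one_right h3]
    exact hle u.2

variable {V : ValuationSubring F} {𝔪 : Ideal B}

theorem Dom.ne_zero (_h : Dom V 𝔪) {b : B} (hb : b ∉ 𝔪) : (b : F) ≠ 0 := by
  intro h0
  apply hb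
  have : b = 0 := Subtype.ext h0
  rw [this]
  exact 𝔪.zero_mem

end Fermat.Agent.CarG
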