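import Fermat.Agent.CarG.ChtA
import Fermat.Agent.CarG.Lmc

/-!
# The second chart at level `q ^ a * M'`
-/

set_option autoImplicit false
set_option linter.unusedSectionVars false
set_option linter.style.haveILetI false
set_option synthInstance.maxHeartbeats 400000

noncomputable section

namespace Fermat.Agent.CarG

open ModularCurve Fermat.Agent.GoodRed Fermat.Agent.ModFun Fermat.Agent.GenusX0
open Fermat.Agent.Models IsLocalRing Polynomial IntermediateField Fermat.Agent.Carayol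
open Fermat.Agent.SSMod AlgebraicCurve Fermat.Agent.Curves

section Aux

variable {k₀ K κ : Type} [Field k₀] [Field K] [Field κ] [Algebra k₀ K] {q M' : ℕ}
  [NeZero q] [NeZero M'] (S : Sit k₀ K κ q M')

theorem s1_B1 : S.s1 ∈ icr S.A₀ S.j1⁻¹ := S.s1_mem
theorem s2_B1 : S.s2 ∈ icr S.A₀ S.j1⁻¹ := S.s2_mem

theorem w_s1_B1 : S.j2⁻¹ ^ q * S.jq' ∈ icr S.A₀ S.j2⁻¹ := by
  have h := SitA.w_A (s1_B1 S)
  rwa [map_mul, map_pow, map_inv₀, S.w_j1, S.w_jq] at h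

theorem w_s2_B1 : S.j2⁻¹ ^ q ^ 2 * S.j1 ∈ icr S.A₀ S.j2⁻¹ := by
  have h := SitA.w_A (s2_B1 S)
  rwa [map_mul, map_pow, map_inv₀, S.w_j1, S.w_j2] at h

theorem inM_B1 {f : FF k₀ M'} {y : LaurentSeries κ} (hf : f ∈ icr k₀ (je k₀ M')⁻¹)
    (hy : S.RM f y) : S.inM f ∈ icr S.A₀ S.j1⁻¹ :=
  S.mem_B1.2 ⟨S.inM_icr' hf, fun i => Sit.mem_C.2 (S.in_mem hy i)⟩

theorem exM_B1 {f : FF k₀ M'} {y : LaurentSeries κ} (hf : f ∈ icr k₀ (je k₀ M')⁻¹)
    (hy : S.RM f y) : S.exM f ∈ icr S.A₀ S.j2⁻¹ := by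
  have h := SitA.w_A (inM_B1 S hf hy)
  rwa [S.w_in, map_inv₀, S.w_j1] at h

end Aux

namespace SitA

variable {k₀ K κ : Type} [Field k₀] [Field K] [Field κ] [Algebra k₀ K] {q M' : ℕ}
  [NeZero q] [NeZero M'] {S : Sit k₀ K κ q M'} {a : ℕ} (T : SitA S a)

/-- `j` is integral over every `j(q^k z)` -/
theorem j0_int' (k : ℕ) (hk : k ≤ a) : T.j0 ∈ icr S.A₀ (T.jj k hk) := by
  have ha := T.ha
  by_cases h : k = 1
  · subst h
    have h1 := T.δ_icr 1 (by omega) (j2_A (S := S))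
    rw [T.δ_j2 1 (by omega), T.δ_j1 1 (by omega)] at h1
    exact icr_le h1 (T.j0_int 3 ha (by norm_num))
  · exact T.j0_int k hk h

/-! ### valuation rings at the cusps -/

/-- a valuation ring containing the constants, centred at a cusp -/
structure Cusp (V : ValuationSubring T.F) : Prop where
  const : ∀ c : S.A₀, algebraMap S.A₀ T.F c ∈ V
  j : T.j0 ∉ V

variable {T} {V : ValuationSubring T.F}

theorem Cusp.jj (h : T.Cusp V) (k : ℕ) (hk : k ≤ a) : T.jj k hk ∉ V := fun h1 =>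
  h.j (icr_le_val h.const h1 (T.j0_int' k hk))

theorem Cusp.jji (h : T.Cusp V) (k : ℕ) (hk : k ≤ a) : (T.jj k hk)⁻¹ ∈ V :=
  (V.mem_or_inv_mem _).resolve_left (h.jj k hk)

theorem Cusp.of_icr (h : T.Cusp V) {k : ℕ} {hk : k ≤ a} {x : T.F}
    (hx : x ∈ icr S.A₀ (T.jj k hk)⁻¹) : x ∈ V := icr_le_val h.const (h.jji k hk) hx

/-- going up by two steps -/
theorem Cusp.up2 (h : T.Cusp V) (k : ℕ) (hk : k + 2 ≤ a) :
    (T.jj k (by omega))⁻¹ ^ q ^ 2 * T.jj (k + 2) hk ∈ V := by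
  have h1 := T.δ_icr k hk (s2_B1 S)
  rw [map_mul, map_pow, map_inv₀, T.δ_j1 k hk, T.δ_j2 k hk] at h1
  exact h.of_icr h1

theorem Cusp.up1' (h : T.Cusp V) (k : ℕ) (hk : k + 2 ≤ a) :
    (T.jj k (by omega))⁻¹ ^ q * T.jj (k + 1) (by omega) ∈ V := by
  have h1 := T.δ_icr k hk (s1_B1 S)
  rw [map_mul, map_pow, map_inv₀, T.δ_j1 k hk, T.δ_jq k hk] at h1
  exact h.of_icr h1

theorem Cusp.down2 (h : T.Cusp V) (k : ℕ) (hk : k + 2 ≤ a) :
    (T.jj (k + 2) hk)⁻¹ ^ q ^ 2 * T.jj k (by omega) ∈ V := by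
  have h1 := T.δ_icr k hk (w_s2_B1 S)
  rw [map_mul, map_pow, map_inv₀, T.δ_j1 k hk, T.δ_j2 k hk] at h1
  exact h.of_icr h1

theorem Cusp.down1' (h : T.Cusp V) (k : ℕ) (hk : k + 2 ≤ a) :
    (T.jj (k + 2) hk)⁻¹ ^ q * T.jj (k + 1) (by omega) ∈ V := by
  have h1 := T.δ_icr k hk (w_s1_B1 S)
  rw [map_mul, map_pow, map_inv₀, T.δ_jq k hk, T.δ_j2 k hk] at h1
  exact h.of_icr h1

variable (T)

/-- the functions `j(q^k z)/j(z)^(q^k)` -/
def ss (k : ℕ) (hk : k ≤ a) : T.F := T.j0⁻¹ ^ q ^ k * T.jj k hk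

/-- the functions `j(q^k z)/j(q^a z)^(q^(a-k))` -/
def st (k : ℕ) (hk : k ≤ a) : T.F := (T.jj a le_rfl)⁻¹ ^ q ^ (a - k) * T.jj k hk

variable {T}

theorem Cusp.ss (h : T.Cusp V) (k : ℕ) (hk : k ≤ a) : T.ss k hk ∈ V := by
  have ha := T.ha
  induction k using Nat.strong_induction_on with
  | _ k ih =>
    rcases Nat.lt_or_ge k 2 with h2 | h2
    · interval_cases k
      · rw [SitA.ss]
        change T.j0⁻¹ ^ q ^ 0 * T.j0 ∈ V
        rw [pow_zero, pow_one, inv_mul_cancel₀ (T.jj_ne 0 _)]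
        exact one_mem _
      · have h1 := h.up1' 0 (by omega)
        rw [SitA.ss, pow_one]
        exact h1
    · obtain ⟨l, rfl⟩ : ∃ l, k = l + 2 := ⟨k - 2, by omega⟩
      have h1 := h.up2 l hk
      have h3 := ih l (by omega) (by omega)
      have e : T.ss (l + 2) hk = ((T.jj l (by omega))⁻¹ ^ q ^ 2 * T.jj (l + 2) hk) *
          T.ss l (by omega) ^ q ^ 2 := by
        rw [SitA.ss, SitA.ss, mul_pow, ← pow_mul T.j0⁻¹, ← pow_add]
        have h4 := pow_ne_zero (q ^ 2) (T.jj_ne l (by omega))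
        rw [inv_pow (T.jj l _)]
        field_simp
      rw [e]
      exact mul_mem h1 (pow_mem h3 _)

theorem Cusp.st (h : T.Cusp V) (k : ℕ) (hk : k ≤ a) : T.st k hk ∈ V := by
  have ha := T.ha
  obtain ⟨l, hl⟩ : ∃ l, k + l = a := ⟨a - k, by omega⟩
  induction l using Nat.strong_induction_on generalizing k with
  | _ l ih =>
    rcases Nat.lt_or_ge l 2 with h2 | h2
    · interval_cases l
      · have : k = a := by omega
        subst this
        rw [SitA.st, Nat.sub_self, pow_zero, pow_one, inv_mul_cancel₀ (T.jj_ne k _)]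
        exact one_mem _
      · obtain ⟨i, rfl⟩ : ∃ i, k = i + 1 := ⟨k - 1, by omega⟩
        have ha2 : a = i + 2 := by omega
        subst ha2
        have h1 := h.down1' i le_rfl
        rw [SitA.st, show i + 2 - (i + 1) = 1 by omega, pow_one]
        exact h1
    · have h1 := h.down2 k (by omega)
      have h3 := ih (l - 2) (by omega) (k + 2) (by omega) (by omega)
      have e : T.st k hk = ((T.jj (k + 2) (by omega))⁻¹ ^ q ^ 2 * T.jj k hk) *
          T.st (k + 2) (by omega) ^ q ^ 2 := by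
        have e1 : a - k = (a - (k + 2)) + 2 := by omega
        rw [SitA.st, SitA.st, mul_pow, ← pow_mul (T.jj a le_rfl)⁻¹, ← pow_add, ← e1]
        have h4 := pow_ne_zero (q ^ 2) (T.jj_ne (k + 2) (by omega))
        rw [inv_pow (T.jj (k + 2) _)]
        field_simp
      rw [e]
      exact mul_mem h1 (pow_mem h3 _)

variable (T)

theorem ss_B1 (k : ℕ) (hk : k ≤ a) : T.ss k hk ∈ T.B1 := by
  refine icr_of_val fun V hc hj => ?_
  by_cases h : T.j0 ∈ V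
  · exact mul_mem (pow_mem hj _) (icr_le_val hc h (T.jj_int k hk))
  · exact Cusp.ss ⟨hc, h⟩ k hk

/-! ### residues -/

theorem ee_zero_le (b k : ℕ) (hb : b ≤ a) (hk : k ≤ a) : ee a b k ≤ ee a b 0 + k := by
  rw [ee, ee, if_pos (Nat.zero_le _)]
  split_ifs <;> omega

theorem r_ss (b : Fin (a + 1)) (k : ℕ) (hk : k ≤ a) :
    (T.C b).r (T.ss k hk) = (S.jR ^ q ^ ee a b 0)⁻¹ ^ q ^ k * S.jR ^ q ^ ee a b k := by
  rw [ss, Res.r_mul (pow_mem (T.jji_memC b 0 _) _) (T.jj_memC b k hk),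
    Res.r_pow (T.jji_memC b 0 _), Res.r_inv (T.r_jj_ne b 0 _), T.C_r_jj, T.C_r_jj]

theorem r_j0i (b : Fin (a + 1)) : (T.C b).r T.j0⁻¹ = (S.jR ^ q ^ ee a b 0)⁻¹ := by
  rw [Res.r_inv (T.r_jj_ne b 0 _), T.C_r_jj]

theorem r_ss_one (b : Fin (a + 1)) (k : ℕ) (hk : k ≤ a) (hkb : k ≤ b) :
    (T.C b).r (T.ss k hk) = 1 := by
  rw [r_ss, inv_pow, ← pow_mul, ← pow_add]
  have : ee a b k = ee a b 0 + k := by
    rw [ee, ee, if_pos hkb, if_pos (Nat.zero_le _)]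
    omega
  rw [this]
  exact inv_mul_cancel₀ (pow_ne_zero _ S.jR_ne)

theorem r_ss_far (b : Fin (a + 1)) (k : ℕ) (hk : k ≤ a) (hkb : (b : ℕ) < k) :
    ∃ n : ℕ, 0 < n ∧ (T.C b).r (T.ss k hk ^ q ^ ee a b 0) = (T.C b).r (T.j0⁻¹ ^ n) := by
  have hb : (b : ℕ) ≤ a := Nat.lt_succ_iff.1 b.2
  have hq1 : 1 < q := S.hq.one_lt
  have h1 : ee a b k < ee a b 0 + k := by
    rw [ee, ee, if_neg (by omega), if_pos (Nat.zero_le _)]
    omega
  have h2 : q ^ ee a b k < q ^ (ee a b 0 + k) := Nat.pow_lt_pow_right hq1 h1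
  refine ⟨q ^ (ee a b 0 + k) - q ^ ee a b k, by omega, ?_⟩
  have h3 : T.ss k hk ∈ (T.C b).O :=
    mul_mem (pow_mem (T.jji_memC b 0 _) _) (T.jj_memC b k hk)
  rw [Res.r_pow h3, Res.r_pow (T.jji_memC b 0 _), r_ss, r_j0i, inv_pow, inv_pow, ← pow_mul,
    ← pow_mul, ← pow_add]
  obtain ⟨n, hn⟩ : ∃ n, q ^ (ee a b 0 + k) = n + q ^ ee a b k := ⟨_, (Nat.sub_add_cancel h2.le).symm⟩
  have hj := S.jR_ne
  rw [hn, Nat.add_sub_cancel, mul_pow, inv_pow, ← pow_mul, ← pow_mul]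
  have e : (n + q ^ ee a b k) * q ^ ee a b 0 = q ^ ee a b 0 * n + q ^ ee a b k * q ^ ee a b 0 := by
    ring
  rw [e, pow_add]
  have h4 := pow_ne_zero (q ^ ee a b k * q ^ ee a b 0) hj
  have h5 := pow_ne_zero (q ^ ee a b 0 * n) hj
  field_simp

/-! ### surjectivity -/

theorem exM_jji_aux {f : FF k₀ M'} {y : LaurentSeries κ} (hf : f ∈ icr k₀ (je k₀ M')⁻¹)
    (hy : S.RM f y) (l : ℕ) (hk : l + 2 ≤ a) :
    T.exM (l + 2) hk f ∈ icr S.A₀ (T.jj (l + 2) hk)⁻¹ := by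
  have h3 := T.δ_icr l hk (exM_B1 S hf hy)
  rw [T.δ_exM2 l hk f, map_inv₀, T.δ_j2 l hk] at h3
  exact h3

theorem exM_jji_aux' {f : FF k₀ M'} {y : LaurentSeries κ} (hf : f ∈ icr k₀ (je k₀ M')⁻¹)
    (hy : S.RM f y) (k : ℕ) (hk : k ≤ a) (l : ℕ) (hkl : k = l + 2) :
    T.exM k hk f ∈ icr S.A₀ (T.jj k hk)⁻¹ := by
  subst hkl
  exact T.exM_jji_aux hf hy l hk

theorem exM_jji {f : FF k₀ M'} {y : LaurentSeries κ} (hf : f ∈ icr k₀ (je k₀ M')⁻¹)
    (hy : S.RM f y) : T.exM a le_rfl f ∈ icr S.A₀ (T.jj a le_rfl)⁻¹ :=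
  T.exM_jji_aux' hf hy a le_rfl (a - 2) (by have := T.ha; omega)

theorem exM_kk_R {b : Fin (a + 1)} {f : FF k₀ M'} {y : S.𝓕} (hy : S.RM f y) :
    (T.C b).r (T.exM (kk a b) (kk_le b) f) = y := C_r (T.R_exM_kk b hy)

theorem closed1 : IsIntegrallyClosedIn T.B1 T.F := icr_closedIn _

theorem algebraMap_mem_B1 (c : S.A₀) : algebraMap S.A₀ T.F c ∈ T.B1 := const_mem_icr _ _
theorem j0i_mem : T.j0⁻¹ ∈ T.B1 := self_mem_icr _

/-- functions at the cusps -/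
theorem exists_den1 {𝔪 : Ideal T.B1} (hp : 𝔪.IsPrime) (ht : (⟨T.j0⁻¹, T.j0i_mem⟩ : T.B1) ∈ 𝔪)
    {x : T.F} (h : ∀ V : ValuationSubring T.F, Dom V 𝔪 → T.Cusp V → x ∈ V) :
    ∃ s : T.B1, s ∉ 𝔪 ∧ (s : T.F) * x ∈ T.B1 := by
  haveI := hp
  refine exists_den T.closed1 𝔪 fun V hV => h V hV ⟨fun c => hV.le ⟨_, T.algebraMap_mem_B1 c⟩,
    fun hj => ?_⟩
  have h1 := hV.lt _ ht
  have h2 : V.valuation T.j0 ≤ 1 := (V.valuation_le_one_iff _).2 hj
  have h3 : V.valuation T.j0⁻¹ * V.valuation T.j0 = 1 := by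
    rw [← map_mul, inv_mul_cancel₀ (T.jj_ne 0 _), map_one]
  have h4 : V.valuation T.j0⁻¹ * V.valuation T.j0 < 1 := mul_lt_one_of_lt_of_le h1 h2
  exact absurd h3 h4.ne

theorem surj1 (b : Fin (a + 1)) (y : S.𝓕) (hy : y ∈ S.R1) : ∃ x ∈ T.B1, (T.C b).r x = y := by
  obtain ⟨f, hf, hfy⟩ := S.lift1 y hy
  have hfy' : S.RM f y := hfy
  by_cases hk : a ≤ 2 * b
  · -- the embedding of level `M'` through `f(z)`
    have h0 : kk a b = 0 := by rw [kk, if_pos hk]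
    have h1 : T.exM 0 (Nat.zero_le a) f ∈ T.B1 := by
      refine T.mem_B1.2 ⟨?_, fun i => mem_C.2 (T.exM_mem i 0 _ hfy')⟩
      have := icr_map (RingHom.id k₀) (T.exM 0 (Nat.zero_le a)) (fun c => T.exM_const 0 _ c) hf
      rwa [map_inv₀] at this
    refine ⟨_, h1, ?_⟩
    have h2 := T.exM_kk_R (b := b) hfy'
    simp only [h0] at h2
    exact h2
  · have h0 : kk a b = a := by rw [kk, if_neg hk]
    -- the ideal of denominators
    let I : Ideal T.B1 :=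
      { carrier := {z | ∃ x ∈ T.B1, (T.C b).r x = (T.C b).r (z : T.F) * y}
        zero_mem' := ⟨0, zero_mem _, by rw [ZeroMemClass.coe_zero, Res.r_zero, zero_mul]⟩
        add_mem' := by
          rintro z z' ⟨x, hx, hxz⟩ ⟨x', hx', hxz'⟩
          refine ⟨x + x', add_mem hx hx', ?_⟩
          rw [Res.r_add ((T.mem_B1.1 hx).2 b) ((T.mem_B1.1 hx').2 b), hxz, hxz']
          push_cast
          rw [Res.r_add ((T.mem_B1.1 z.2).2 b) ((T.mem_B1.1 z'.2).2 b)]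
          ring
        smul_mem' := by
          rintro c z ⟨x, hx, hxz⟩
          refine ⟨c * x, mul_mem c.2 hx, ?_⟩
          rw [Res.r_mul ((T.mem_B1.1 c.2).2 b) ((T.mem_B1.1 hx).2 b), hxz, smul_eq_mul]
          push_cast
          rw [Res.r_mul ((T.mem_B1.1 c.2).2 b) ((T.mem_B1.1 z.2).2 b)]
          ring }
    by_cases hI : I = ⊤
    · obtain ⟨x, hx, hxy⟩ : (1 : T.B1) ∈ I := hI ▸ Submodule.mem_top
      refine ⟨x, hx, ?_⟩
      rw [hxy, OneMemClass.coe_one, Res.r_one, one_mul]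
    exfalso
    obtain ⟨𝔪, h𝔪, hIm⟩ := Ideal.exists_le_maximal I hI
    have hp := h𝔪.isPrime
    by_cases ht : (⟨T.j0⁻¹, T.j0i_mem⟩ : T.B1) ∈ 𝔪
    · obtain ⟨s, hs, hsx⟩ := T.exists_den1 hp ht (x := T.exM a le_rfl f)
        fun V _ hV => hV.of_icr (T.exM_jji hf hfy')
      apply hs
      apply hIm
      refine ⟨_, hsx, ?_⟩
      have h2 := T.exM_kk_R (b := b) hfy'
      simp only [h0] at h2
      rw [Res.r_mul ((T.mem_B1.1 s.2).2 b) (mem_C.2 (T.exM_mem b a _ hfy')), h2]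
    · -- use the first chart
      obtain ⟨n, hn⟩ := icr_overlap (inv_ne_zero S.jR_ne) hy
      rw [inv_inv] at hn
      have hn' : S.jR ^ (q ^ ee a b 0 * n) * y ∈ S.R0 := by
        obtain ⟨l, hl⟩ : ∃ l, q ^ ee a b 0 * n = l + n :=
          ⟨_, (Nat.sub_add_cancel (Nat.le_mul_of_pos_left _ (T.qpos _))).symm⟩
        rw [hl, pow_add, mul_assoc]
        exact mul_mem (pow_mem (self_mem_icr _) _) hn
      obtain ⟨x₀, hx₀, hx₀r⟩ := T.surj0 b _ hn'
      obtain ⟨l, hl⟩ := icr_overlap (T.jj_ne 0 (Nat.zero_le a)) hx₀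
      have hl' : T.j0⁻¹ ^ (l + n) * x₀ ∈ T.B1 := by
        rw [add_comm, pow_add, mul_assoc]
        exact mul_mem (pow_mem T.j0i_mem _) hl
      have h1 : (⟨T.j0⁻¹, T.j0i_mem⟩ : T.B1) ^ l ∈ I := by
        refine ⟨_, hl', ?_⟩
        push_cast
        rw [Res.r_mul (pow_mem (T.jji_memC b 0 _) _) ((T.mem_B0.1 hx₀).2 b), hx₀r,
          Res.r_pow (T.jji_memC b 0 _), Res.r_pow (T.jji_memC b 0 _), T.r_j0i, pow_add, pow_mul]
        have h3 := pow_ne_zero n (pow_ne_zero (q ^ ee a b 0) S.jR_ne)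
        rw [mul_assoc, ← mul_assoc (_ ^ n), inv_pow _ n, inv_mul_cancel₀ h3, one_mul]
      exact ht (hp.mem_of_pow_mem _ (hIm h1))

/-- **the second chart** -/
theorem chart1 : Chart T.B1 T.C S.R1 (algebraMap S.A₀ T.F ((q : ℕ) : S.A₀)) where
  noeth := by
    haveI := tower_A (F := T.F) S.A₀
    exact icr_noeth (k := k₀) T.tr_j0_inv T.finF' T.sepF'
  ded := S.dedR1
  closed x n hn h := icr_root hn h
  frac x := by
    haveI := tower_A (F := T.F) S.A₀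
    exact icr_frac (k := k₀) T.tr_j0_inv T.finF' x
  le i x hx := (T.mem_B1.1 hx).2 i
  mem_R i x hx := T.mem_R1 i hx
  surj := T.surj1
  ϖ_mem := const_mem_icr _ _
  ϖ_ne := by rw [T.algebraMap_ϖ]; exact T.ϖ_ne
  r_ϖ i := by rw [T.algebraMap_ϖ]; exact T.r_ϖ i
  nil := by
    refine ⟨T.NE, fun x hx h => ?_⟩
    rw [T.algebraMap_ϖ]
    refine T.mem_B1.2 ⟨?_, fun i => T.nil_one i ((T.mem_B1.1 hx).2 i) (h i)⟩
    exact mul_mem (pow_mem (T.mem_B1.1 hx).1 _) (T.ϖ_inv_icr _)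

/-! ### functions without poles -/

/-- base change -/
abbrev bK1 : T.F →+* FF K (q ^ a * M') := bc S.cK (q ^ a * M')

include T in
theorem isFF : IsFunctionField K (FF K (q ^ a * M')) := by
  haveI := S.charZeroK
  haveI : IsAlgClosed K := S.acK
  refine isFunctionField_fullC K (q ^ a * M') ?_
  have h3 : q ^ a * M' ≠ 0 := mul_ne_zero (pow_ne_zero a (NeZero.ne q)) (NeZero.ne M')
  exact_mod_cast h3

theorem mem_place {t x : T.F} (hx : x ∈ icr k₀ t) (v : Place K (FF K (q ^ a * M')))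
    (ht : T.bK1 t ∈ v.toValuationSubring) : T.bK1 x ∈ v.toValuationSubring := by
  have h1 := icr_map (algebraMap k₀ K) (bc S.cK (q ^ a * M')) (bc_const S.cK) hx
  exact icr_le_val (fun a => v.algebraMap_mem' a) ht h1

theorem const_of_icr {x : T.F} (h0 : x ∈ icr k₀ T.j0) (h1 : x ∈ icr k₀ T.j0⁻¹) :
    ∃ c : k₀, algebraMap k₀ T.F c = x := by
  haveI := S.charZeroK
  haveI : IsAlgClosed K := S.acK
  haveI := T.isFF
  obtain ⟨c, hc⟩ : ∃ c : K, T.bK1 x = algebraMap K _ c := by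
    rcases transcendental_or (k := K) (T.bK1 x) with htr | ⟨c, hc⟩
    · exfalso
      have htr' : Transcendental K (T.bK1 x)⁻¹ := by
        intro h
        apply htr
        have := h.inv
        rwa [inv_inv] at this
      obtain ⟨w, hw⟩ := exists_ord_pos_of_transcendental htr'
      rw [w.ord_inv] at hw
      have hx0 : T.bK1 x ≠ 0 := by
        intro h
        rw [h] at htr
        exact htr isAlgebraic_zero
      have h2 : T.bK1 x ∈ w.toValuationSubring := by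
        rcases w.toValuationSubring.mem_or_inv_mem (T.bK1 T.j0) with h | h
        · exact T.mem_place h0 w h
        · rw [← map_inv₀] at h
          exact T.mem_place h1 w h
      rw [mem_iff_ord w hx0] at h2
      omega
    · exact ⟨c, hc⟩
  -- the coefficients
  have h2 : coeffMap S.cK (x : LaurentSeries k₀) = HahnSeries.C c := by
    have := congrArg (Subtype.val) hc
    rw [ModFun.C_eq_algebraMap]
    exact this
  refine ⟨(x : LaurentSeries k₀).coeff 0, Subtype.ext ?_⟩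
  rw [coe_const, ← ModFun.C_eq_algebraMap]
  ext n
  have h3 := congrArg (fun f : LaurentSeries K => f.coeff n) h2
  simp only [coeffMap_coeff] at h3
  rcases eq_or_ne n 0 with h | h
  · rw [h, HahnSeries.C_apply, HahnSeries.coeff_single_same]
  · rw [HahnSeries.C_apply, HahnSeries.coeff_single_of_ne h] at h3 ⊢
    exact ((map_eq_zero_iff _ (algebraMap k₀ K).injective).1 h3).symm

/-- **the two charts** -/
theorem two : TwoCharts k₀ T.C T.B0 T.B1 S.R0 S.R1 T.j0 ((q : ℕ) : S.A₀) where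
  irr := S.irr
  t_ne := T.jj_ne 0 _
  c0 := T.chart0
  c1 := T.chart1
  A_mem0 a := const_mem_icr _ _
  A_mem1 a := const_mem_icr _ _
  t_mem := self_mem_icr _
  t_mem' := self_mem_icr _
  fin0 := by
    haveI := tower_A (F := T.F) S.A₀
    exact icr_fin (k := k₀) T.tr_j0 T.finF T.sepF
  fin1 := by
    haveI := tower_A (F := T.F) S.A₀
    exact icr_fin (k := k₀) T.tr_j0_inv T.finF' T.sepF'
  ov0 x hx := icr_overlap (T.jj_ne 0 _) hx
  ov1 x hx := by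
    obtain ⟨n, hn⟩ := icr_overlap (inv_ne_zero (T.jj_ne 0 (Nat.zero_le a))) hx
    rw [inv_inv] at hn
    exact ⟨n, hn⟩
  const x h0 h1 := T.const_of_icr (T.mem_B0.1 h0).1 (T.mem_B1.1 h1).1

end SitA

end Fermat.Agent.CarG
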