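import Fermat.Agent.CarG.CompsA

/-!
# The residue maps and the first chart at level `q ^ a * M'`
-/

set_option autoImplicit false
set_option linter.unusedSectionVars false
set_option linter.style.haveILetI false
set_option synthInstance.maxHeartbeats 400000

noncomputable section

namespace Fermat.Agent.CarG

open ModularCurve Fermat.Agent.GoodRed Fermat.Agent.ModFun Fermat.Agent.GenusX0
open Fermat.Agent.Models IsLocalRing Polynomial IntermediateField Fermat.Agent.Carayol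
open Fermat.Agent.SSMod

namespace SitA

variable {k₀ K κ : Type} [Field k₀] [Field K] [Field κ] [Algebra k₀ K] {q M' : ℕ}
  [NeZero q] [NeZero M'] {S : Sit k₀ K κ q M'} {a : ℕ} (T : SitA S a)

theorem R_mem {b : Fin (a + 1)} {x : T.F} {y : LaurentSeries κ} (h : (T.P b).R x y) :
    y ∈ FF κ M' := by
  have h1 := S.jb_mem
  refine T.comps.res_mem T.card_J (i := b) (pow_mem h1 _) ?_ ?_ h
  · change sUb q a b S.jb * sDb q a b S.jb ∈ FF κ M'
    refine mul_mem ?_ ?_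
    · rw [sUb]
      split_ifs
      · exact sub_mem (pow_mem (pow_mem h1 _) _) (pow_mem h1 _)
      · exact one_mem _
    · rw [sDb]
      split_ifs
      · exact sub_mem (pow_mem h1 _) (pow_mem (pow_mem h1 _) _)
      · exact one_mem _
  · intro n
    exact mul_mem (pow_mem S.jb_mem _) (cZ_MonZ_mem κ (S.yM_mem n.2))

theorem R_sur (b : Fin (a + 1)) {z : LaurentSeries κ} (hz : z ∈ FF κ M') : ∃ x, (T.P b).R x z := by
  obtain ⟨f, hf⟩ := S.exists_RM hz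
  exact ⟨_, T.R_exM_kk b hf⟩

/-- the residue maps -/
def C (b : Fin (a + 1)) : Res T.F S.𝓕 :=
  preRes (π := S.π) S.hinc (T.φ_const b) (T.φ_scale b) (algebraMap S.𝓕 (LaurentSeries κ))
    (fun _ y h => ⟨⟨y, T.R_mem h⟩, rfl⟩) (fun z => T.R_sur b z.2)

variable {T}

theorem mem_C {b : Fin (a + 1)} {x : T.F} : x ∈ (T.C b).O ↔ x ∈ (T.P b).O :=
  mem_preRes _ _ _ _ _ _

theorem C_r {b : Fin (a + 1)} {x : T.F} {z : S.𝓕} (h : (T.P b).R x z) : (T.C b).r x = z :=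
  preRes_r _ _ _ _ _ _ h

theorem C_spec {b : Fin (a + 1)} {x : T.F} (hx : x ∈ (T.P b).O) :
    (T.P b).R x (((T.C b).r x : S.𝓕) : LaurentSeries κ) := by
  have h : x ∈ (T.C b).O := mem_C.2 hx
  have := preRes_spec (π := S.π) S.hinc (T.φ_const b) (T.φ_scale b)
    (algebraMap S.𝓕 (LaurentSeries κ))
    (fun _ y h => ⟨⟨y, T.R_mem h⟩, rfl⟩) (fun z => T.R_sur b z.2) h
  exact this

theorem C_coe {b : Fin (a + 1)} {x : T.F} {z : LaurentSeries κ} (h : (T.P b).R x z) :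
    (((T.C b).r x : S.𝓕) : LaurentSeries κ) = z :=
  (T.P b).unique (C_spec ⟨_, h⟩) h

theorem C_zero_iff {b : Fin (a + 1)} {x : T.F} (hx : x ∈ (T.P b).O) :
    (T.C b).r x = 0 ↔ (T.P b).R x 0 := by
  constructor
  · intro h
    have := C_spec hx
    rw [h] at this
    exact this
  · intro h
    exact C_r h

theorem C_div {b : Fin (a + 1)} {x : T.F} (hx : x ∈ (T.C b).O) (h : (T.C b).r x = 0) :
    (T.xF b)⁻¹ * x ∈ (T.C b).O := by
  rw [mem_C] at hx ⊢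
  exact T.comps.div_mem_of_R_zero T.card_J ((C_zero_iff hx).1 h)

variable (T)

theorem adjoin_inv : k₀⟮T.j0⁻¹⟯ = k₀⟮T.j0⟯ := by
  apply le_antisymm
  · rw [IntermediateField.adjoin_simple_le_iff]
    exact inv_mem (IntermediateField.mem_adjoin_simple_self k₀ _)
  · rw [IntermediateField.adjoin_simple_le_iff]
    have := inv_mem (IntermediateField.mem_adjoin_simple_self k₀ T.j0⁻¹)
    rwa [inv_inv] at this

theorem tb_ne (b : Fin (a + 1)) : T.tb b ≠ 0 := by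
  intro h
  have := T.tr_tb b
  rw [h] at this
  exact this isAlgebraic_zero

theorem tr_j0_inv : Transcendental k₀ T.j0⁻¹ := by
  intro h
  apply T.tr_j0
  have := h.inv
  rwa [inv_inv] at this

theorem tr_tb_inv (b : Fin (a + 1)) : Transcendental κ (T.tb b)⁻¹ := by
  intro h
  apply T.tr_tb b
  have := h.inv
  rwa [inv_inv] at this

variable {T}

theorem isIntegral_of_mem0 {z : T.F} (hz : ∀ b, z ∈ (T.C b).O)
    (hzK : letI := polyAlg k₀ T.j0; IsIntegral k₀[X] z) :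
    letI := pAlg S.A₀ T.j0; IsIntegral S.A₀[X] z :=
  T.comps.isIntegral T.card_J T.tr_j0 (fun i => mem_C.1 (hz i)) hzK

theorem isIntegral_of_mem1 {z : T.F} (hz : ∀ b, z ∈ (T.C b).O)
    (hzK : letI := polyAlg k₀ T.j0⁻¹; IsIntegral k₀[X] z) :
    letI := pAlg S.A₀ T.j0⁻¹; IsIntegral S.A₀[X] z :=
  T.comps.isIntegral' T.card_J T.adjoin_inv (tb' := fun i => (T.tb i)⁻¹)
    (fun i => (T.P i).inv (T.R_j0 i) (T.tb_ne i)) T.tr_tb_inv T.tr_j0_inv
    (fun i => mem_C.1 (hz i)) hzK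

variable (T)

theorem const_C (b : Fin (a + 1)) (c : S.A₀) : algebraMap S.A₀ T.F c ∈ (T.C b).O := by
  rw [mem_C]
  exact const_mem_O (P := T.P b) c.2

theorem C_r_const (b : Fin (a + 1)) (c : S.A₀) :
    (T.C b).r (algebraMap S.A₀ T.F c) = algebraMap κ S.𝓕 (S.π₀ c) :=
  C_r ((T.P b).const c)

/-- the first chart -/
abbrev B0 : Subring T.F := icr S.A₀ T.j0
/-- the second chart -/
abbrev B1 : Subring T.F := icr S.A₀ T.j0⁻¹

theorem C_r_jj (b : Fin (a + 1)) (k : ℕ) (hk : k ≤ a) :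
    (T.C b).r (T.jj k hk) = S.jR ^ q ^ ee a b k := C_r (T.R_jj b k hk)

theorem jj_memC (b : Fin (a + 1)) (k : ℕ) (hk : k ≤ a) : T.jj k hk ∈ (T.C b).O :=
  mem_C.2 (T.jj_mem b k hk)

theorem r_jj_ne (b : Fin (a + 1)) (k : ℕ) (hk : k ≤ a) : (T.C b).r (T.jj k hk) ≠ 0 := by
  rw [C_r_jj]; exact pow_ne_zero _ S.jR_ne

theorem jji_memC (b : Fin (a + 1)) (k : ℕ) (hk : k ≤ a) : (T.jj k hk)⁻¹ ∈ (T.C b).O :=
  Res.inv_mem_of_r (T.r_jj_ne b k hk)

theorem jj_ne (k : ℕ) (hk : k ≤ a) : T.jj k hk ≠ 0 := by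
  intro h
  have h1 := T.r_jj_ne 0 k hk
  rw [h, Res.r_zero] at h1
  exact h1 rfl

theorem mem_B0 {x : T.F} : x ∈ T.B0 ↔ x ∈ icr k₀ T.j0 ∧ ∀ i, x ∈ (T.C i).O := by
  constructor
  · intro h
    exact ⟨icr_map (algebraMap S.A₀ k₀) (RingHom.id T.F) (fun _ => rfl) h,
      fun i => icr_le_val (T.const_C i) (T.jj_memC i 0 _) h⟩
  · rintro ⟨h1, h2⟩
    exact mem_icr'.2 (isIntegral_of_mem0 h2 (mem_icr'.1 h1))

theorem mem_B1 {x : T.F} : x ∈ T.B1 ↔ x ∈ icr k₀ T.j0⁻¹ ∧ ∀ i, x ∈ (T.C i).O := by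
  constructor
  · intro h
    exact ⟨icr_map (algebraMap S.A₀ k₀) (RingHom.id T.F) (fun _ => rfl) h,
      fun i => icr_le_val (T.const_C i) (T.jji_memC i 0 _) h⟩
  · rintro ⟨h1, h2⟩
    exact mem_icr'.2 (isIntegral_of_mem1 h2 (mem_icr'.1 h1))

theorem mem_R0 (i : Fin (a + 1)) {x : T.F} (hx : x ∈ T.B0) : (T.C i).r x ∈ S.R0 := by
  have h := icr_res (C := T.C i) (π := S.π₀) (T.const_C i) (T.C_r_const i) (T.jj_memC i 0 _) hx
  rwa [C_r_jj, Sit.icr_pow (T.qpos _)] at h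

theorem mem_R1 (i : Fin (a + 1)) {x : T.F} (hx : x ∈ T.B1) : (T.C i).r x ∈ S.R1 := by
  have h := icr_res (C := T.C i) (π := S.π₀) (T.const_C i) (T.C_r_const i) (T.jji_memC i 0 _) hx
  rwa [Res.r_inv (T.r_jj_ne i 0 _), C_r_jj, ← inv_pow, Sit.icr_pow (T.qpos _)] at h

/-! ### integrality of `j(q^k z)` -/

theorem δ_constA (k : ℕ) (hk : k + 2 ≤ a) (c : S.A₀) :
    T.δ k hk (algebraMap S.A₀ S.F c) = algebraMap S.A₀ T.F c := T.δ_const k hk (c : k₀)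

theorem δ_icr (k : ℕ) (hk : k + 2 ≤ a) {t x : S.F} (h : x ∈ icr S.A₀ t) :
    T.δ k hk x ∈ icr S.A₀ (T.δ k hk t) :=
  icr_map (RingHom.id S.A₀) (T.δ k hk) (fun c => T.δ_constA k hk c) h

theorem δ_icr' (k : ℕ) (hk : k + 2 ≤ a) {t x : S.F} (h : x ∈ icr k₀ t) :
    T.δ k hk x ∈ icr k₀ (T.δ k hk t) :=
  icr_map (RingHom.id k₀) (T.δ k hk) (fun c => T.δ_const k hk c) h

theorem jq_A : S.jq' ∈ icr S.A₀ S.j1 := S.mem_B0.2 ⟨S.jq_int, S.jq_memC⟩
theorem j2_A : S.j2 ∈ icr S.A₀ S.j1 := S.mem_B0.2 ⟨S.j2_int, S.j2_memC⟩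

theorem w_A {t x : S.F} (h : x ∈ icr S.A₀ t) : S.w x ∈ icr S.A₀ (S.w t) :=
  icr_map (RingHom.id S.A₀) S.w (fun c => S.hw.const c) h

theorem jq_A' : S.jq' ∈ icr S.A₀ S.j2 := by
  have := w_A (S := S) jq_A
  rwa [S.w_jq, S.w_j1] at this

theorem j1_A' : S.j1 ∈ icr S.A₀ S.j2 := by
  have := w_A (S := S) j2_A
  rwa [S.w_j2, S.w_j1] at this

theorem jj_int (k : ℕ) (hk : k ≤ a) : T.jj k hk ∈ icr S.A₀ T.j0 := by
  have ha := T.ha
  induction k using Nat.strong_induction_on with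
  | _ k ih =>
    rcases Nat.lt_or_ge k 2 with h | h
    · interval_cases k
      · exact self_mem_icr _
      · have h1 := T.δ_icr 0 (by omega) (jq_A (S := S))
        rw [T.δ_jq 0 (by omega), T.δ_j1 0 (by omega)] at h1
        exact h1
    · obtain ⟨l, rfl⟩ : ∃ l, k = l + 2 := ⟨k - 2, by omega⟩
      have h1 := T.δ_icr l hk (j2_A (S := S))
      rw [T.δ_j2 l hk, T.δ_j1 l hk] at h1
      exact icr_le (ih l (by omega) (by omega)) h1

/-- `j` is integral over `j(q^k z)` -/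
theorem j0_int (k : ℕ) (hk : k ≤ a) (hk1 : k ≠ 1) : T.j0 ∈ icr S.A₀ (T.jj k hk) := by
  have key : ∀ l, ∀ (hl : l ≤ a) (hl1 : l ≠ 1), T.j0 ∈ icr S.A₀ (T.jj l hl) ∧
      ∀ (h3 : l + 1 ≤ a), l ≠ 0 → T.jj l hl ∈ icr S.A₀ (T.jj (l + 1) h3) := by
    intro l
    induction l using Nat.strong_induction_on with
    | _ l ih =>
      intro hl hl1
      constructor
      · rcases Nat.lt_or_ge l 2 with h | h
        · have : l = 0 := by omega
          subst this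
          exact self_mem_icr _
        · obtain ⟨i, rfl⟩ : ∃ i, l = i + 2 := ⟨l - 2, by omega⟩
          have h1 := T.δ_icr i hl (j1_A' (S := S))
          rw [T.δ_j2 i hl, T.δ_j1 i hl] at h1
          by_cases hi : i = 1
          · subst hi
            have h2 := T.δ_icr 1 hl (jq_A' (S := S))
            rw [T.δ_j2 1 hl, T.δ_jq 1 hl] at h2
            exact icr_le h2 (ih 2 (by omega) (by omega) (by omega)).1
          · exact icr_le h1 (ih i (by omega) (by omega) hi).1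
      · intro h3 hl0
        obtain ⟨i, rfl⟩ : ∃ i, l = i + 1 := ⟨l - 1, by omega⟩
        have h2 := T.δ_icr i h3 (jq_A' (S := S))
        rw [T.δ_j2 i h3, T.δ_jq i h3] at h2
        exact h2
  exact (key k hk hk1).1

theorem icr_kA {t x : T.F} (h : x ∈ icr S.A₀ t) : x ∈ icr k₀ t :=
  icr_map (algebraMap S.A₀ k₀) (RingHom.id T.F) (fun _ => rfl) h

theorem jj_int' (k : ℕ) (hk : k ≤ a) : T.jj k hk ∈ icr k₀ T.j0 := T.icr_kA (T.jj_int k hk)

theorem δ_B0 (k : ℕ) (hk : k + 2 ≤ a) {x : S.F} (h : x ∈ S.B0) : T.δ k hk x ∈ T.B0 := by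
  have h1 := T.δ_icr k hk h
  rw [T.δ_j1 k hk] at h1
  exact icr_le (T.jj_int k _) h1

theorem δ_B0' (k : ℕ) (hk : k + 2 ≤ a) {x : S.F} (h : x ∈ icr k₀ S.j1) :
    T.δ k hk x ∈ icr k₀ T.j0 := by
  have h1 := T.δ_icr' k hk h
  rw [T.δ_j1 k hk] at h1
  exact icr_le (T.jj_int' k _) h1

theorem exM_const (k : ℕ) (hk : k ≤ a) (c : k₀) :
    T.exM k hk (algebraMap k₀ _ c) = algebraMap k₀ _ c := exN_const _ _ c

theorem exM_icr_jj (k : ℕ) (hk : k ≤ a) {f : FF k₀ M'} (h : f ∈ icr k₀ (je k₀ M')) :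
    T.exM k hk f ∈ icr k₀ (T.jj k hk) :=
  icr_map (RingHom.id k₀) (T.exM k hk) (fun c => T.exM_const k hk c) h

theorem exM_icr (k : ℕ) (hk : k ≤ a) {f : FF k₀ M'} (h : f ∈ icr k₀ (je k₀ M')) :
    T.exM k hk f ∈ icr k₀ T.j0 := icr_le (T.jj_int' k hk) (T.exM_icr_jj k hk h)

variable {T} in
theorem exM_memC (b : Fin (a + 1)) (k : ℕ) (hk : k ≤ a) {f : FF k₀ M'} {g : LaurentSeries κ}
    (h : S.RM f g) : T.exM k hk f ∈ (T.C b).O := mem_C.2 (T.exM_mem b k hk h)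

variable {T} in
theorem exM_B0 (k : ℕ) (hk : k ≤ a) {f : FF k₀ M'} (h : f ∈ icr k₀ (je k₀ M'))
    {y : LaurentSeries κ} (hy : S.RM f y) :
    T.exM k hk f ∈ T.B0 := T.mem_B0.2 ⟨T.exM_icr k hk h, fun i => exM_memC i k hk hy⟩

theorem surj0 (b : Fin (a + 1)) (y : S.𝓕) (hy : y ∈ S.R0) : ∃ x ∈ T.B0, (T.C b).r x = y := by
  obtain ⟨f, hf, hfy⟩ := S.lift0 y hy
  exact ⟨_, exM_B0 _ _ hf hfy, C_r (T.R_exM_kk b hfy)⟩

theorem finF : FiniteDimensional k₀⟮T.j0⟯ T.F := by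
  apply fin_of_finrank
  rw [finrank_F]
  exact Nat.mul_pos (Nat.add_pos_left (T.qpos _) _)
    (Nat.pos_of_ne_zero (dedekindPsi_pos (NeZero.ne M')))

theorem sepF : Algebra.IsSeparable k₀⟮T.j0⟯ T.F := by
  haveI := S.charZero₀
  exact sep_of_char0 _ T.finF

theorem finF' : FiniteDimensional k₀⟮T.j0⁻¹⟯ T.F := by
  rw [T.adjoin_inv]; exact T.finF

theorem sepF' : Algebra.IsSeparable k₀⟮T.j0⁻¹⟯ T.F := by
  rw [T.adjoin_inv]; exact T.sepF

/-- a bound for the multiplicities -/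
def NE (_ : SitA S a) : ℕ := ∑ b : Fin (a + 1), eA q a b

theorem eA_le (b : Fin (a + 1)) : eA q a b ≤ T.NE :=
  Finset.single_le_sum (f := fun b : Fin (a + 1) => eA q a b) (fun _ _ => Nat.zero_le _)
    (Finset.mem_univ b)

theorem nil_one {x : T.F} (b : Fin (a + 1)) (hx : x ∈ (T.C b).O) (h : (T.C b).r x = 0) :
    x ^ T.NE * T.ϖF⁻¹ ∈ (T.C b).O := by
  have h1 := C_div hx h
  obtain ⟨n, hn⟩ : ∃ n, T.NE = n + eA q a b := ⟨T.NE - eA q a b, by
    have := T.eA_le b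
    omega⟩
  obtain ⟨y, -, hy⟩ := T.xF_e' b
  have h2 : x ^ T.NE * T.ϖF⁻¹ = x ^ n * ((T.ϖF⁻¹ * T.xF b ^ eA q a b) *
      ((T.xF b)⁻¹ * x) ^ eA q a b) := by
    have h3 := pow_ne_zero (eA q a b) (T.xF_ne b)
    rw [hn, pow_add, mul_pow, inv_pow]
    field_simp
  rw [h2]
  exact mul_mem (pow_mem hx n) (mul_mem (mem_C.2 ⟨y, hy⟩) (pow_mem h1 _))

theorem ϖ_inv_icr (t : T.F) : T.ϖF⁻¹ ∈ icr k₀ t := by
  rw [← map_inv₀]; exact const_mem_icr _ _

theorem algebraMap_ϖ : algebraMap S.A₀ T.F ((q : ℕ) : S.A₀) = T.ϖF := by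
  rw [map_natCast]
  exact (map_natCast _ _).symm

theorem r_ϖ (b : Fin (a + 1)) : (T.C b).r T.ϖF = 0 := C_r (T.R_ϖ b)

/-- **the first chart** -/
theorem chart0 : Chart T.B0 T.C S.R0 (algebraMap S.A₀ T.F ((q : ℕ) : S.A₀)) where
  noeth := by
    haveI := tower_A (F := T.F) S.A₀
    exact icr_noeth (k := k₀) T.tr_j0 T.finF T.sepF
  ded := S.dedR0
  closed x n hn h := icr_root hn h
  frac x := by
    haveI := tower_A (F := T.F) S.A₀
    exact icr_frac (k := k₀) T.tr_j0 T.finF x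
  le i x hx := (T.mem_B0.1 hx).2 i
  mem_R i x hx := T.mem_R0 i hx
  surj := T.surj0
  ϖ_mem := const_mem_icr _ _
  ϖ_ne := by rw [T.algebraMap_ϖ]; exact T.ϖ_ne
  r_ϖ i := by rw [T.algebraMap_ϖ]; exact T.r_ϖ i
  nil := by
    refine ⟨T.NE, fun x hx h => ?_⟩
    rw [T.algebraMap_ϖ]
    refine T.mem_B0.2 ⟨?_, fun i => T.nil_one i ((T.mem_B0.1 hx).2 i) (h i)⟩
    exact mul_mem (pow_mem (T.mem_B0.1 hx).1 _) (T.ϖ_inv_icr _)

end SitA

end Fermat.Agent.CarG
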