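import Fermat.Agent.CarG.Diff

/-!
# The components of level `q ^ a * M'`
-/

set_option autoImplicit false
set_option linter.unusedSectionVars false
set_option linter.style.haveILetI false

noncomputable section

namespace Fermat.Agent.CarG

open ModularCurve Fermat.Agent.GoodRed Fermat.Agent.ModFun Fermat.Agent.GenusX0
open Fermat.Agent.Models IsLocalRing Polynomial IntermediateField Fermat.Agent.Carayol
open Fermat.Agent.SSMod

theorem sum_eA {q : ℕ} (hq : q.Prime) {a : ℕ} (ha : 1 ≤ a) :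
    ∑ b : Fin (a + 1), SitA.eA q a b * q ^ ee a b 0 = q ^ a + q ^ (a - 1) := by
  have hq1 : 1 ≤ q := hq.pos
  -- partial sums
  have key : ∀ n, n + 1 ≤ a → ∑ b ∈ Finset.range (n + 1), SitA.eA q a b * q ^ ee a b 0 +
      q ^ (a - 1 - n) = q ^ a + q ^ (a - 1) := by
    intro n
    induction n with
    | zero =>
      intro _
      rw [Finset.sum_range_one]
      have h1 : SitA.eA q a 0 = 1 := by rw [SitA.eA, SitA.mm, Nat.zero_min, if_pos rfl]
      have h2 : ee a 0 0 = a := by rw [ee, if_pos le_rfl]; omega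
      rw [h1, h2, one_mul, Nat.sub_zero]
    | succ n ih =>
      intro hn
      rw [Finset.sum_range_succ]
      have h0 := ih (by omega)
      have h1 : SitA.eA q a (n + 1) * q ^ ee a (n + 1) 0 + q ^ (a - 1 - (n + 1)) =
          q ^ (a - 1 - n) := by
        have h2 : SitA.mm a (n + 1) = min (n + 1) (a - (n + 1)) := rfl
        have h3 : SitA.mm a (n + 1) ≠ 0 := by omega
        have h4 : ee a (n + 1) 0 = a - 2 * (n + 1) := by rw [ee, if_pos (Nat.zero_le _)]; omega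
        rw [SitA.eA, if_neg h3, h4]
        have h5 : a - 1 - n = (a - 1 - (n + 1)) + 1 := by omega
        rw [h5, pow_succ]
        have h6 : q ^ (SitA.mm a (n + 1) - 1) * (q - 1) * q ^ (a - 2 * (n + 1)) =
            q ^ (a - 1 - (n + 1)) * (q - 1) := by
          rw [mul_right_comm, ← pow_add]
          congr 2
          omega
        rw [h6]
        obtain ⟨r, rfl⟩ : ∃ r, q = r + 1 := ⟨q - 1, by omega⟩
        rw [Nat.add_sub_cancel]
        ring
      linarith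
  obtain ⟨c, rfl⟩ : ∃ c, a = c + 1 := ⟨a - 1, by omega⟩
  have h1 := key c le_rfl
  rw [Finset.sum_fin_eq_sum_range, Finset.sum_range_succ]
  have h2 : ∑ b ∈ Finset.range (c + 1), (if h : b < c + 1 + 1 then
      SitA.eA q (c + 1) ((⟨b, h⟩ : Fin (c + 1 + 1)) : ℕ) *
        q ^ ee (c + 1) ((⟨b, h⟩ : Fin (c + 1 + 1)) : ℕ) 0 else 0) =
      ∑ b ∈ Finset.range (c + 1), SitA.eA q (c + 1) b * q ^ ee (c + 1) b 0 := by
    refine Finset.sum_congr rfl fun b hb => ?_
    rw [Finset.mem_range] at hb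
    rw [dif_pos (by omega)]
  rw [h2, dif_pos (by omega)]
  have h3 : SitA.eA q (c + 1) (c + 1) = 1 := by
    rw [SitA.eA, SitA.mm, Nat.sub_self, Nat.min_zero, if_pos rfl]
  have h4 : ee (c + 1) (c + 1) 0 = 0 := by rw [ee, if_pos (Nat.zero_le _)]; omega
  simp only [h3, h4]
  rw [show c + 1 - 1 - c = 0 by omega, pow_zero] at h1
  rw [pow_zero]
  omega

namespace SitA

variable {k₀ K κ : Type} [Field k₀] [Field K] [Field κ] [Algebra k₀ K] {q M' : ℕ}
  [NeZero q] [NeZero M'] {S : Sit k₀ K κ q M'} {a : ℕ} (T : SitA S a)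

/-- the uniformizer of the constants -/
abbrev ϖF : T.F := algebraMap k₀ T.F S.ϖ

/-- `j(z)` -/
abbrev j0 : T.F := T.jj 0 (Nat.zero_le _)

/-- the residues of `j` -/
def tb (_ : SitA S a) (b : Fin (a + 1)) : LaurentSeries κ := S.jb ^ q ^ ee a b 0

theorem R_j0 (b : Fin (a + 1)) : (T.P b).R T.j0 (T.tb b) := T.R_jj b 0 _

include T in
theorem qpos (n : ℕ) : 0 < q ^ n := pow_pos S.hq.pos n

theorem tr_tb (b : Fin (a + 1)) : Transcendental κ (T.tb b) := S.tr_jb.pow (T.qpos _)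

theorem R_ϖ (b : Fin (a + 1)) : (T.P b).R T.ϖF 0 := by
  have h := (T.P b).const (q : S.A₀)
  rw [S.π₀_q, map_zero] at h
  have h1 : (((q : S.A₀) : k₀)) = (q : k₀) := by simp
  rwa [h1] at h

theorem ϖ_ne : T.ϖF ≠ 0 := (_root_.map_ne_zero _).2 S.q_ne

theorem ϖ_mem (b : Fin (a + 1)) : T.ϖF ∈ (T.P b).O := ⟨0, T.R_ϖ b⟩

theorem mem_of_far {b : Fin (a + 1)} {x : T.F} (h : T.ϖF⁻¹ * x ∈ (T.P b).O) :
    x ∈ (T.P b).O := by
  have h1 : x = T.ϖF * (T.ϖF⁻¹ * x) := by rw [mul_inv_cancel_left₀ T.ϖ_ne]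
  rw [h1]
  exact mul_mem (T.ϖ_mem b) h

theorem jj_mem (b : Fin (a + 1)) (k : ℕ) (hk : k ≤ a) : T.jj k hk ∈ (T.P b).O := ⟨_, T.R_jj b k hk⟩

theorem exM_mem (b : Fin (a + 1)) (k : ℕ) (hk : k ≤ a) {f : FF k₀ M'} {g : LaurentSeries κ}
    (h : S.RM f g) : T.exM k hk f ∈ (T.P b).O := ⟨_, T.R_exM b k hk h⟩

theorem xx_mem (b c : Fin (a + 1)) {f : FF k₀ M'} {g : LaurentSeries κ} (h : S.RM f g) :
    T.xx b f ∈ (T.P c).O := sub_mem (T.exM_mem c _ _ h) (T.exM_mem c _ _ h)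

/-- uniformizers -/
def xF (b : Fin (a + 1)) : T.F := if mm a b = 0 then T.ϖF else T.xx b (je k₀ M')

theorem theta_ne : thetaFun S.jb ≠ 0 := S.theta_jb_ne

theorem qExp_ne (n : ℕ) {g : LaurentSeries κ} (h : g ≠ 0) : qExpand κ (q ^ n) g ≠ 0 :=
  (map_ne_zero_iff _ (qExpand κ (q ^ n)).injective).2 h

theorem algC_ne {c : κ} (h : c ≠ 0) : algebraMap κ (LaurentSeries κ) c ≠ 0 :=
  (_root_.map_ne_zero _).2 h

theorem xF_R (b : Fin (a + 1)) : (T.P b).R (T.xF b) 0 := by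
  rw [xF]
  split_ifs with h
  · exact T.R_ϖ b
  · exact T.R_xx_zero b h RM_je

theorem xF_mem (b c : Fin (a + 1)) : T.xF b ∈ (T.P c).O := by
  rw [xF]
  split_ifs with h
  · exact T.ϖ_mem c
  · exact T.xx_mem b c RM_je

theorem xx_ne {b : Fin (a + 1)} (hb : mm a b ≠ 0) {f : FF k₀ M'} {g : LaurentSeries κ}
    (h : S.RM f g) (hg : thetaFun g ≠ 0) : T.xx b f ≠ 0 := by
  intro h0
  have h1 := T.R_xx_pow b hb h
  have he : eA q a b ≠ 0 := by
    rw [eA, if_neg hb]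
    have := S.hq.two_le
    exact mul_ne_zero (T.qpos _).ne' (by omega)
  rw [h0, zero_pow he, mul_zero] at h1
  exact mul_ne_zero (algC_ne (T.cE_ne b)) (pow_ne_zero _ (qExp_ne _ hg))
    ((T.P b).unique h1 (T.P b).zero)

theorem xF_ne (b : Fin (a + 1)) : T.xF b ≠ 0 := by
  rw [xF]
  split_ifs with h
  · exact T.ϖ_ne
  · exact T.xx_ne h RM_je S.theta_jb_ne

include T in
theorem eA_pos (b : Fin (a + 1)) : 0 < eA q a b := by
  rw [eA]
  split_ifs
  · exact one_pos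
  · have := S.hq.two_le
    exact Nat.mul_pos (pow_pos S.hq.pos _) (by omega)

theorem xF_e' (b : Fin (a + 1)) : ∃ y, y ≠ 0 ∧ (T.P b).R (T.ϖF⁻¹ * T.xF b ^ eA q a b) y := by
  by_cases h : mm a b = 0
  · refine ⟨1, one_ne_zero, ?_⟩
    rw [xF, if_pos h, eA, if_pos h, pow_one, inv_mul_cancel₀ T.ϖ_ne]
    exact (T.P b).one
  · have h1 := T.R_xx_pow b h (RM_je (S := S))
    rw [xF, if_neg h]
    exact ⟨_, mul_ne_zero (algC_ne (T.cE_ne b)) (pow_ne_zero _ (qExp_ne _ S.theta_jb_ne)), h1⟩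

theorem xF_e (b : Fin (a + 1)) : T.ϖF * (T.xF b ^ eA q a b)⁻¹ ∈ (T.P b).O := by
  obtain ⟨y, hy, h⟩ := T.xF_e' b
  have := inv_mem_of_R _ h hy
  rwa [mul_inv, inv_inv] at this

/-! ### elements vanishing on other components -/

/-- vanishes on the components above -/
def sU (b : Fin (a + 1)) : T.F := if h : (b : ℕ) + 1 ≤ a then
  T.jj b (by omega) ^ q - T.jj (b + 1) h else 1

/-- vanishes on the components below -/
def sD (b : Fin (a + 1)) : T.F := if h : 1 ≤ (b : ℕ) then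
  T.jj (b - 1) ((Nat.sub_le _ _).trans (Nat.lt_succ_iff.1 b.2)) -
    T.jj b (Nat.lt_succ_iff.1 b.2) ^ q else 1

/-- residue -/
def sUb (q a b : ℕ) (J : LaurentSeries κ) : LaurentSeries κ :=
  if b + 1 ≤ a then (J ^ q ^ ee a b b) ^ q - J ^ q ^ ee a b (b + 1) else 1

/-- residue -/
def sDb (q a b : ℕ) (J : LaurentSeries κ) : LaurentSeries κ :=
  if 1 ≤ b then J ^ q ^ ee a b (b - 1) - (J ^ q ^ ee a b b) ^ q else 1

theorem sU_R (b : Fin (a + 1)) : (T.P b).R (T.sU b) (sUb q a b S.jb) := by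
  rw [sU, sUb]
  split_ifs with h
  · exact R_sub _ (R_pow _ (T.R_jj b b _) q) (T.R_jj b (b + 1) h)
  · exact (T.P b).one

theorem sD_R (b : Fin (a + 1)) : (T.P b).R (T.sD b) (sDb q a b S.jb) := by
  rw [sD, sDb]
  split_ifs with h
  · exact R_sub _ (T.R_jj b (b - 1) _) (R_pow _ (T.R_jj b b _) q)
  · exact (T.P b).one

include T in
theorem sUb_ne (b : Fin (a + 1)) : sUb q a b S.jb ≠ 0 := by
  rw [sUb]
  split_ifs with h
  · rw [← pow_mul, ← pow_succ]
    refine S.jb_pow_ne ?_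
    have h1 := ee_V (a := a) (b := b) (k := b) le_rfl (by omega)
    exact (Nat.pow_lt_pow_right S.hq.one_lt (by omega)).ne'
  · exact one_ne_zero

include T in
theorem sDb_ne (b : Fin (a + 1)) : sDb q a b S.jb ≠ 0 := by
  rw [sDb]
  split_ifs with h
  · rw [← pow_mul, ← pow_succ]
    refine S.jb_pow_ne ?_
    have h1 := ee_F (a := a) (b := b) (k := b - 1) (by omega)
    rw [Nat.sub_add_cancel h] at h1
    exact (Nat.pow_lt_pow_right S.hq.one_lt (by omega)).ne
  · exact one_ne_zero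

theorem sU_far {b c : Fin (a + 1)} (h : b < c) : T.ϖF⁻¹ * T.sU b ∈ (T.P c).O := by
  have hc := Nat.lt_succ_iff.1 c.2
  have hbc : (b : ℕ) < c := h
  rw [sU, dif_pos (by omega)]
  exact T.farF c _ hbc

theorem sD_far {b c : Fin (a + 1)} (h : c < b) : T.ϖF⁻¹ * T.sD b ∈ (T.P c).O := by
  have hb := Nat.lt_succ_iff.1 b.2
  have hbc : (c : ℕ) < b := h
  rw [sD, dif_pos (by omega)]
  obtain ⟨b, hb'⟩ := b
  obtain ⟨k, rfl⟩ : ∃ k, b = k + 1 := ⟨b - 1, by simp only at hbc; omega⟩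
  have := T.farV c (k := k) (by simp only at hb; omega) (by simp only at hbc; omega)
  simpa using this

theorem sU_mem (b c : Fin (a + 1)) : T.sU b ∈ (T.P c).O := by
  rw [sU]
  split_ifs
  · exact sub_mem (pow_mem (T.jj_mem c _ _) _) (T.jj_mem c _ _)
  · exact one_mem _

theorem sD_mem (b c : Fin (a + 1)) : T.sD b ∈ (T.P c).O := by
  rw [sD]
  split_ifs
  · exact sub_mem (T.jj_mem c _ _) (pow_mem (T.jj_mem c _ _) _)
  · exact one_mem _

/-- elements vanishing on the other components -/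
def sF (b : Fin (a + 1)) : T.F := T.sU b * T.sD b

theorem sF_far (b c : Fin (a + 1)) (h : c ≠ b) : T.ϖF⁻¹ * T.sF b ∈ (T.P c).O := by
  rcases lt_or_gt_of_ne h with h1 | h1
  · rw [sF, mul_left_comm]
    exact mul_mem (T.sU_mem b c) (T.sD_far h1)
  · rw [sF, ← mul_assoc]
    exact mul_mem (T.sU_far h1) (T.sD_mem b c)

/-- the index with trivial exponent -/
def kk (a b : ℕ) : ℕ := if a ≤ 2 * b then 0 else a

theorem kk_le (b : ℕ) : kk a b ≤ a := by rw [kk]; split_ifs <;> omega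

theorem ee_kk {b : ℕ} (hb : b ≤ a) : ee a b (kk a b) = 0 := by
  rw [kk, ee]
  split_ifs <;> omega

theorem bb_liN {N : ℕ} (hN : 0 < N) : LinearIndependent κ⟮S.jb ^ N⟯
    (fun p : Fin N × Fin (dedekindPsi M') => S.jb ^ (p.1 : ℕ) * cZ κ (S.yM p.2)) := by
  rw [Fintype.linearIndependent_iff]
  intro g hg
  have hle : κ⟮S.jb ^ N⟯ ≤ κ⟮S.jb⟯ := by
    rw [IntermediateField.adjoin_simple_le_iff]
    exact pow_mem (IntermediateField.mem_adjoin_simple_self κ _) _
  have hmem : ∀ n, ∑ c : Fin N, (g (c, n) : LaurentSeries κ) * S.jb ^ (c : ℕ) ∈ κ⟮S.jb⟯ :=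
    fun n => sum_mem fun c _ => mul_mem (hle (g (c, n)).2)
      (pow_mem (IntermediateField.mem_adjoin_simple_self κ _) _)
  have h1 := Fintype.linearIndependent_iff.1 S.yM_li (fun n => ⟨_, hmem n⟩) (by
    rw [← hg, Fintype.sum_prod_type, Finset.sum_comm]
    refine Finset.sum_congr rfl fun n _ => ?_
    change (∑ c : Fin N, (g (c, n) : LaurentSeries κ) * S.jb ^ (c : ℕ)) * cZ κ (S.yM n) = _
    rw [Finset.sum_mul]
    refine Finset.sum_congr rfl fun c _ => ?_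
    change _ = (g (c, n) : LaurentSeries κ) * (S.jb ^ (c : ℕ) * cZ κ (S.yM n))
    ring)
  rintro ⟨c, n⟩
  have h2 := Fintype.linearIndependent_iff.1 (li_pow S.tr_jb hN)
    (fun c => g (c, n)) (by
      have := congrArg Subtype.val (h1 n)
      exact this) c
  exact h2

theorem R_exM_kk (b : Fin (a + 1)) {f : FF k₀ M'} {g : LaurentSeries κ} (h : S.RM f g) :
    (T.P b).R (T.exM (kk a b) (kk_le b) f) g := by
  have h1 := T.R_exM b (kk a b) (kk_le b) h
  have e : qExpand κ (q ^ ee a b (kk a b)) g = g := by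
    rw [Carayol.qExpand_congr (d' := 1) (by rw [ee_kk (Nat.lt_succ_iff.1 b.2), pow_zero]),
      qExpand_one_apply]
  rwa [e] at h1

theorem R_jj_kk (b : Fin (a + 1)) : (T.P b).R (T.jj (kk a b) (kk_le b)) S.jb :=
  T.R_exM_kk b RM_je

/-- the components -/
def comps : Comps T.P T.j0 T.tb S.ϖ where
  ht := T.R_j0
  htr := T.tr_tb
  hϖ0 := S.q_ne
  hϖ := S.div_q
  hϖR := T.R_ϖ
  hpow b z := exists_pow_mul_mem_O S.hinc (T.φ_const b) (T.φ_scale b) S.hpow z
  e b := eA q a b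
  e_pos := T.eA_pos
  x := T.xF
  x_ne := T.xF_ne
  x_mem := T.xF_mem
  x_R := T.xF_R
  x_e := T.xF_e
  s := T.sF
  sb b := sUb q a b S.jb * sDb q a b S.jb
  s_R b := (T.P b).mul (T.sU_R b) (T.sD_R b)
  sb_ne b := mul_ne_zero (T.sUb_ne b) (T.sDb_ne b)
  s_far := T.sF_far
  β b := Fin (q ^ ee a b 0) × Fin (dedekindPsi M')
  b b n := T.jj (kk a b) (kk_le b) ^ (n.1 : ℕ) * T.exM (kk a b) (kk_le b) (S.bM n.2)
  bb _ n := S.jb ^ (n.1 : ℕ) * cZ κ (S.yM n.2)
  b_mem b n c := mul_mem (pow_mem (T.jj_mem c _ _) _) (T.exM_mem c _ _ (S.bM_R n.2))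
  b_R b n := (T.P b).mul (R_pow _ (T.R_jj_kk b) _) (T.R_exM_kk b (S.bM_R n.2))
  b_li b := bb_liN (T.qpos _)

theorem coe_j0 : ((T.j0 : T.F) : LaurentSeries k₀) = jqModC k₀ := by
  rw [j0, coe_jj, Carayol.qExpand_congr (d' := 1) (pow_zero q), qExpand_one_apply]

theorem tr_j0 : Transcendental k₀ T.j0 := by
  intro h
  apply Curves.transcendental_jqModC k₀
  rw [← T.coe_j0]
  exact h.algHom (FF k₀ (q ^ a * M')).val

include T in
theorem psi_eq : dedekindPsi (q ^ a * M') = (q ^ a + q ^ (a - 1)) * dedekindPsi M' := by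
  have hqM : ¬ q ∣ M' := (Nat.Prime.coprime_iff_not_dvd S.hq).1 S.hM
  have key : ∀ n, dedekindPsi (q ^ (n + 1) * M') = (q ^ (n + 1) + q ^ n) * dedekindPsi M' := by
    intro n
    induction n with
    | zero =>
      have e1 := dedekindPsi_step q S.hq 0 M' hqM
      rw [if_pos rfl, pow_zero, one_mul] at e1
      rw [e1, pow_zero]
      ring
    | succ n ih =>
      have e2 := dedekindPsi_step q S.hq (n + 1) M' hqM
      rw [if_neg (Nat.succ_ne_zero n)] at e2
      rw [e2, ih]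
      ring
  obtain ⟨c, hc⟩ : ∃ c, a = c + 1 := ⟨a - 1, by have := T.ha; omega⟩
  rw [hc, Nat.add_sub_cancel]
  exact key c

theorem finrank_F : Module.finrank k₀⟮T.j0⟯ T.F = (q ^ a + q ^ (a - 1)) * dedekindPsi M' := by
  rw [Curves.finrank_adjoin_eq_relfinrank, T.coe_j0, ← degN_eq', degN_eq_psi k₀ (q ^ a * M') (by
    intro h
    have h2 := congrArg (S.ι.comp (algebraMap k₀ K)) h
    rw [map_natCast, map_zero] at h2
    have h3 : q ^ a * M' ≠ 0 := mul_ne_zero (pow_ne_zero a (NeZero.ne q)) (NeZero.ne M')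
    exact h3 (by exact_mod_cast h2)), T.psi_eq]

theorem card_J : Fintype.card T.comps.J = Module.finrank k₀⟮T.j0⟯ T.F := by
  have h1 : Fintype.card T.comps.J = ∑ b : Fin (a + 1), eA q a b *
      (q ^ ee a b 0 * dedekindPsi M') := by
    rw [Fintype.card_sigma]
    refine Finset.sum_congr rfl fun i _ => ?_
    rw [Fintype.card_prod, Fintype.card_fin]
    congr 1
    change Fintype.card (Fin (q ^ ee a i 0) × Fin (dedekindPsi M')) = _
    rw [Fintype.card_prod, Fintype.card_fin, Fintype.card_fin]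
  rw [h1, finrank_F, ← sum_eA S.hq (by have := T.ha; omega), Finset.sum_mul]
  exact Finset.sum_congr rfl fun b _ => (mul_assoc _ _ _).symm

instance nonempty_J : Nonempty T.comps.J := by
  rw [← Fintype.card_pos_iff, T.card_J, T.finrank_F]
  exact Nat.mul_pos (Nat.add_pos_left (T.qpos _) _)
    (Nat.pos_of_ne_zero (dedekindPsi_pos (NeZero.ne M')))

end SitA

end Fermat.Agent.CarG
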