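import Fermat.Agent.CarG.SitA

/-!
# Differences on the components
-/

set_option autoImplicit false
set_option linter.unusedSectionVars false
set_option linter.style.haveILetI false

noncomputable section

namespace Fermat.Agent.CarG

open ModularCurve Fermat.Agent.GoodRed Fermat.Agent.ModFun Fermat.Agent.GenusX0
open Fermat.Agent.Models IsLocalRing Polynomial IntermediateField Fermat.Agent.Carayol
open Fermat.Agent.SSMod

section Eis

variable {k₀ K κ : Type} [Field k₀] [Field K] [Field κ] [Algebra k₀ K] {q M' : ℕ}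
  [NeZero q] [NeZero M'] (S : Sit k₀ K κ q M')

theorem exists_eisA {W : Kˣ} {m : ℕ} (hW : IsPrimitiveRoot (W : K) (q ^ (m + 1))) :
    ∃ (z : S.Aˣ) (c : S.A), Units.map (S.A.subtype : S.A →* K) z = W ∧ S.π z = 1 ∧
      (1 - (z : S.A)) ≠ 0 ∧ (1 - (z : S.A)) ^ (q ^ m * (q - 1)) * c = (q : S.A) ∧
      S.π c ≠ 0 := by
  have hW1 : W ^ q ^ (m + 1) = 1 := Units.ext (by push_cast; exact hW.pow_eq_one)
  obtain ⟨z, hz, hz1⟩ := exists_unit_root S hW1
  haveI := S.charP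
  haveI : Fact q.Prime := ⟨S.hq⟩
  haveI : NeZero (q ^ (m + 1)) := neZero_pow_q
  have hzK : ((z : S.A) : K) = W := by rw [← hz]; rfl
  have hzA : IsPrimitiveRoot (z : S.A) (q ^ (m + 1)) := by
    refine IsPrimitiveRoot.of_map_of_injective (f := S.A.subtype) ?_
      Subtype.val_injective
    change IsPrimitiveRoot ((z : S.A) : K) _
    rw [hzK]; exact hW
  choose c hc hπc using fun i : ℕ => exists_qint (π := S.π) hz1 (i : ℕ)
  have h1 : ∀ μ ∈ primitiveRoots (q ^ (m + 1)) S.A, ∃ d : S.A, 1 - μ = (1 - (z : S.A)) * d ∧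
      S.π d ≠ 0 := by
    intro μ hμ
    rw [mem_primitiveRoots (pow_pos S.hq.pos _)] at hμ
    obtain ⟨i, -, hi, rfl⟩ := (hzA.isPrimitiveRoot_iff).1 hμ
    refine ⟨c i, ?_, ?_⟩
    · rw [← hc]
      push_cast
      rfl
    · rw [hπc]
      push_cast
      intro h0
      rw [CharP.cast_eq_zero_iff κ q] at h0
      have h2 : Nat.Coprime i q := Nat.Coprime.coprime_dvd_right (dvd_pow_self q (Nat.succ_ne_zero m)) hi
      have h3 := Nat.Coprime.eq_one_of_dvd h2.symm h0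
      exact S.hq.one_lt.ne' h3
  choose! d hd hπd using h1
  have hcyc := cyclotomic_eq_prod_X_sub_primitiveRoots hzA
  have hev := eval_one_cyclotomic_prime_pow (R := S.A) (p := q) m
  rw [hcyc, eval_prod] at hev
  simp only [eval_sub, eval_X, eval_C] at hev
  rw [Finset.prod_congr rfl hd, Finset.prod_mul_distrib, Finset.prod_const,
    hzA.card_primitiveRoots, Nat.totient_prime_pow_succ S.hq] at hev
  refine ⟨z, ∏ μ ∈ primitiveRoots (q ^ (m + 1)) S.A, d μ, hz, hz1, ?_, hev, ?_⟩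
  · intro h
    have h1 : (z : S.A) = 1 := (sub_eq_zero.1 h).symm
    rw [h1] at hzA
    have := hzA.unique (IsPrimitiveRoot.one)
    exact (Nat.one_lt_pow (Nat.succ_ne_zero m) S.hq.one_lt).ne' this
  · rw [map_prod]
    exact Finset.prod_ne_zero_iff.2 fun μ hμ => hπd μ hμ

end Eis

namespace SitA

variable {k₀ K κ : Type} [Field k₀] [Field K] [Field κ] [Algebra k₀ K] {q M' : ℕ}
  [NeZero q] [NeZero M'] {S : Sit k₀ K κ q M'} {a : ℕ} (T : SitA S a)

/-- the multiplicity exponent -/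
def mm (a b : ℕ) : ℕ := min b (a - b)

/-- the multiplicities -/
def eA (q a b : ℕ) : ℕ := if mm a b = 0 then 1 else q ^ (mm a b - 1) * (q - 1)

/-- the difference -/
def xx (b : Fin (a + 1)) (f : FF k₀ M') : T.F :=
  T.exM (b - mm a b) ((Nat.sub_le _ _).trans (Nat.lt_succ_iff.1 b.2)) f -
    T.exM (b + mm a b) (by
      have h1 : mm a b ≤ a - b := min_le_right _ _
      have h2 := Nat.lt_succ_iff.1 b.2
      omega) f

theorem φ_xx (b : Fin (a + 1)) (hb : mm a b ≠ 0) (f : FF k₀ M') :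
    T.φ b (T.xx b f) = qExpand K (q ^ ee a b (b - mm a b))
      (coeffMap S.cK (f : LaurentSeries k₀) -
        twist (eta q a b (b + mm a b) T.Z) (coeffMap S.cK (f : LaurentSeries k₀))) := by
  have h1 : mm a b ≤ a - b := min_le_right _ _
  have h2 : mm a b ≤ b := min_le_left _ _
  have hee : ee a b (b + mm a b) = ee a b (b - mm a b) := by
    rw [ee, ee, if_neg (by omega), if_pos (by omega)]
    omega
  rw [xx, map_sub, φ_exM, φ_exM, hee, eta_le (by omega : (b : ℕ) - mm a b ≤ b), twist_one, map_sub]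

theorem R_xx_zero (b : Fin (a + 1)) (hb : mm a b ≠ 0) {f : FF k₀ M'} {g : LaurentSeries κ}
    (h : S.RM f g) : (T.P b).R (T.xx b f) 0 := by
  rw [P_R, T.φ_xx b hb]
  have h1 := LR.add h (R_twist_root S (T.eta_pow b (b + mm a b)) h).neg
  rw [← sub_eq_add_neg, ← sub_eq_add_neg, sub_self] at h1
  have h2 := LR_qExpand (q ^ ee a b (b - mm a b)) h1
  rwa [map_zero] at h2

theorem prim_eta (b : Fin (a + 1)) (hb : mm a b ≠ 0) :
    IsPrimitiveRoot ((eta q a b (b + mm a b) T.Z : Kˣ) : K) (q ^ (mm a b - 1 + 1)) := by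
  have h1 : mm a b ≤ a - b := min_le_right _ _
  have h3 : mm a b ≤ a := h1.trans (Nat.sub_le _ _)
  rw [eta, if_neg (by omega), Units.val_pow_eq_pow_val]
  refine T.hZ.pow (pow_pos S.hq.pos _) ?_
  rw [← pow_add]
  congr 1
  omega

theorem exists_cE (b : Fin (a + 1)) : ∃ c : κ, c ≠ 0 ∧ (mm a b ≠ 0 → ∀ (f : FF k₀ M')
    (g : LaurentSeries κ), S.RM f g →
    (T.P b).R ((algebraMap k₀ T.F S.ϖ)⁻¹ * (T.xx b f) ^ eA q a b)
      (algebraMap κ _ c * (qExpand κ (q ^ ee a b (b - mm a b)) (thetaFun g)) ^ eA q a b)) := by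
  by_cases hb : mm a b = 0
  · exact ⟨1, one_ne_zero, fun h => absurd hb h⟩
  obtain ⟨z, c, hz, hz1, hz0, hzc, hπc⟩ := exists_eisA S (T.prim_eta b hb)
  have hcu : IsUnit c := by
    refine IsUnit.of_map S.π c ?_
    exact isUnit_iff_ne_zero.2 hπc
  obtain ⟨d, hd⟩ := hcu.exists_right_inv
  have hπd : S.π d ≠ 0 := by
    intro h0
    have := congrArg S.π hd
    rw [map_mul, h0, mul_zero, map_one] at this
    exact zero_ne_one this
  refine ⟨S.π d, hπd, fun _ f g hfg => ?_⟩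
  have he : eA q a b = q ^ (mm a b - 1) * (q - 1) := by rw [eA, if_neg hb]
  obtain ⟨E, hE⟩ : ∃ E, E = ee a b (b - mm a b) := ⟨_, rfl⟩
  have h1 := LR_qExpand (q ^ ee a b (b - mm a b)) (LR_diff hz1 hz0 hfg)
  rw [hz] at h1
  have hC : ∀ (x : K) (y : LaurentSeries K), qExpand K (q ^ ee a b (b - mm a b))
      (HahnSeries.C x * y) = HahnSeries.C x * qExpand K (q ^ ee a b (b - mm a b)) y := by
    intro x y
    rw [map_mul, ModFun.C_eq_algebraMap, Carayol.qExpand_algebraMap]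
  rw [hC, ← T.φ_xx b hb f] at h1
  have h2 := SSMod.LR.pow h1 (eA q a b)
  have h3 := (LR.const S.π d).mul h2
  rw [P_R]
  refine LR_congr_left h3 ?_
  rw [map_mul, map_inv₀, φ_const, map_pow, mul_pow, ← mul_assoc]
  congr 1
  rw [← map_pow, ← ModFun.C_eq_algebraMap, ← ModFun.C_eq_algebraMap, ← map_mul, ← map_inv₀,
    map_natCast]
  congr 1
  have hδ : (1 - ((z : S.A) : K)) ≠ 0 := fun h0 => hz0 (Subtype.ext (by push_cast; exact h0))
  have h4 : (1 - ((z : S.A) : K)) ^ (eA q a b) * c = q := by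
    have := congrArg (Subtype.val) hzc
    rw [he]
    push_cast at this
    exact this
  have h5 : (c : K) * d = 1 := by
    have := congrArg (Subtype.val) hd
    exact this
  have h6 := pow_ne_zero (eA q a b) hδ
  have hc0 : (c : K) ≠ 0 := left_ne_zero_of_mul_eq_one h5
  rw [← h4, eq_inv_of_mul_eq_one_right h5, inv_pow, mul_inv]
  ring

/-- the constant -/
def cE (b : Fin (a + 1)) : κ := (T.exists_cE b).choose

theorem cE_ne (b : Fin (a + 1)) : T.cE b ≠ 0 := (T.exists_cE b).choose_spec.1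

theorem R_xx_pow (b : Fin (a + 1)) (hb : mm a b ≠ 0) {f : FF k₀ M'}
    {g : LaurentSeries κ} (h : S.RM f g) :
    (T.P b).R ((algebraMap k₀ T.F S.ϖ)⁻¹ * (T.xx b f) ^ eA q a b)
      (algebraMap κ _ (T.cE b) * (qExpand κ (q ^ ee a b (b - mm a b)) (thetaFun g)) ^ eA q a b) :=
  (T.exists_cE b).choose_spec.2 hb f g h

/-! ### congruences for steps -/

include T in
theorem exists_frob_cong : ∃ z' : LaurentSeries ℤ,
    jqModC ℤ ^ q - qExpand ℤ q (jqModC ℤ) = HahnSeries.C (q : ℤ) * z' := by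
  haveI := S.charP
  refine exists_div (κ := κ) q ?_
  rw [map_sub, map_pow, cZ_gen, show cZ κ (jqModC ℤ) = jqModC κ from coeffMap_jqModC _,
      pow_jq S.hq, sub_self]

theorem LR_div_q {y : LaurentSeries ℤ} (hy : ∃ z' : LaurentSeries ℤ, y = HahnSeries.C (q : ℤ) * z') :
    ∃ w, LR S.π ((algebraMap K (LaurentSeries K) (q : K))⁻¹ * cZ K y) w := by
  obtain ⟨z', hz'⟩ := hy
  refine ⟨cZ κ z', ?_⟩
  have h3 : (algebraMap K (LaurentSeries K) (q : K))⁻¹ * cZ K y = cZ K z' := by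
    rw [hz', map_mul]
    have h4 : cZ K (HahnSeries.C (q : ℤ)) = algebraMap K (LaurentSeries K) (q : K) := by
      rw [cZ, ModFun.coeffMap_C, ModFun.C_eq_algebraMap]
      simp
    rw [h4, inv_mul_cancel_left₀]
    exact (_root_.map_ne_zero _).2 S.q_ne'
  rw [h3]
  exact S.R_cZ z'

theorem φ_jj (b : Fin (a + 1)) (k : ℕ) (hk : k ≤ a) : T.φ b (T.jj k hk) =
    qExpand K (q ^ ee a b k) (twist (eta q a b k T.Z) (jqModC K)) := by
  rw [jj, φ_exM]
  congr 2
  exact coeffMap_jqModC _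

theorem φ_ϖ_inv (b : Fin (a + 1)) (x : T.F) : T.φ b ((algebraMap k₀ T.F S.ϖ)⁻¹ * x) =
    (algebraMap K (LaurentSeries K) (q : K))⁻¹ * T.φ b x := by
  rw [map_mul, map_inv₀, φ_const, map_natCast]

theorem qExpand_smul (n : ℕ) [NeZero n] (W : Kˣ) (x : LaurentSeries K) :
    (algebraMap K (LaurentSeries K) (q : K))⁻¹ * qExpand K n (twist W x) =
      qExpand K n (twist W ((algebraMap K (LaurentSeries K) (q : K))⁻¹ * x)) := by
  rw [map_mul, map_mul, map_inv₀, map_inv₀, twist_const, Carayol.qExpand_algebraMap]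

theorem farF (b : Fin (a + 1)) {k : ℕ} (hk : k + 1 ≤ a) (hkb : k < b) :
    (algebraMap k₀ T.F S.ϖ)⁻¹ * (T.jj k (by omega) ^ q - T.jj (k + 1) hk) ∈ (T.P b).O := by
  obtain ⟨w, hw⟩ := LR_div_q (S := S) (T.exists_frob_cong)
  refine ⟨qExpand κ (q ^ ee a b k) w, ?_⟩
  rw [P_R, φ_ϖ_inv, map_sub, map_pow, φ_jj, φ_jj, eta_le (by omega), eta_le (by omega),
    ee_F hkb]
  have e : qExpand K (q ^ ee a b k) (twist 1 (jqModC K)) ^ q -
      qExpand K (q ^ (ee a b k + 1)) (twist 1 (jqModC K)) = qExpand K (q ^ ee a b k)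
        (twist 1 (cZ K (jqModC ℤ ^ q - qExpand ℤ q (jqModC ℤ)))) := by
    rw [twist_one, twist_one, map_sub, map_pow, cZ_gen, show cZ K (jqModC ℤ) = jqModC K from
      coeffMap_jqModC _, map_sub, map_pow, qExpand_qExpand]
    rfl
  rw [e, qExpand_smul, twist_one]
  exact LR_qExpand _ hw

theorem farV (b : Fin (a + 1)) {k : ℕ} (hk : k + 1 ≤ a) (hkb : (b : ℕ) ≤ k) :
    (algebraMap k₀ T.F S.ϖ)⁻¹ * (T.jj k (by omega) - T.jj (k + 1) hk ^ q) ∈ (T.P b).O := by
  obtain ⟨z', hz'⟩ := T.exists_frob_cong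
  obtain ⟨w, hw⟩ := LR_div_q (S := S) (y := qExpand ℤ q (jqModC ℤ) - jqModC ℤ ^ q)
    ⟨-z', by rw [mul_neg, ← hz', neg_sub]⟩
  refine ⟨qExpand κ (q ^ ee a b (k + 1)) w, ?_⟩
  have hs : eta q a b (k + 1) T.Z ^ q = eta q a b k T.Z := eta_V hkb (by omega) T.hZ1
  rw [P_R, φ_ϖ_inv, map_sub, map_pow, φ_jj, φ_jj, ee_V hkb (by omega), ← hs]
  have e : qExpand K (q ^ (ee a b (k + 1) + 1)) (twist (eta q a b (k + 1) T.Z ^ q) (jqModC K)) -
      qExpand K (q ^ ee a b (k + 1)) (twist (eta q a b (k + 1) T.Z) (jqModC K)) ^ q =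
      qExpand K (q ^ ee a b (k + 1)) (twist (eta q a b (k + 1) T.Z)
        (cZ K (qExpand ℤ q (jqModC ℤ) - jqModC ℤ ^ q))) := by
    rw [map_sub, map_pow, cZ_gen, show cZ K (jqModC ℤ) = jqModC K from
      coeffMap_jqModC _, map_sub, map_pow, map_sub, map_pow, twist_qExpand', qExpand_qExpand]
    congr 1
  rw [e, qExpand_smul]
  exact LR_qExpand _ (R_twist_root S (T.eta_pow b (k + 1)) hw)

end SitA

end Fermat.Agent.CarG
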