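import Fermat.Agent.Carayol.Gal

/-!
# The action of inertia on the `q ^ a`-th roots of unity
-/

set_option autoImplicit false
set_option linter.unusedSectionVars false
set_option linter.style.haveILetI false

noncomputable section

namespace Fermat.Agent.CarG

open Fermat.Agent.Carayol IsLocalRing Polynomial

local notation "Qb" => AlgebraicClosure ℚ

variable {A : ValuationSubring Qb} {q : ℕ}

/-- the cyclotomic polynomial of prime power order is irreducible over the inertia field -/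
theorem irreducible_cyclotomicG (hq : q.Prime) (hA : A.LiesOverPrime q) (a : ℕ) :
    Irreducible (cyclotomic (q ^ (a + 1)) (K0 A)) := by
  haveI : Fact q.Prime := ⟨hq⟩
  haveI := dvr_A0 hq hA
  have hirr := irreducible_q hq hA
  have hprime : Prime ((q : ℕ) : A0 A) := hirr.prime
  obtain ⟨f, hf⟩ : ∃ f : ℤ[X], f = (cyclotomic (q ^ (a + 1)) ℤ).comp (X + 1) := ⟨_, rfl⟩
  have hE := cyclotomic_prime_pow_comp_X_add_one_isEisensteinAt q a
  rw [← hf] at hE
  have hfm : f.Monic := by
    rw [hf]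
    exact (cyclotomic.monic (q ^ (a + 1)) ℤ).comp (monic_X_add_C 1) fun h => by
      rw [show (X + 1 : ℤ[X]) = X + C 1 by simp, natDegree_X_add_C] at h
      exact one_ne_zero h
  have hdeg : f.natDegree = Nat.totient (q ^ (a + 1)) := by
    rw [hf, natDegree_comp, show (X + 1 : ℤ[X]) = X + C 1 by simp, natDegree_X_add_C, mul_one,
      natDegree_cyclotomic]
  have hq2 : 0 < Nat.totient (q ^ (a + 1)) := Nat.totient_pos.2 (pow_pos hq.pos _)
  obtain ⟨g, hg⟩ : ∃ g : (A0 A)[X], g = f.map (Int.castRingHom (A0 A)) := ⟨_, rfl⟩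
  have hgm : g.Monic := by rw [hg]; exact hfm.map _
  have hgdeg : g.natDegree = Nat.totient (q ^ (a + 1)) := by
    rw [hg, hfm.natDegree_map, hdeg]
  have hc0 : f.coeff 0 = q := by
    rw [hf, coeff_zero_eq_eval_zero, eval_comp]
    simp [eval_one_cyclotomic_prime_pow]
  have hEg : g.IsEisensteinAt (Ideal.span {((q : ℕ) : A0 A)}) := by
    refine ⟨?_, fun {n} hn => ?_, ?_⟩
    · rw [hgm.leadingCoeff]
      intro h
      exact hprime.not_isUnit (isUnit_of_dvd_one (Ideal.mem_span_singleton.1 h))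
    · rw [hgdeg, ← hdeg] at hn
      have h1 := hE.mem hn
      have h2 : (q : ℤ) ∣ f.coeff n := Ideal.mem_span_singleton.1 h1
      obtain ⟨c, hc⟩ := h2
      rw [hg, coeff_map, hc, map_mul, Ideal.mem_span_singleton, map_natCast]
      exact dvd_mul_right _ _
    · intro h
      rw [hg, coeff_map, hc0, Ideal.span_singleton_pow, Ideal.mem_span_singleton, map_natCast] at h
      obtain ⟨c, hc⟩ := h
      have h1 : ((q : ℕ) : A0 A) * 1 = ((q : ℕ) : A0 A) * (((q : ℕ) : A0 A) * c) := by
        rw [mul_one]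
        calc ((q : ℕ) : A0 A) = ((q : ℕ) : A0 A) ^ 2 * c := hc
          _ = _ := by ring
      have h2 := mul_left_cancel₀ hprime.ne_zero h1
      exact hprime.not_isUnit (IsUnit.of_mul_eq_one _ h2.symm)
  have hgirr : Irreducible g := by
    refine hEg.irreducible ?_ hgm.isPrimitive (by rw [hgdeg]; omega)
    exact (Ideal.span_singleton_prime hprime.ne_zero).2 hprime
  have hgK := (hgm.irreducible_iff_irreducible_map_fraction_map (K := K0 A)).1 hgirr
  have h1 : g.map (algebraMap (A0 A) (K0 A)) = (cyclotomic (q ^ (a + 1)) (K0 A)).comp (X + 1) := by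
    rw [hg, hf, Polynomial.map_map, Polynomial.map_comp]
    have : (algebraMap (A0 A) (K0 A)).comp (Int.castRingHom (A0 A)) = Int.castRingHom (K0 A) :=
      RingHom.ext_int _ _
    rw [this, map_cyclotomic]
    simp
  rw [h1] at hgK
  -- translate back
  let e : (K0 A)[X] ≃ₐ[K0 A] (K0 A)[X] := algEquivAevalXAddC (1 : K0 A)
  have he : e (cyclotomic (q ^ (a + 1)) (K0 A)) = (cyclotomic (q ^ (a + 1)) (K0 A)).comp (X + 1) := by
    change aeval (X + C (1 : K0 A)) (cyclotomic (q ^ (a + 1)) (K0 A)) = _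
    rw [C_1]
    rfl
  rw [← he] at hgK
  exact (MulEquiv.irreducible_iff e).1 hgK

/-- the inertia group acts on the roots of unity of order `q ^ a` through all automorphisms -/
theorem exists_galoisG (hq : q.Prime) (hA : A.LiesOverPrime q) {a : ℕ} (ha : 0 < a) {Z : Qb}
    (hZ : IsPrimitiveRoot Z (q ^ a)) {i : ℕ} (hi : ¬ q ∣ i) :
    ∃ σ : Qb ≃ₐ[K0 A] Qb, σ Z = Z ^ i := by
  obtain ⟨b, rfl⟩ := Nat.exists_eq_succ_of_ne_zero ha.ne'
  have hcop : Nat.Coprime i (q ^ (b + 1)) :=
    Nat.Coprime.pow_right _ ((Nat.Prime.coprime_iff_not_dvd hq).2 hi).symm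
  have hζi := hZ.pow_of_coprime i hcop
  have hirr := irreducible_cyclotomicG hq hA b
  haveI : NeZero ((q ^ (b + 1) : ℕ) : K0 A) := ⟨by exact_mod_cast pow_ne_zero _ hq.ne_zero⟩
  have h1 := hZ.minpoly_eq_cyclotomic_of_irreducible hirr
  have h2 := hζi.minpoly_eq_cyclotomic_of_irreducible hirr
  have h3 : IsConjRoot (K0 A) Z (Z ^ i) := by
    rw [IsConjRoot, ← h1, ← h2]
  haveI : Algebra.IsAlgebraic (K0 A) Qb := Algebra.IsIntegral.isAlgebraic
  haveI : IsAlgClosure (K0 A) Qb := ⟨inferInstance, inferInstance⟩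
  haveI : Normal (K0 A) Qb := IsAlgClosure.normal _ _
  obtain ⟨σ, hσ⟩ := isConjRoot_iff_exists_algEquiv.1 h3.symm
  exact ⟨σ, hσ⟩

end Fermat.Agent.CarG
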