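import Fermat.Agent.CarG.Interface
import Fermat.Agent.CarayolY.Main

/-!
# From functions over the algebraic closure to functions over the inertia field
-/

set_option autoImplicit false
set_option linter.unusedSectionVars false
set_option linter.style.haveILetI false
set_option synthInstance.maxHeartbeats 400000

noncomputable section

namespace Fermat.Agent.CarG

open ModularCurve AlgebraicCurve IntermediateField Fermat.Agent.GenusX0 Fermat.Agent.ModFun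
open Fermat.Agent.AnJac Fermat.Agent.Curves Fermat.Agent.SSMod Fermat.Agent.PicFlat
open Fermat.Agent.CarayolY (exists_local exists_descent normAlong_mul normAlong_pow)
open Fermat.Agent.Carayol (normAlong bc inc exN K0 mem_K0 constF coe_bc bc_const)

local notation "FF" => Carayol.FF
local notation "Qb" => AlgebraicClosure ℚ

/-- The statement of `CarayolGen` for functions over the fixed field `K0 A` of inertia. -/
def CarayolGenK0 : Prop :=
  ∀ (q a M' N : ℕ) [NeZero q] [NeZero M'] [NeZero N], q.Prime → 3 ≤ a → Nat.Coprime q M' →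
    (q ≠ 2 → 4 ∣ M') → (q = 2 → 9 ∣ M') → ∀ (_ : N = q ^ a * M')
    (h1 : q ^ (a - 1) * M' ∣ N) (h2 : q * (q ^ (a - 1) * M') ∣ N),
  ∀ A : ValuationSubring Qb, A.LiesOverPrime q →
  ∃ C : ℕ, 0 < C ∧ ∀ m : ℕ, 0 < m → Nat.Coprime q m →
  ∀ u : FF (K0 A) N, u ≠ 0 →
    (∀ V : ValuationSubring (FF (K0 A) N), (∀ c : K0 A, constF (K0 A) N c ∈ V) →
      V ≠ ⊤ → ∃ y : FF (K0 A) N, y ≠ 0 ∧ u * y ^ m ∈ V ∧ (u * y ^ m)⁻¹ ∈ V) →
    (∃ n : FF Qb (q ^ (a - 1) * M'),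
      normAlong (inc Qb h1) (bc (algebraMap (K0 A) Qb) N u) = n ^ m) →
    (∃ n : FF Qb (q ^ (a - 1) * M'),
      normAlong (exN Qb q h2) (bc (algebraMap (K0 A) Qb) N u) = n ^ m) →
    ∃ c : K0 A, c ≠ 0 ∧ ∃ x : FF (K0 A) N, x ≠ 0 ∧
      u ^ C = constF (K0 A) N c * x ^ m

theorem carayolGen_of (H : CarayolGenK0) : CarayolGen := by
  intro q a M' N _ _ _ hq ha hcop h4 h9 hN h1 h2 A hA
  obtain ⟨C, hC, HC⟩ := H q a M' N hq ha hcop h4 h9 hN h1 h2 A hA
  refine ⟨C, hC, fun m hm hqm u hu hord hinv hn1 hn2 => ?_⟩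
  haveI : IsFunctionField Qb (FF Qb N) :=
    isFunctionField_fullC Qb N (by exact_mod_cast NeZero.ne N)
  -- a rational representative
  obtain ⟨m', g, hg, hcan⟩ := exists_isCan hm.ne' hu hord
  set w : FF Qb N := u * g ^ m with hw
  have hwfix : ∀ σ ∈ A.inertiaSubgroupIn ℚ, galF N (σ : Qb ≃+* Qb) w = w := by
    intro σ hσ
    obtain ⟨h, hh0, hh⟩ := hinv σ hσ
    have hσg : galF N (σ : Qb ≃+* Qb) g ≠ 0 := (map_ne_zero _).mpr hg
    refine hcan.unique hm.ne' (hcan.galF _) (g := h * galF N (σ : Qb ≃+* Qb) g * g⁻¹)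
      (mul_ne_zero (mul_ne_zero hh0 hσg) (inv_ne_zero hg)) ?_
    rw [hw, map_mul, map_pow, hh, mul_pow, mul_pow, inv_pow]
    field_simp
  obtain ⟨w₀, hw₀⟩ := exists_descent A w hwfix
  have hw₀0 : w₀ ≠ 0 := by
    rintro rfl
    rw [map_zero] at hw₀
    exact hcan.ne hw₀.symm
  have hloc : ∀ V : ValuationSubring (FF (K0 A) N), (∀ c : K0 A, constF (K0 A) N c ∈ V) →
      V ≠ ⊤ → ∃ y : FF (K0 A) N, y ≠ 0 ∧ w₀ * y ^ m ∈ V ∧ (w₀ * y ^ m)⁻¹ ∈ V := by
    intro V hV htop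
    refine exists_local (algebraMap (K0 A) Qb)
      (fun c => (Algebra.IsIntegral.isIntegral (R := K0 A) c : _))
      {σ | ∃ τ ∈ A.inertiaSubgroupIn ℚ, (τ : Qb ≃+* Qb) = σ} ?_ ?_ V hV htop hw₀0 ?_
    · rintro c _ ⟨τ, hτ, rfl⟩
      exact (mem_K0 A).mp c.2 τ hτ
    · intro x hx
      exact exists_descent A x fun σ hσ => hx _ ⟨σ, hσ, rfl⟩
    · intro v
      rw [hw₀]
      exact hcan.dvd v
  have hN1 : ∃ n : FF Qb (q ^ (a - 1) * M'),
      normAlong (inc Qb h1) (bc (algebraMap (K0 A) Qb) N w₀) = n ^ m := by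
    obtain ⟨n, hn⟩ := hn1
    refine ⟨n * normAlong (inc Qb h1) g, ?_⟩
    rw [hw₀, hw, normAlong_mul, normAlong_pow, hn, mul_pow]
  have hN2 : ∃ n : FF Qb (q ^ (a - 1) * M'),
      normAlong (exN Qb q h2) (bc (algebraMap (K0 A) Qb) N w₀) = n ^ m := by
    obtain ⟨n, hn⟩ := hn2
    refine ⟨n * normAlong (exN Qb q h2) g, ?_⟩
    rw [hw₀, hw, normAlong_mul, normAlong_pow, hn, mul_pow]
  obtain ⟨c, hc, x, hx, hcx⟩ := HC m hm hqm w₀ hw₀0 hloc hN1 hN2
  have hψc : algebraMap (K0 A) Qb c ≠ 0 := (map_ne_zero _).mpr hc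
  obtain ⟨d, hd⟩ := IsAlgClosed.exists_pow_nat_eq (algebraMap (K0 A) Qb c) hm
  have hd0 : d ≠ 0 := by
    rintro rfl
    rw [zero_pow hm.ne'] at hd
    exact hψc hd.symm
  have e := congrArg (bc (algebraMap (K0 A) Qb) N) hcx
  rw [map_pow, map_mul, map_pow, hw₀] at e
  have e2 : bc (algebraMap (K0 A) Qb) N (constF (K0 A) N c) = algebraMap Qb (FF Qb N) d ^ m := by
    rw [← map_pow, hd]
    exact bc_const _ c
  have hd0' : algebraMap Qb (FF Qb N) d ≠ 0 := (map_ne_zero _).mpr hd0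
  have hx0' : bc (algebraMap (K0 A) Qb) N x ≠ 0 := (map_ne_zero _).mpr hx
  rw [e2, hw] at e
  refine ⟨algebraMap Qb (FF Qb N) d * bc (algebraMap (K0 A) Qb) N x * (g ^ C)⁻¹,
    mul_ne_zero (mul_ne_zero hd0' hx0') (inv_ne_zero (pow_ne_zero _ hg)), ?_⟩
  have e3 : (g ^ m) ^ C = (g ^ C) ^ m := by rw [← pow_mul, ← pow_mul, mul_comm]
  rw [mul_pow, e3] at e
  rw [mul_pow, mul_pow, inv_pow, ← e, mul_assoc, mul_inv_cancel₀ (pow_ne_zero _ (pow_ne_zero _ hg)),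
    mul_one]

end Fermat.Agent.CarG
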