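import Fermat.Agent.CarG.NormB
import Fermat.Agent.CarG.Gal
import Fermat.Agent.CarG.K0Of
import Fermat.Agent.Carayol.K0Thm

/-!
# The situation of level `q ^ a * M'` over the inertia field
-/

set_option autoImplicit false
set_option linter.unusedSectionVars false
set_option linter.style.haveILetI false
set_option synthInstance.maxHeartbeats 400000

noncomputable section

namespace Fermat.Agent.CarG

open ModularCurve Fermat.Agent.GoodRed Fermat.Agent.ModFun Fermat.Agent.GenusX0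
open Fermat.Agent.Models IsLocalRing Polynomial IntermediateField Fermat.Agent.SSMod
open AlgebraicCurve Fermat.Agent.Curves Fermat.Agent.AnJac Fermat.Agent.Carayol

local notation "Qb" => AlgebraicClosure ℚ

namespace SitA

variable {k₀ K κ : Type} [Field k₀] [Field K] [Field κ] [Algebra k₀ K] {q M' : ℕ}
  [NeZero q] [NeZero M'] {S : Sit k₀ K κ q M'} {a : ℕ}

/-- the statement of the main theorem for a situation -/
def MainSt (T : SitA S a) (CC : ℕ) : Prop :=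
  ∀ m : ℕ, 0 < m → Nat.Coprime q m → S.DivBy m → ∀ u : T.F, u ≠ 0 →
    (∀ V : ValuationSubring T.F, (∀ c : k₀, algebraMap k₀ T.F c ∈ V) → V ≠ ⊤ →
      ∃ y : T.F, y ≠ 0 ∧ u * y ^ m ∈ V ∧ (u * y ^ m)⁻¹ ∈ V) →
    (∃ n, normAlong (Carayol.inc K h_incA) (T.bK u) = n ^ m) →
    (∃ n, normAlong (Carayol.exN K q (h_exA T.ha1)) (T.bK u) = n ^ m) →
    ∃ c : k₀, c ≠ 0 ∧ ∃ x : T.F, x ≠ 0 ∧ u ^ CC = algebraMap k₀ T.F c * x ^ m

end SitA

theorem exists_root_pow {q : ℕ} (hq : q.Prime) {a : ℕ} (ha : 1 ≤ a) {ζ : Qbˣ}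
    (hζ : IsPrimitiveRoot (ζ : Qb) q) :
    ∃ Z : Qbˣ, IsPrimitiveRoot (Z : Qb) (q ^ a) ∧ Z ^ q ^ (a - 1) = ζ := by
  haveI : Fact q.Prime := ⟨hq⟩
  obtain ⟨z, hz⟩ := IsAlgClosed.exists_pow_nat_eq (ζ : Qb) (pow_pos hq.pos (a - 1))
  have hz0 : z ≠ 0 := by
    rintro rfl
    rw [zero_pow (pow_pos hq.pos _).ne'] at hz
    exact ζ.ne_zero hz.symm
  refine ⟨Units.mk0 z hz0, ?_, Units.ext (by push_cast; exact hz)⟩
  obtain ⟨c, rfl⟩ : ∃ c, a = c + 1 := ⟨a - 1, by omega⟩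
  rw [Nat.add_sub_cancel] at hz
  rw [Units.val_mk0]
  have h1 : orderOf z = q ^ (c + 1) := by
    refine orderOf_eq_prime_pow (fun h => ?_) ?_
    · rw [hz] at h
      exact hζ.ne_one hq.one_lt h
    · rw [pow_succ, pow_mul, hz, hζ.pow_eq_one]
  rw [← h1]
  exact IsPrimitiveRoot.orderOf z

variable {A : ValuationSubring Qb} {q : ℕ}

section Mk

variable {M' a : ℕ} [NeZero q] [NeZero M'] (ha : 3 ≤ a) (hq : q.Prime) (hA : A.LiesOverPrime q)
  (hM : Nat.Coprime q M') (h4 : q ≠ 2 → 4 ∣ M') (h9 : q = 2 → 9 ∣ M')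

include ha in
theorem exists_Z : ∃ Z : Qbˣ, IsPrimitiveRoot (Z : Qb) (q ^ a) ∧
    Z ^ q ^ (a - 1) = (mkSit hq hA hM h4 h9).ζ :=
  exists_root_pow hq (by omega) (mkSit hq hA hM h4 h9).hζ

theorem exists_sgA (b : Fin (a + 1)) : ∃ s : FF Qb (q ^ a * M') →+* LaurentSeries Qb,
    IsSigA a (b : ℕ) (exists_Z ha hq hA hM h4 h9).choose s :=
  exists_sigA Carayol.ιQ hq hM (Nat.lt_succ_iff.1 b.2) _ (exists_Z ha hq hA hM h4 h9).choose_spec.1

/-- **the situation** -/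
def mkSitA : SitA (mkSit hq hA hM h4 h9) a where
  ha := ha
  Z := (exists_Z ha hq hA hM h4 h9).choose
  hZ := (exists_Z ha hq hA hM h4 h9).choose_spec.1
  hZζ := (exists_Z ha hq hA hM h4 h9).choose_spec.2
  sg b := (exists_sgA ha hq hA hM h4 h9 b).choose
  hsg b := (exists_sgA ha hq hA hM h4 h9 b).choose_spec

theorem mkSitA_hasGal : (mkSitA ha hq hA hM h4 h9).HasGalA := by
  intro i hi
  obtain ⟨σ, hσ⟩ := exists_galoisG hq hA (show 0 < a by omega) (mkSitA ha hq hA hM h4 h9).hZ hi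
  refine ⟨(σ : Qb →+* Qb), fun c => σ.commutes c, hσ, fun x => ?_⟩
  exact ⟨(K0_mem_iff σ _).2 x.2, residue_galois σ x _⟩

end Mk

/-- **Reduction to the main theorem for a situation.** -/
theorem carayolGenK0_of
    (H : ∀ (A : ValuationSubring Qb) (q M' a : ℕ) [NeZero q] [NeZero M'] (ha : 3 ≤ a)
      (hq : q.Prime) (hA : A.LiesOverPrime q) (hM : Nat.Coprime q M') (h4 : q ≠ 2 → 4 ∣ M')
      (h9 : q = 2 → 9 ∣ M'), ∃ CC, 0 < CC ∧ (mkSitA ha hq hA hM h4 h9).MainSt CC) :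
    CarayolGenK0 := by
  intro q a M' N _ _ _ hq ha hM h4 h9 hN h1 h2 A hA
  subst hN
  obtain ⟨CC, hCC, hmain⟩ := H A q M' a ha hq hA hM h4 h9
  refine ⟨CC, hCC, fun m hm hqm u hu hV hA' hB' => ?_⟩
  exact hmain m hm hqm (mkSit_divBy hq hA hM h4 h9 hqm) u hu hV hA' hB'

end Fermat.Agent.CarG
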