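import Fermat.Agent.CarG.UnitsA
import Fermat.Agent.CarG.InstA
import Fermat.Agent.Carayol.Fin2

/-!
# The theorem for a situation of level `q ^ a * M'`
-/

set_option autoImplicit false
set_option linter.unusedSectionVars false
set_option linter.style.haveILetI false
set_option synthInstance.maxHeartbeats 400000

noncomputable section

namespace Fermat.Agent.CarG

open ModularCurve Fermat.Agent.GoodRed Fermat.Agent.ModFun Fermat.Agent.GenusX0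
open Fermat.Agent.Models IsLocalRing Polynomial IntermediateField Fermat.Agent.Carayol
open Fermat.Agent.SSMod

namespace SitA

variable {k₀ K κ : Type} [Field k₀] [Field K] [Field κ] [Algebra k₀ K] {q M' : ℕ}
  [NeZero q] [NeZero M'] {S : Sit k₀ K κ q M'} {a : ℕ} (T : SitA S a)

/-- orders -/
abbrev O (b : Fin (a + 1)) (x : T.F) (n : ℤ) : Prop := IsOrd (T.C b) T.ϖF x n

theorem ϖF_memC (b : Fin (a + 1)) : T.ϖF ∈ (T.C b).O := mem_C.2 (T.ϖ_mem b)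

theorem exists_pow_mul (b : Fin (a + 1)) (x : T.F) : ∃ N : ℕ, T.ϖF ^ N * x ∈ (T.C b).O := by
  obtain ⟨N, hN⟩ := exists_pow_mul_mem_O S.hinc (T.φ_const b) (T.φ_scale b) S.hpow x
  refine ⟨N, mem_C.2 ?_⟩
  have e : T.ϖF = algebraMap k₀ T.F ((q : ℕ) : k₀) := rfl
  rw [e]
  exact hN

/-- a common multiple of the multiplicities -/
def dA (q a : ℕ) : ℕ := ∏ b : Fin (a + 1), eA q a b

include T in
theorem dA_pos : 0 < dA q a := Finset.prod_pos fun b _ => T.eA_pos b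

theorem O_xF (b : Fin (a + 1)) : T.O b (T.xF b ^ eA q a b) 1 := by
  obtain ⟨y, hy, h⟩ := T.xF_e' b
  have e : T.ϖF⁻¹ * T.xF b ^ eA q a b = T.xF b ^ eA q a b * T.ϖF ^ (-1 : ℤ) := by
    rw [mul_comm, zpow_neg_one]
  rw [e] at h
  intro h0
  have h1 := C_coe h
  rw [h0] at h1
  exact hy h1.symm

theorem exists_O (b : Fin (a + 1)) {x : T.F} (hx : x ≠ 0) : ∃ n, T.O b (x ^ dA q a) n := by
  obtain ⟨e, he⟩ : eA q a b ∣ dA q a :=
    Finset.dvd_prod_of_mem (fun b : Fin (a + 1) => eA q a b) (Finset.mem_univ b)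
  have he0 : 0 < e := by
    rcases Nat.eq_zero_or_pos e with h | h
    · have := T.dA_pos
      rw [he, h, mul_zero] at this
      exact absurd this (lt_irrefl 0)
    · exact h
  refine exists_isOrd (U := T.xF b) (e := e) (d := dA q a) T.ϖ_ne (T.r_ϖ b) (T.ϖF_memC b)
    (T.xF_ne b) (fun x hx h => C_div hx h) ?_ he0 (T.exists_pow_mul b) hx
  have := (T.O_xF b).pow T.ϖ_ne e
  rwa [mul_one, ← pow_mul, ← he] at this

/-- at the two extreme components all orders are integral -/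
theorem exists_O' {b : Fin (a + 1)} (hb : mm a b = 0) {x : T.F} (hx : x ≠ 0) :
    ∃ n, T.O b x n := by
  have h : ∃ n, T.O b (x ^ 1) n := by
    refine exists_isOrd (U := T.ϖF) (e := 1) (d := 1) T.ϖ_ne (T.r_ϖ b) (T.ϖF_memC b) T.ϖ_ne
      (fun x hx h => ?_) ?_ one_pos (T.exists_pow_mul b) hx
    · have := C_div hx h
      rwa [xF, if_pos hb] at this
    · have := isOrd_self_one (C := T.C b) T.ϖ_ne
      rwa [pow_one]
  rwa [pow_one] at h

theorem O_unique {b : Fin (a + 1)} {x : T.F} {n k : ℤ} (h : T.O b x n) (h' : T.O b x k) : n = k :=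
  h.unique T.ϖ_ne (T.r_ϖ b) h'

theorem O_mul {b : Fin (a + 1)} {x y : T.F} {n k : ℤ} (h : T.O b x n) (h' : T.O b y k) :
    T.O b (x * y) (n + k) := h.mul T.ϖ_ne h'

theorem O_pow {b : Fin (a + 1)} {x : T.F} {n : ℤ} (h : T.O b x n) (k : ℕ) :
    T.O b (x ^ k) (k * n) := h.pow T.ϖ_ne k

theorem O_zpow {b : Fin (a + 1)} {x : T.F} {n : ℤ} (h : T.O b x n) (k : ℤ) :
    T.O b (x ^ k) (k * n) := h.zpow T.ϖ_ne k

theorem O_ϖ (b : Fin (a + 1)) (k : ℤ) : T.O b (T.ϖF ^ k) k := isOrd_self T.ϖ_ne k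

theorem O_zero {b : Fin (a + 1)} {x : T.F} : T.O b x 0 ↔ (T.C b).r x ≠ 0 := isOrd_zero

theorem O_prod {b : Fin (a + 1)} {I : Type*} (s : Finset I) {f : I → T.F} {n : I → ℤ}
    (h : ∀ i ∈ s, T.O b (f i) (n i)) : T.O b (∏ i ∈ s, f i) (∑ i ∈ s, n i) := by
  classical
  induction s using Finset.induction_on with
  | empty =>
    rw [Finset.prod_empty, Finset.sum_empty, O_zero, Res.r_one]
    exact one_ne_zero
  | insert i s hi ih =>
    rw [Finset.prod_insert hi, Finset.sum_insert hi]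
    exact T.O_mul (h i (Finset.mem_insert_self i s))
      (ih fun j hj => h j (Finset.mem_insert_of_mem hj))

/-! ### the orders of the units -/

theorem O_E_self (d : Fin (a + 1)) : T.O d (T.E d) 12 := by
  obtain ⟨y, hy, h⟩ := T.E_self d
  have e : T.ϖF⁻¹ ^ 12 * T.E d = T.E d * T.ϖF ^ (-12 : ℤ) := by
    rw [mul_comm, inv_pow, zpow_neg]; rfl
  rw [e] at h
  intro h0
  have h1 := C_coe h
  rw [h0] at h1
  exact hy h1.symm

theorem O_E {b d : Fin (a + 1)} (h : b ≠ d) : T.O b (T.E d) 0 := T.O_zero.2 (T.r_E_ne h)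

theorem O_prod_E (k : Fin (a + 1) → ℤ) (b : Fin (a + 1)) :
    T.O b (∏ d, T.E d ^ k d) (k b * 12) := by
  classical
  have h := T.O_prod (b := b) Finset.univ (f := fun d => T.E d ^ k d)
    (n := fun d => if d = b then k b * 12 else 0) fun d _ => by
    split_ifs with hd
    · subst hd
      exact T.O_zpow (T.O_E_self d) _
    · have := T.O_zpow (T.O_E (Ne.symm hd)) (k d)
      rwa [mul_zero] at this
  rwa [Finset.sum_ite_eq', if_pos (Finset.mem_univ _)] at h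

/-! ### powers -/

variable {T}

/-- `x` is an `m`-th power up to a power of `ϖ` -/
def IsP (T : SitA S a) (m : ℕ) (x : T.F) : Prop :=
  ∃ (α : ℤ) (X : T.F), X ≠ 0 ∧ x = T.ϖF ^ α * X ^ m

theorem IsP.mul {m : ℕ} {x y : T.F} (h : T.IsP m x) (h' : T.IsP m y) : T.IsP m (x * y) := by
  obtain ⟨α, X, hX, rfl⟩ := h
  obtain ⟨β, Y, hY, rfl⟩ := h'
  refine ⟨α + β, X * Y, mul_ne_zero hX hY, ?_⟩
  rw [zpow_add₀ T.ϖ_ne, mul_pow]; ring

theorem IsP.inv {m : ℕ} {x : T.F} (h : T.IsP m x) : T.IsP m x⁻¹ := by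
  obtain ⟨α, X, hX, rfl⟩ := h
  refine ⟨-α, X⁻¹, inv_ne_zero hX, ?_⟩
  rw [mul_inv, zpow_neg, inv_pow]

theorem IsP.pow {m : ℕ} {x : T.F} (h : T.IsP m x) (k : ℕ) : T.IsP m (x ^ k) := by
  obtain ⟨α, X, hX, rfl⟩ := h
  refine ⟨α * k, X ^ k, pow_ne_zero _ hX, ?_⟩
  rw [mul_pow, zpow_mul, zpow_natCast, ← pow_mul, ← pow_mul, mul_comm m]

theorem IsP.zpow {m : ℕ} {x : T.F} (h : T.IsP m x) (k : ℤ) : T.IsP m (x ^ k) := by
  obtain ⟨k, rfl | rfl⟩ := Int.eq_nat_or_neg k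
  · rw [zpow_natCast]; exact h.pow k
  · rw [zpow_neg, zpow_natCast]; exact (h.pow k).inv

theorem isP_ϖ (m : ℕ) (k : ℤ) : T.IsP m (T.ϖF ^ k) :=
  ⟨k, 1, one_ne_zero, by rw [one_pow, mul_one]⟩

theorem isP_pow (m : ℕ) {x : T.F} (hx : x ≠ 0) : T.IsP m (x ^ m) :=
  ⟨0, x, hx, by rw [zpow_zero, one_mul]⟩

/-- an element of order zero -/
theorem IsP.root {m : ℕ} {b : Fin (a + 1)} (hb : mm a b = 0) {x : T.F} (h : T.IsP m x)
    (h0 : T.O b x 0) : ∃ X : T.F, X ≠ 0 ∧ x = X ^ m := by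
  obtain ⟨α, X, hX, rfl⟩ := h
  obtain ⟨n, hn⟩ := T.exists_O' hb hX
  have h1 := T.O_mul (T.O_ϖ b α) (T.O_pow hn m)
  have h2 := T.O_unique h0 h1
  have h3 : α = -(n * m) := by linarith
  refine ⟨T.ϖF ^ (-n) * X, mul_ne_zero (zpow_ne_zero _ T.ϖ_ne) hX, ?_⟩
  rw [h3, mul_pow, ← zpow_natCast (T.ϖF ^ (-n)), ← zpow_mul, neg_mul]

theorem isP_const {m : ℕ} (hD : S.DivBy m) {c : k₀} (hc : c ≠ 0) :
    T.IsP m (algebraMap k₀ T.F c) := by
  obtain ⟨α, b, hb, rfl⟩ := hD c hc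
  refine ⟨α, algebraMap k₀ T.F b, (_root_.map_ne_zero _).2 hb, ?_⟩
  rw [map_mul, map_zpow₀, map_pow]

theorem isP_of_bc {m : ℕ} (hm : 0 < m) (hD : S.DivBy m) {v : T.F} (hv : v ≠ 0)
    {n : FF K (q ^ a * M')} (hn : bc S.cK (q ^ a * M') v = n ^ m) : T.IsP m v := by
  obtain ⟨c, hc, x, hx⟩ := S.exists_descent_pow hm hv hn
  rw [hx]
  refine (isP_const hD hc).mul (isP_pow m ?_)
  rintro rfl
  rw [zero_pow hm.ne', mul_zero] at hx
  exact hv hx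

variable (T)

/-- the properties of the norm maps -/
structure NormData (NA NB : T.F →* T.F) : Prop where
  memA : ∀ x ∈ T.B0, NA x ∈ T.B0
  memB : ∀ x ∈ T.B0, NB x ∈ T.B0
  constA : ∀ c : k₀, NA (algebraMap k₀ T.F c) = algebraMap k₀ T.F c ^ q
  constB : ∀ c : k₀, NB (algebraMap k₀ T.F c) = algebraMap k₀ T.F c ^ q
  lowA : ∀ b : Fin (a + 1), (b : ℕ) + 2 ≤ a → ∀ x y, (T.P b).R x y → (T.P b).R (NA x) (y ^ q)
  topA : ∀ (c c' : k₀) (x : T.F) (y y' : LaurentSeries κ),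
    (T.P (Fin.last a)).R (x * algebraMap k₀ T.F c) y → (T.P T.sub).R (x * algebraMap k₀ T.F c') y' →
    (T.P (Fin.last a)).R (NA x * algebraMap k₀ T.F c * algebraMap k₀ T.F c' ^ (q - 1))
      (y * y' ^ (q - 1))
  topB : ∀ b : Fin (a + 1), a ≤ (b : ℕ) + 1 → ∀ x y, (T.P b).R x y → (T.P b).R (NB x) (y ^ q)

variable {T}

theorem r_of_R {b : Fin (a + 1)} {N : T.F →* T.F}
    (h : ∀ x y, (T.P b).R x y → (T.P b).R (N x) (y ^ q)) {x : T.F} (hx : x ∈ (T.C b).O) :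
    N x ∈ (T.C b).O ∧ (T.C b).r (N x) = (T.C b).r x ^ q := by
  have h1 := h _ _ (C_spec (mem_C.1 hx))
  refine ⟨mem_C.2 ⟨_, h1⟩, ?_⟩
  exact C_r (z := (T.C b).r x ^ q) h1

theorem O_of_R {b : Fin (a + 1)} {N : T.F →* T.F}
    (hc : ∀ c : k₀, N (algebraMap k₀ T.F c) = algebraMap k₀ T.F c ^ q)
    (h : ∀ x y, (T.P b).R x y → (T.P b).R (N x) (y ^ q)) {x : T.F} {n : ℤ} (hx : T.O b x n) :
    T.O b (N x) (q * n) := by
  have h1 := (r_of_R h (Res.mem_of_r_ne_zero hx)).2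
  have e : N (x * T.ϖF ^ (-n)) = N x * T.ϖF ^ (-((q : ℤ) * n)) := by
    have e1 : T.ϖF ^ (-n) = algebraMap k₀ T.F (S.ϖ ^ (-n)) := by rw [map_zpow₀]
    rw [map_mul, e1, hc, ← e1, ← zpow_natCast, ← zpow_mul]
    congr 2
    ring
  rw [e] at h1
  rw [O, IsOrd, h1]
  exact pow_ne_zero _ hx

namespace NormData

variable {NA NB : T.F →* T.F} (hN : NormData T NA NB)

include hN

theorem r_topA {x : T.F} (h : x ∈ (T.C (Fin.last a)).O) (h' : x ∈ (T.C T.sub).O) :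
    NA x ∈ (T.C (Fin.last a)).O ∧ (T.C (Fin.last a)).r (NA x) =
      (T.C (Fin.last a)).r x * (T.C T.sub).r x ^ (q - 1) := by
  have h1 := hN.topA 1 1 x _ _ (by rw [map_one, mul_one]; exact C_spec (mem_C.1 h))
    (by rw [map_one, mul_one]; exact C_spec (mem_C.1 h'))
  rw [map_one, one_pow, mul_one, mul_one] at h1
  refine ⟨mem_C.2 ⟨_, h1⟩, ?_⟩
  exact C_r (z := (T.C (Fin.last a)).r x * (T.C T.sub).r x ^ (q - 1)) h1

theorem O_topA {x : T.F} {n n' : ℤ} (h : T.O (Fin.last a) x n) (h' : T.O T.sub x n') :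
    T.O (Fin.last a) (NA x) (n + (q - 1) * n') := by
  have hq := S.hq.one_le
  have e : ∀ j : ℤ, algebraMap k₀ T.F (S.ϖ ^ j) = T.ϖF ^ j := fun j => map_zpow₀ _ _ _
  have h1 := hN.topA (S.ϖ ^ (-n)) (S.ϖ ^ (-n')) x _ _
    (by rw [e]; exact C_spec (mem_C.1 (Res.mem_of_r_ne_zero h)))
    (by rw [e]; exact C_spec (mem_C.1 (Res.mem_of_r_ne_zero h')))
  have e2 : NA x * algebraMap k₀ T.F (S.ϖ ^ (-n)) * algebraMap k₀ T.F (S.ϖ ^ (-n')) ^ (q - 1) =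
      NA x * T.ϖF ^ (-(n + (q - 1) * n')) := by
    rw [e, e, mul_assoc, ← zpow_natCast, ← zpow_mul, ← zpow_add₀ T.ϖ_ne]
    congr 2
    rw [Nat.cast_sub hq]
    push_cast
    ring
  rw [e2] at h1
  have h2 : (T.C (Fin.last a)).r (NA x * T.ϖF ^ (-(n + (q - 1) * n'))) =
      (T.C (Fin.last a)).r (x * T.ϖF ^ (-n)) * (T.C T.sub).r (x * T.ϖF ^ (-n')) ^ (q - 1) :=
    C_r (z := (T.C (Fin.last a)).r (x * T.ϖF ^ (-n)) *
      (T.C T.sub).r (x * T.ϖF ^ (-n')) ^ (q - 1)) h1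
  rw [O, IsOrd, h2]
  exact mul_ne_zero h (pow_ne_zero _ h')

end NormData

theorem map_ne {N : T.F →* T.F} {x : T.F} (hx : x ≠ 0) : N x ≠ 0 := by
  intro h
  have := map_mul N x x⁻¹
  rw [mul_inv_cancel₀ hx, map_one, h, zero_mul] at this
  exact one_ne_zero this

variable (T)

theorem mm_zero : mm a ((0 : Fin (a + 1)) : ℕ) = 0 := by rw [mm, Fin.val_zero, Nat.zero_min]

theorem mm_last : mm a ((Fin.last a : Fin (a + 1)) : ℕ) = 0 := by
  rw [mm, Fin.val_last, Nat.sub_self, Nat.min_zero]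

/-- the exponent -/
def CC (q a : ℕ) : ℕ := dA q a * 12 * q ^ 2

include T in
theorem CC_pos : 0 < CC q a := by
  have := T.dA_pos
  have := S.hq.pos
  rw [CC]
  positivity

set_option synthInstance.maxHeartbeats 400000 in
set_option maxHeartbeats 1000000 in
/-- **The theorem for a situation.** -/
theorem main (hset : SetupG k₀ κ T.C T.B0 T.B1 S.R0 S.R1 T.j0 ((q : ℕ) : S.A₀) S.π₀)
    {NA NB : T.F →* T.F} (hN : NormData T NA NB) {m : ℕ} (hm : 0 < m) (hqm : Nat.Coprime q m)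
    {u : T.F} (hu0 : u ≠ 0)
    (hh : ∀ V : ValuationSubring T.F, (∀ c : k₀, algebraMap k₀ T.F c ∈ V) → V ≠ ⊤ →
      ∃ y : T.F, y ≠ 0 ∧ u * y ^ m ∈ V ∧ (u * y ^ m)⁻¹ ∈ V)
    (PA : T.IsP m (NA u)) (PB : T.IsP m (NB u)) :
    ∃ c : k₀, c ≠ 0 ∧ ∃ x : T.F, x ≠ 0 ∧ u ^ CC q a = algebraMap k₀ T.F c * x ^ m := by
  have ha := T.ha
  have hq2 := S.hq.two_le
  obtain ⟨d, hd⟩ : ∃ d, d = dA q a := ⟨_, rfl⟩
  -- orders
  choose ν hν using fun b => T.exists_O b hu0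
  rw [← hd] at hν
  obtain ⟨α, X, hX, hNA⟩ := id PA
  obtain ⟨β, Y, hY, hNB⟩ := id PB
  choose x hx using fun b => T.exists_O b hX
  choose y hy using fun b => T.exists_O b hY
  rw [← hd] at hx hy
  have eA : NA (u ^ d) = T.ϖF ^ ((d : ℤ) * α) * (X ^ d) ^ m := by
    rw [map_pow, hNA, mul_pow, ← pow_mul, ← pow_mul, mul_comm m, ← zpow_natCast (T.ϖF ^ α),
      ← zpow_mul, mul_comm α]
  have eB : NB (u ^ d) = T.ϖF ^ ((d : ℤ) * β) * (Y ^ d) ^ m := by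
    rw [map_pow, hNB, mul_pow, ← pow_mul, ← pow_mul, mul_comm m, ← zpow_natCast (T.ϖF ^ β),
      ← zpow_mul, mul_comm β]
  have rlow : ∀ b : Fin (a + 1), (b : ℕ) + 2 ≤ a → (q : ℤ) * ν b = d * α + m * x b := by
    intro b hb
    have h1 := O_of_R hN.constA (hN.lowA b hb) (hν b)
    rw [eA] at h1
    exact T.O_unique h1 (T.O_mul (T.O_ϖ b _) (T.O_pow (hx b) m))
  have rtop : ν (Fin.last a) + (q - 1) * ν T.sub = d * α + m * x (Fin.last a) := by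
    have h1 := hN.O_topA (hν (Fin.last a)) (hν T.sub)
    rw [eA] at h1
    exact T.O_unique h1 (T.O_mul (T.O_ϖ _ _) (T.O_pow (hx _) m))
  have rB : ∀ b : Fin (a + 1), a ≤ (b : ℕ) + 1 → (q : ℤ) * ν b = d * β + m * y b := by
    intro b hb
    have h1 := O_of_R hN.constB (hN.topB b hb) (hν b)
    rw [eB] at h1
    exact T.O_unique h1 (T.O_mul (T.O_ϖ b _) (T.O_pow (hy b) m))
  have hcop : IsCoprime (m : ℤ) (q : ℤ) := (Nat.isCoprime_iff_coprime.2 hqm).symm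
  have hlast : a ≤ ((Fin.last a : Fin (a + 1)) : ℕ) + 1 := by rw [Fin.val_last]; omega
  have hsub : a ≤ ((T.sub : Fin (a + 1)) : ℕ) + 1 := by change a ≤ a - 1 + 1; omega
  have c1 : (m : ℤ) ∣ ν T.sub - ν (Fin.last a) := by
    refine hcop.dvd_of_dvd_mul_left ⟨y T.sub - y (Fin.last a), ?_⟩
    have h1 := rB _ hlast
    have h2 := rB _ hsub
    linear_combination h2 - h1
  have hk : ∀ b, (m : ℤ) ∣ ν b - ν (Fin.last a) := by
    intro b
    have hb := Nat.lt_succ_iff.1 b.2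
    rcases Nat.lt_or_ge (b : ℕ) (a - 1) with h | h
    · refine hcop.dvd_of_dvd_mul_left ?_
      have h1 := rlow b (by omega)
      have e : (q : ℤ) * (ν b - ν (Fin.last a)) = m * (x b - x (Fin.last a)) +
          (q - 1) * (ν T.sub - ν (Fin.last a)) := by
        linear_combination h1 - rtop
      rw [e]
      exact dvd_add (dvd_mul_right _ _) (Dvd.dvd.mul_left c1 _)
    · rcases Nat.lt_or_ge (b : ℕ) a with h' | h'
      · have : b = T.sub := Fin.ext (by change (b : ℕ) = a - 1; omega)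
        rw [this]
        exact c1
      · have : b = Fin.last a := Fin.ext (by rw [Fin.val_last]; omega)
        rw [this, sub_self]
        exact dvd_zero _
  choose k hk using hk
  -- the normalised element
  obtain ⟨e, he⟩ : ∃ e : ℤ, e = -(12 * ν (Fin.last a)) := ⟨_, rfl⟩
  obtain ⟨z, hz⟩ : ∃ z : T.F, z = ∏ b, T.E b ^ (-k b) := ⟨_, rfl⟩
  have hz0 : z ≠ 0 := by
    rw [hz]; exact Finset.prod_ne_zero_iff.2 fun b _ => zpow_ne_zero _ (T.E_ne b)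
  obtain ⟨u2, hu2⟩ : ∃ u2 : T.F, u2 = (u ^ d) ^ 12 * T.ϖF ^ e * z ^ m := ⟨_, rfl⟩
  have hu2n : ∀ b, T.O b u2 0 := by
    intro b
    have h := T.O_mul (T.O_mul (T.O_pow (hν b) 12) (T.O_ϖ b e))
      (T.O_pow (T.O_prod_E (fun b => -k b) b) m)
    rw [← hz, ← hu2] at h
    convert h using 1
    rw [he]
    push_cast
    linear_combination (-12 : ℤ) * hk b
  have hr : ∀ b, (T.C b).r u2 ≠ 0 := fun b => T.O_zero.1 (hu2n b)
  have hP : ∀ N : T.F →* T.F, (∀ c : k₀, N (algebraMap k₀ T.F c) = algebraMap k₀ T.F c ^ q) →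
      T.IsP m (N u) → T.IsP m (N u2) := by
    intro N hc h
    have e1 : T.ϖF ^ e = algebraMap k₀ T.F (S.ϖ ^ e) := by rw [map_zpow₀]
    rw [hu2, map_mul, map_mul, map_pow, map_pow, map_pow, e1, hc, ← e1]
    exact (((h.pow _).pow _).mul ((isP_ϖ m e).pow q)).mul (isP_pow m (map_ne hz0))
  have hq0 : ∀ b : Fin (a + 1), (T.C b).r u2 ^ q ≠ 0 := fun b => pow_ne_zero _ (hr b)
  obtain ⟨na, hna0, hna⟩ := (hP NA hN.constA PA).root (b := 0) mm_zero (by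
    rw [O_zero, (r_of_R (hN.lowA 0 (by rw [Fin.val_zero]; omega)) (Res.mem_of_r_ne_zero (hr 0))).2]
    exact hq0 0)
  obtain ⟨nb, hnb0, hnb⟩ := (hP NB hN.constB PB).root (b := Fin.last a) mm_last (by
    rw [O_zero, (r_of_R (hN.topB _ hlast) (Res.mem_of_r_ne_zero (hr _))).2]
    exact hq0 _)
  -- the hypothesis on valuation rings
  have hh2 : ∀ V : ValuationSubring T.F, (∀ c : k₀, algebraMap k₀ T.F c ∈ V) → V ≠ ⊤ →
      ∃ y : T.F, y ≠ 0 ∧ u2 * y ^ m ∈ V ∧ (u2 * y ^ m)⁻¹ ∈ V := by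
    intro V hV hVt
    obtain ⟨w, hw0, hw1, hw2⟩ := hh V hV hVt
    have hϖV : ∀ j : ℤ, T.ϖF ^ j ∈ V := fun j => by
      have := hV (S.ϖ ^ j)
      rwa [map_zpow₀] at this
    refine ⟨w ^ (d * 12) * z⁻¹, mul_ne_zero (pow_ne_zero _ hw0) (inv_ne_zero hz0), ?_⟩
    have e1 : u2 * (w ^ (d * 12) * z⁻¹) ^ m = (u * w ^ m) ^ (d * 12) * T.ϖF ^ e := by
      have a1 : z ^ m * z⁻¹ ^ m = 1 := by
        rw [← mul_pow, mul_inv_cancel₀ hz0, one_pow]
      rw [hu2, mul_pow, mul_pow, ← pow_mul, ← pow_mul, ← pow_mul, mul_comm m (d * 12)]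
      calc _ = u ^ (d * 12) * w ^ (d * 12 * m) * T.ϖF ^ e * (z ^ m * z⁻¹ ^ m) := by ring
        _ = _ := by rw [a1, mul_one]
    rw [e1]
    refine ⟨mul_mem (pow_mem hw1 _) (hϖV e), ?_⟩
    rw [mul_inv, ← inv_pow, ← zpow_neg]
    exact mul_mem (pow_mem hw2 _) (hϖV _)
  -- the main theorem
  haveI : Fact q.Prime := ⟨S.hq⟩
  haveI := S.charP
  haveI : IsAlgClosed κ := S.acκ
  haveI : CharP S.𝓕 q := charP_of_injective_algebraMap (algebraMap κ S.𝓕).injective q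
  haveI := tower_A (F := T.F) S.A₀
  have hα : NormG T.C T.B0 q NA {b | (b : ℕ) + 2 ≤ a} :=
    ⟨hN.memA, fun b hb x hx => r_of_R (hN.lowA b hb) hx⟩
  have hβ : NormG T.C T.B0 q NB {b | a ≤ (b : ℕ) + 1} :=
    ⟨hN.memB, fun b hb x hx => r_of_R (hN.topB b hb) hx⟩
  obtain ⟨c, hc, w, hw⟩ := hset.main hm (Sit.isUnit_m hm hqm) hqm hr hh2 (Fin.last a) T.sub hα hβ
    (fun i => by
      rcases Nat.lt_or_ge ((i : ℕ) + 1) a with h | h
      · exact Or.inl h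
      · exact Or.inr h) hlast hsub (fun x h h' => hN.r_topA h h') (fun y hy => T.hts y hy) hna hnb
  have hu20 : u2 ≠ 0 := Res.ne_zero_of_r (hr 0)
  have hw0 : w ≠ 0 := by
    rintro rfl
    rw [zero_pow hm.ne', mul_zero] at hw
    exact pow_ne_zero _ hu20 hw
  obtain ⟨Q, hQ⟩ : ∃ Q, Q = q ^ 2 := ⟨_, rfl⟩
  rw [← hQ] at hw
  refine ⟨c * (S.ϖ ^ e) ^ (-(Q : ℤ)), mul_ne_zero hc (zpow_ne_zero _ (zpow_ne_zero _ S.q_ne)),
    w * (z ^ Q)⁻¹, mul_ne_zero hw0 (inv_ne_zero (pow_ne_zero _ hz0)), ?_⟩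
  rw [CC, ← hQ, ← hd]
  have e1 : u2 ^ Q = u ^ (d * 12 * Q) * (T.ϖF ^ e) ^ Q * (z ^ Q) ^ m := by
    rw [hu2]
    generalize T.ϖF ^ e = w'
    ring
  have hϖE : (T.ϖF ^ e) ^ Q ≠ 0 := pow_ne_zero _ (zpow_ne_zero _ T.ϖ_ne)
  have hyE : (z ^ Q) ^ m ≠ 0 := pow_ne_zero _ (pow_ne_zero _ hz0)
  rw [e1] at hw
  rw [map_mul, map_zpow₀, map_zpow₀, zpow_neg, zpow_natCast, mul_pow, inv_pow]
  change _ = algebraMap k₀ T.F c * ((T.ϖF ^ e) ^ Q)⁻¹ * _
  have h3 : u ^ (d * 12 * Q) = (algebraMap k₀ T.F c * w ^ m) * ((T.ϖF ^ e) ^ Q)⁻¹ *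
      ((z ^ Q) ^ m)⁻¹ := by
    rw [← hw, mul_assoc (u ^ _), mul_comm ((T.ϖF ^ e) ^ Q), ← mul_assoc, mul_inv_cancel_right₀ hϖE,
      mul_inv_cancel_right₀ hyE]
  rw [h3]
  ring

variable {T} in
theorem normData (hG : T.HasGalA) : NormData T T.NmA T.NmB where
  memA _ hx := T.NmA_B0 hx
  memB _ hx := T.NmB_B0 hx
  constA := T.NmA_const
  constB := T.NmB_const
  lowA _ hb _ _ h := R_NmA hG hb h
  topA c c' _ _ _ h h' := R_top_NmA_c hG c c' h h'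
  topB b hb _ _ h := T.R_NmB (by have := T.ha; omega) h

/-- **the main theorem for a situation, final form** -/
theorem mainSt (hG : T.HasGalA)
    (hset : SetupG k₀ κ T.C T.B0 T.B1 S.R0 S.R1 T.j0 ((q : ℕ) : S.A₀) S.π₀) :
    T.MainSt (CC q a) := by
  intro m hm hqm hD u hu hV hA hB
  obtain ⟨n, hn⟩ := hA
  obtain ⟨n', hn'⟩ := hB
  refine T.main hset (normData hG) hm hqm hu hV
    (isP_of_bc hm hD (T.NmA_ne hu) (n := Carayol.inc K h_incA n) ?_)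
    (isP_of_bc hm hD (T.NmB_ne hu) (n := Carayol.exN K q (h_exA T.ha1) n') ?_)
  · have h1 := T.bK_NmA u
    rw [hn, map_pow] at h1
    exact h1
  · have h1 := T.bK_NmB u
    rw [hn', map_pow] at h1
    exact h1

end SitA

/-- **S45 core from the setup** -/
theorem carayolGenK0_of_setup
    (H : ∀ (A : ValuationSubring (AlgebraicClosure ℚ)) (q M' a : ℕ) [NeZero q] [NeZero M']
      (ha : 3 ≤ a) (hq : q.Prime) (hA : A.LiesOverPrime q) (hM : Nat.Coprime q M')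
      (h4 : q ≠ 2 → 4 ∣ M') (h9 : q = 2 → 9 ∣ M'),
      SetupG (K0 A) (ResidueField A) (mkSitA ha hq hA hM h4 h9).C
        (mkSitA ha hq hA hM h4 h9).B0 (mkSitA ha hq hA hM h4 h9).B1 (mkSit hq hA hM h4 h9).R0
        (mkSit hq hA hM h4 h9).R1 (mkSitA ha hq hA hM h4 h9).j0
        ((q : ℕ) : (mkSit hq hA hM h4 h9).A₀) (mkSit hq hA hM h4 h9).π₀) :
    CarayolGenK0 :=
  carayolGenK0_of fun A q M' a _ _ ha hq hA hM h4 h9 =>
    ⟨SitA.CC q a, (mkSitA ha hq hA hM h4 h9).CC_pos,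
      (mkSitA ha hq hA hM h4 h9).mainSt (mkSitA_hasGal ha hq hA hM h4 h9) (H A q M' a ha hq hA hM h4 h9)⟩

end Fermat.Agent.CarG
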