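import Fermat.Agent.CarG.SetupA
import Fermat.Agent.CarG.K0Of
import Fermat.Agent.Carayol.K0Thm

/-!
# Carayol's theorem at level `q ^ a * M'`
-/

set_option autoImplicit false

noncomputable section

namespace Fermat.Agent.CarG

open Fermat.Agent.Carayol

/-- **The theorem over the inertia field.** -/
theorem carayolGenK0 : CarayolGenK0 :=
  carayolGenK0_of_setup fun _ _ _ _ _ _ ha hq hA hM h4 h9 =>
    (mkSitA ha hq hA hM h4 h9).setup (mkSit_hasParam hq hA hM h4 h9)

/-- **The theorem.** -/
theorem carayolGen : CarayolGen := carayolGen_of carayolGenK0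

end Fermat.Agent.CarG
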