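import Fermat.Agent.Carayol.Interface

/-!
# The statement about functions at level `q ^ a * M'`, `a ≥ 3`
-/

set_option autoImplicit false

noncomputable section

namespace Fermat.Agent.CarG

open ModularCurve AlgebraicCurve IntermediateField Fermat.Agent.GenusX0 Fermat.Agent.ModFun
open Fermat.Agent.AnJac Fermat.Agent.Carayol

local notation "Qb" => AlgebraicClosure ℚ

/-- **The function field form of Carayol's theorem** at level `N = q ^ a * M'`, `q ∤ M'`, `a ≥ 3`,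
with `4 ∣ M'` (`q` odd) or `9 ∣ M'` (`q = 2`): an inertia invariant class of order `m` prime to
`q`, killed by the two trace maps to level `q ^ (a - 1) * M'`, is killed by a constant. -/
def CarayolGen : Prop :=
  ∀ (q a M' N : ℕ) [NeZero q] [NeZero M'] [NeZero N], q.Prime → 3 ≤ a → Nat.Coprime q M' →
    (q ≠ 2 → 4 ∣ M') → (q = 2 → 9 ∣ M') → ∀ (_ : N = q ^ a * M')
    (h1 : q ^ (a - 1) * M' ∣ N) (h2 : q * (q ^ (a - 1) * M') ∣ N),
  ∀ A : ValuationSubring Qb, A.LiesOverPrime q →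
  ∃ C : ℕ, 0 < C ∧ ∀ m : ℕ, 0 < m → Nat.Coprime q m →
  ∀ u : FF Qb N, u ≠ 0 →
    (∀ v : Place Qb (FF Qb N), (m : ℤ) ∣ v.ord u) →
    (∀ σ ∈ A.inertiaSubgroupIn ℚ, ∃ g : FF Qb N, g ≠ 0 ∧
      galF N (σ : Qb ≃+* Qb) u = u * g ^ m) →
    (∃ n : FF Qb (q ^ (a - 1) * M'), normAlong (inc Qb h1) u = n ^ m) →
    (∃ n : FF Qb (q ^ (a - 1) * M'), normAlong (exN Qb q h2) u = n ^ m) →
    ∃ x : FF Qb N, x ≠ 0 ∧ u ^ C = x ^ m

end Fermat.Agent.CarG
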