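import Fermat.Agent.CarG.ChtA
import Fermat.Agent.Carayol.Gen0

/-!
# Local generators of the vertical primes on the first chart at level `q ^ a * M'`
-/

set_option autoImplicit false
set_option linter.unusedSectionVars false
set_option linter.style.haveILetI false
set_option synthInstance.maxHeartbeats 400000

noncomputable section

namespace Fermat.Agent.CarG

open ModularCurve Fermat.Agent.GoodRed Fermat.Agent.ModFun Fermat.Agent.GenusX0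
open Fermat.Agent.Models IsLocalRing Polynomial IntermediateField Fermat.Agent.Carayol
open Fermat.Agent.SSMod AlgebraicCurve Fermat.Agent.Curves

namespace SitA

variable {k₀ K κ : Type} [Field k₀] [Field K] [Field κ] [Algebra k₀ K] {q M' : ℕ}
  [NeZero q] [NeZero M'] {S : Sit k₀ K κ q M'} {a : ℕ}

/-! ### the map `y(z) ↦ y(q^E z)` on the components -/

variable (S) in
/-- `y(z) ↦ y(q^E z)` -/
def frR (E : ℕ) : S.𝓕 →+* S.𝓕 :=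
  mkHom (qExpand κ (q ^ E))
    (fun c => by rw [Carayol.qExpand_algebraMap]; exact IntermediateField.algebraMap_mem _ _)
    (fun d _ hd => by
      have e : qExpand κ (q ^ E) (qExpand κ d (jqModC κ)) = (qExpand κ d (jqModC κ)) ^ q ^ E := by
        have h := qExpand_jb (S := S) E
        change qExpand κ (q ^ E) (jqModC κ) = jqModC κ ^ q ^ E at h
        rw [← map_pow, ← h, qExpand_qExpand, qExpand_qExpand]
        exact Carayol.qExpand_congr (mul_comm _ _) _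
      rw [e]
      exact pow_mem (mem_FF hd) _)

theorem coe_frR (E : ℕ) (y : S.𝓕) :
    ((frR S E y : S.𝓕) : LaurentSeries κ) = qExpand κ (q ^ E) (y : LaurentSeries κ) := rfl

theorem frR_jR (E : ℕ) : frR S E S.jR = S.jR ^ q ^ E := Subtype.ext (qExpand_jb (S := S) E)

theorem frR_const (E : ℕ) (c : κ) : frR S E (algebraMap κ S.𝓕 c) = algebraMap κ S.𝓕 c :=
  Subtype.ext (Carayol.qExpand_algebraMap _ c)

theorem frR_R0 (E : ℕ) {y : S.𝓕} (hy : y ∈ S.R0) : frR S E y ∈ S.R0 := by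
  have h := icr_map (RingHom.id κ) (frR S E) (fun c => frR_const E c) hy
  rwa [frR_jR, Sit.icr_pow (pow_pos S.hq.pos _)] at h

theorem frR_R1 (E : ℕ) {y : S.𝓕} (hy : y ∈ S.R1) : frR S E y ∈ S.R1 := by
  have h := icr_map (RingHom.id κ) (frR S E) (fun c => frR_const E c) hy
  rwa [map_inv₀, frR_jR, ← inv_pow, Sit.icr_pow (pow_pos S.hq.pos _)] at h

variable (S) in
theorem dR_R0 : S.dR ∈ S.R0 := by
  rw [← S.r0_δ1]
  exact S.mem_R0 0 S.δ1_B0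

/-- **local parameters at a point, after the Frobenius** -/
theorem exists_param (hpar : S.HasParam) (E : ℕ) {𝔫 : Ideal S.R0} (h𝔫 : 𝔫 ≠ ⊤) :
    ∃ (f : FF k₀ M') (g : S.𝓕), f ∈ icr k₀ (je k₀ M') ∧ g ∈ S.R0 ∧
      S.RM f (g : LaurentSeries κ) ∧ thetaFun (g : LaurentSeries κ) ≠ 0 ∧
      ∃ ψ : S.R0, ((ψ : S.𝓕) : LaurentSeries κ) = qExpand κ (q ^ E)
        (thetaFun (g : LaurentSeries κ) ^ (12 * (q - 1)) * (S.dκ * S.dκ)) ∧ ψ ∉ 𝔫 := by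
  let Fr : S.R0 →+* S.R0 := (frR S E).restrict S.R0 S.R0 fun y hy => frR_R0 E hy
  have h1 : 𝔫.comap Fr ≠ ⊤ := Ideal.comap_ne_top _ h𝔫
  obtain ⟨Q, hQ, hQ𝔫⟩ := S.exists_place_R0 (𝔫.comap Fr) h1
  obtain ⟨g, hg, hθ, hψ⟩ := hpar Q hQ
  obtain ⟨f, hf, hfg⟩ := S.lift0 g hg
  have hfg' : S.RM f (g : LaurentSeries κ) := hfg
  obtain ⟨ψ₀, hψ₀⟩ : ∃ ψ₀ : S.R0, ((ψ₀ : S.𝓕) : LaurentSeries κ) =
      thetaFun (g : LaurentSeries κ) ^ (12 * (q - 1)) * (S.dκ * S.dκ) :=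
    ⟨⟨(S.C 1).r (S.nu f), S.mem_R0 1 (Sit.nu_B0 hfg' hf)⟩, Sit.C_coe (Sit.R1_nu hfg')⟩
  refine ⟨f, g, hf, hg, hfg', hθ, Fr ψ₀, ?_, fun hmem => ?_⟩
  · rw [← hψ₀]
    exact coe_frR E _
  · have h3 := hQ𝔫 ψ₀ hmem
    have h5 := hψ _ hψ₀
    rw [val_lt_one_iff, h5] at h3
    rcases h3 with h3 | h3
    · rw [h3] at hψ₀
      exact mul_ne_zero (pow_ne_zero _ hθ) (mul_ne_zero S.dκ_ne S.dκ_ne) hψ₀.symm
    · exact lt_irrefl _ h3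

/-! ### the criterion away from the other components -/

variable (T : SitA S a)

/-- an element of the other primes, off the maximal ideal -/
theorem exists_off {t : T.F} {R : Subring S.𝓕}
    (hB : Chart (icr S.A₀ t) T.C R (algebraMap S.A₀ T.F ((q : ℕ) : S.A₀)))
    {𝔪 : Ideal (icr S.A₀ t)} (hp : 𝔪.IsPrime) (b : Fin (a + 1))
    (hP : ∀ k, k ≠ b → ¬ hB.P k ≤ 𝔪) : ∃ s : icr S.A₀ t, s ∉ 𝔪 ∧
      ∀ k, k ≠ b → (T.C k).r (s : T.F) = 0 := by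
  classical
  have h1 : ∀ k, ∃ x, (k ≠ b → x ∈ hB.P k) ∧ x ∉ 𝔪 := fun k => by
    by_cases hk : k = b
    · exact ⟨1, fun h => absurd hk h, hp.one_notMem⟩
    · by_contra h
      push Not at h
      exact hP k hk fun x hx => h x fun _ => hx
  choose x hx hxm using h1
  refine ⟨∏ k, x k, fun h => ?_, fun k hk => ?_⟩
  · obtain ⟨k, -, hk⟩ := (hp.prod_mem_iff).1 h
    exact hxm k hk
  · rw [← hB.mem_P]
    exact Ideal.mem_of_dvd _ (Finset.dvd_prod_of_mem x (Finset.mem_univ k)) (hx k hk)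

/-- **the criterion for local generators away from the other components** -/
theorem locGen_of {t : T.F} {R : Subring S.𝓕}
    (hB : Chart (icr S.A₀ t) T.C R (algebraMap S.A₀ T.F ((q : ℕ) : S.A₀)))
    (hmem : ∀ x : T.F, x ∈ icr S.A₀ t ↔ x ∈ icr k₀ t ∧ ∀ i, x ∈ (T.C i).O)
    {𝔪 : Ideal (icr S.A₀ t)} (h𝔪 : 𝔪.IsMaximal) (b : Fin (a + 1)) (hb : hB.P b ≤ 𝔪)
    (hP : ∀ k, k ≠ b → ¬ hB.P k ≤ 𝔪) {x w y : icr S.A₀ t} (hx0 : (x : T.F) ≠ 0)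
    (hx : (T.C b).r (x : T.F) = 0) {n e : ℕ} (hn : 0 < n) (he : 0 < e)
    (hz : T.ϖF⁻¹ * (x : T.F) ^ e ∈ (T.C b).O)
    (hxF : (x : T.F)⁻¹ * T.xF b ∈ (T.C b).O) (hy : y ∉ 𝔪)
    (hr : (T.C b).r (T.ϖF⁻¹ * (x : T.F) ^ e) ^ n * (T.C b).r (w : T.F) = (T.C b).r (y : T.F)) :
    hB.LocGen 𝔪 b x := by
  have hp := h𝔪.isPrime
  obtain ⟨s, hsm, hsk⟩ := T.exists_off hB hp b hP
  obtain ⟨n, rfl⟩ : ∃ n', n = n' + 1 := ⟨n - 1, by omega⟩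
  obtain ⟨e, rfl⟩ : ∃ e', e = e' + 1 := ⟨e - 1, by omega⟩
  have hsF := (hmem s).1 s.2
  have hxm := (hmem x).1 x.2
  have hwF := (hmem w).1 w.2
  -- the multiplier
  have hzk : ∀ k, (s : T.F) ^ T.NE * (T.ϖF⁻¹ * (x : T.F) ^ (e + 1)) ∈ (T.C k).O := by
    intro k
    by_cases hk : k = b
    · subst hk
      exact mul_mem (pow_mem (hsF.2 k) _) hz
    · rw [← mul_assoc]
      exact mul_mem (T.nil_one k (hsF.2 k) (hsk k hk)) (pow_mem (hxm.2 k) _)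
  have hσ : ((s : T.F) ^ T.NE * (T.ϖF⁻¹ * (x : T.F) ^ (e + 1))) ^ (n + 1) * w ∈ icr S.A₀ t :=
    (hmem _).2 ⟨mul_mem (pow_mem (mul_mem (pow_mem hsF.1 _) (mul_mem (T.ϖ_inv_icr _)
      (pow_mem hxm.1 _))) _) hwF.1, fun k => mul_mem (pow_mem (hzk k) _) (hwF.2 k)⟩
  have hσm : (⟨_, hσ⟩ : icr S.A₀ t) ∉ 𝔪 := by
    intro h
    have h1 : (⟨_, hσ⟩ : icr S.A₀ t) - s ^ (T.NE * (n + 1)) * y ∈ hB.P b := by
      rw [hB.mem_P]
      change (T.C b).r (((s : T.F) ^ T.NE * (T.ϖF⁻¹ * (x : T.F) ^ (e + 1))) ^ (n + 1) * w -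
        (s : T.F) ^ (T.NE * (n + 1)) * y) = 0
      have hyF := (hmem y).1 y.2
      have h2 := hsF.2 b
      rw [Res.r_sub (mul_mem (pow_mem (hzk b) _) (hwF.2 b))
        (mul_mem (pow_mem h2 _) (hyF.2 b)), Res.r_mul (pow_mem (hzk b) _) (hwF.2 b),
        Res.r_pow (hzk b), Res.r_mul (pow_mem h2 _) hz, Res.r_pow h2,
        Res.r_mul (pow_mem h2 _) (hyF.2 b), Res.r_pow h2, ← hr, mul_pow, ← pow_mul]
      ring
    have h2 := 𝔪.sub_mem h (hb h1)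
    rw [sub_sub_cancel] at h2
    rcases hp.mem_or_mem h2 with h3 | h3
    · exact hsm (hp.mem_of_pow_mem _ h3)
    · exact hy h3
  refine ⟨fun h => hx0 (congrArg Subtype.val h), hB.mem_P.2 hx, fun β hβ => ⟨_, hσm, ?_⟩⟩
  have hβ' := hB.mem_P.1 hβ
  have hβF := (hmem β).1 β.2
  have e1 : ((s : T.F) ^ T.NE * (T.ϖF⁻¹ * (x : T.F) ^ (e + 1))) ^ (n + 1) * w * β * (x : T.F)⁻¹ =
      ((s : T.F) ^ T.NE * (T.ϖF⁻¹ * (x : T.F) ^ (e + 1))) ^ n *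
        ((s : T.F) ^ T.NE * T.ϖF⁻¹ * (x : T.F) ^ e) * w * β := by
    have h1 : ((s : T.F) ^ T.NE * (T.ϖF⁻¹ * (x : T.F) ^ (e + 1))) ^ (n + 1) * w * β * (x : T.F)⁻¹ =
      ((s : T.F) ^ T.NE * (T.ϖF⁻¹ * (x : T.F) ^ (e + 1))) ^ n *
        ((s : T.F) ^ T.NE * T.ϖF⁻¹ * (x : T.F) ^ e) * w * β * ((x : T.F) * (x : T.F)⁻¹) := by
      rw [pow_succ _ n, pow_succ _ e]
      ring
    rw [h1, mul_inv_cancel₀ hx0, mul_one]
  have key : ((s : T.F) ^ T.NE * (T.ϖF⁻¹ * (x : T.F) ^ (e + 1))) ^ (n + 1) * w * β *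
      (x : T.F)⁻¹ ∈ icr S.A₀ t := by
    refine (hmem _).2 ⟨?_, fun k => ?_⟩
    · rw [e1]
      exact mul_mem (mul_mem (mul_mem (pow_mem (mul_mem (pow_mem hsF.1 _)
        (mul_mem (T.ϖ_inv_icr _) (pow_mem hxm.1 _))) _) (mul_mem (mul_mem (pow_mem hsF.1 _)
          (T.ϖ_inv_icr _)) (pow_mem hxm.1 _))) hwF.1) hβF.1
    · by_cases hk : k = b
      · subst hk
        rw [mul_assoc]
        refine mul_mem ((hmem _).1 hσ |>.2 k) ?_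
        have h1 : (β : T.F) * (x : T.F)⁻¹ = ((T.xF k)⁻¹ * β) * ((x : T.F)⁻¹ * T.xF k) := by
          have := T.xF_ne k
          field_simp
        rw [h1]
        exact mul_mem (C_div (hβF.2 k) hβ') hxF
      · rw [e1]
        exact mul_mem (mul_mem (mul_mem (pow_mem (hzk k) _)
          (mul_mem (T.nil_one k (hsF.2 k) (hsk k hk)) (pow_mem (hxm.2 k) _))) (hwF.2 k)) (hβF.2 k)
  refine ⟨⟨_, key⟩, Subtype.ext ?_⟩
  change ((s : T.F) ^ T.NE * (T.ϖF⁻¹ * (x : T.F) ^ (e + 1))) ^ (n + 1) * w * β =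
    ((s : T.F) ^ T.NE * (T.ϖF⁻¹ * (x : T.F) ^ (e + 1))) ^ (n + 1) * w * β *
      (x : T.F)⁻¹ * x
  rw [inv_mul_cancel_right₀ hx0]

/-- away from the other components `q` generates the primes of the reduced components -/
theorem locGen_ϖ {t : T.F} {R : Subring S.𝓕}
    (hB : Chart (icr S.A₀ t) T.C R (algebraMap S.A₀ T.F ((q : ℕ) : S.A₀)))
    (hmem : ∀ x : T.F, x ∈ icr S.A₀ t ↔ x ∈ icr k₀ t ∧ ∀ i, x ∈ (T.C i).O)
    {𝔪 : Ideal (icr S.A₀ t)} (h𝔪 : 𝔪.IsMaximal) (b : Fin (a + 1)) (hb0 : mm a b = 0)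
    (hb : hB.P b ≤ 𝔪) (hP : ∀ k, k ≠ b → ¬ hB.P k ≤ 𝔪) : hB.LocGen 𝔪 b ⟨_, hB.ϖ_mem⟩ := by
  have hϖ : algebraMap S.A₀ T.F ((q : ℕ) : S.A₀) = T.ϖF := T.algebraMap_ϖ
  have h1 : T.ϖF⁻¹ * algebraMap S.A₀ T.F ((q : ℕ) : S.A₀) ^ 1 = 1 := by
    rw [pow_one, hϖ, inv_mul_cancel₀ T.ϖ_ne]
  refine T.locGen_of hB hmem h𝔪 b hb hP (x := ⟨_, hB.ϖ_mem⟩) (w := 1) (y := 1) (n := 1) (e := 1)
    hB.ϖ_ne (hB.r_ϖ b) one_pos one_pos ?_ ?_ h𝔪.isPrime.one_notMem ?_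
  · change T.ϖF⁻¹ * algebraMap S.A₀ T.F ((q : ℕ) : S.A₀) ^ 1 ∈ _
    rw [h1]
    exact one_mem _
  · change (algebraMap S.A₀ T.F ((q : ℕ) : S.A₀))⁻¹ * T.xF b ∈ _
    rw [hϖ, xF, if_pos hb0, inv_mul_cancel₀ T.ϖ_ne]
    exact one_mem _
  · change (T.C b).r (T.ϖF⁻¹ * algebraMap S.A₀ T.F ((q : ℕ) : S.A₀) ^ 1) ^ 1 * (T.C b).r 1 =
      (T.C b).r 1
    rw [h1, pow_one, Res.r_one, mul_one]

/-- comparison with the uniformizer -/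
theorem inv_xF_mem {b : Fin (a + 1)} {x : T.F} {y : LaurentSeries κ} (hy : y ≠ 0)
    (h : (T.P b).R (T.ϖF⁻¹ * x ^ eA q a b) y) : x⁻¹ * T.xF b ∈ (T.C b).O := by
  apply mem_of_pow_mem (T.eA_pos b)
  obtain ⟨y', -, hy'⟩ := T.xF_e' b
  have h2 : (x⁻¹ * T.xF b) ^ eA q a b = (T.ϖF⁻¹ * T.xF b ^ eA q a b) *
      (T.ϖF⁻¹ * x ^ eA q a b)⁻¹ := by
    have := T.ϖ_ne
    rw [mul_pow, mul_inv, inv_inv, inv_pow]
    field_simp
  rw [h2]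
  exact mul_mem (mem_C.2 ⟨_, hy'⟩) (mem_C.2 (inv_mem_of_R _ h hy))

theorem xx_B0 (b : Fin (a + 1)) {f : FF k₀ M'} {g : LaurentSeries κ}
    (hf : f ∈ icr k₀ (je k₀ M')) (hfg : S.RM f g) : T.xx b f ∈ T.B0 :=
  sub_mem (exM_B0 _ _ hf hfg) (exM_B0 _ _ hf hfg)

theorem map_rho_prime {B : Subring T.F} {R : Subring S.𝓕} {ϖ : T.F} (hB : Chart B T.C R ϖ)
    {𝔪 : Ideal B} (h𝔪 : 𝔪.IsMaximal) {b : Fin (a + 1)} (hb : hB.P b ≤ 𝔪) :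
    (𝔪.map (hB.rho b)).IsPrime := by
  haveI := h𝔪
  have hmax : (𝔪.map (hB.rho b)).IsMaximal :=
    (Ideal.map_eq_top_or_isMaximal_of_surjective _ (hB.rho_surjective b) h𝔪).resolve_left
      (hB.map_rho_ne_top hb)
  exact hmax.isPrime

/-- local generators at the points of one component -/
theorem gen_single (hpar : S.HasParam) {𝔪 : Ideal T.B0} (h𝔪 : 𝔪.IsMaximal) (b : Fin (a + 1))
    (hb : T.chart0.P b ≤ 𝔪) (hP : ∀ k, k ≠ b → ¬ T.chart0.P k ≤ 𝔪) :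
    ∃ x, T.chart0.LocGen 𝔪 b x := by
  haveI := h𝔪
  by_cases hb0 : mm a b = 0
  · exact ⟨_, T.locGen_ϖ T.chart0 (fun x => T.mem_B0) h𝔪 b hb0 hb hP⟩
  have hprime := T.map_rho_prime T.chart0 h𝔪 hb
  obtain ⟨f, g, hf, hg, hfg, hθ, ψ, hψ, hψ𝔫⟩ := exists_param hpar (ee a b (b - mm a b))
    (T.chart0.map_rho_ne_top hb)
  have hz := T.R_xx_pow b hb0 hfg
  have hy0 : algebraMap κ (LaurentSeries κ) (T.cE b) * (qExpand κ (q ^ ee a b (b - mm a b))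
      (thetaFun (g : LaurentSeries κ))) ^ eA q a b ≠ 0 :=
    mul_ne_zero (algC_ne (T.cE_ne b)) (pow_ne_zero _ (qExp_ne _ hθ))
  -- the element `w`
  obtain ⟨w, hw, hwr⟩ := T.surj0 b (frR S (ee a b (b - mm a b)) (S.dR * S.dR) ^
    q ^ (mm a b - 1)) (pow_mem (frR_R0 _ (mul_mem (dR_R0 S) (dR_R0 S))) _)
  -- the element `y`
  have hc : ∀ c : κ, algebraMap κ S.𝓕 c ∈ S.R0 := fun c => const_mem_icr _ c
  obtain ⟨y, hy⟩ := T.chart0.rho_surjective b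
    ((⟨_, hc (T.cE b)⟩ : S.R0) ^ 12 * ψ ^ q ^ (mm a b - 1))
  have hym : y ∉ 𝔪 := by
    intro h
    have h1 := Ideal.mem_map_of_mem (T.chart0.rho b) h
    rw [hy] at h1
    rcases hprime.mem_or_mem h1 with h2 | h2
    · have h3 := hprime.mem_of_pow_mem _ h2
      apply hprime.ne_top
      rw [Ideal.eq_top_iff_one]
      have h4 : (1 : S.R0) = (⟨_, hc (T.cE b)⁻¹⟩ : S.R0) * ⟨_, hc (T.cE b)⟩ := by
        apply Subtype.ext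
        change (1 : S.𝓕) = algebraMap κ S.𝓕 (T.cE b)⁻¹ * algebraMap κ S.𝓕 (T.cE b)
        rw [← map_mul, inv_mul_cancel₀ (T.cE_ne b), map_one]
      rw [h4]
      exact Ideal.mul_mem_left _ _ h3
    · exact hψ𝔫 (hprime.mem_of_pow_mem _ h2)
  refine ⟨⟨T.xx b f, T.xx_B0 b hf hfg⟩, T.locGen_of T.chart0 (fun x => T.mem_B0) h𝔪 b hb hP
    (w := ⟨w, hw⟩) (y := y) (n := 12) (e := eA q a b) (T.xx_ne hb0 hfg hθ)
    (C_r (z := 0) (T.R_xx_zero b hb0 hfg)) (by norm_num) (T.eA_pos b) (mem_C.2 ⟨_, hz⟩)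
    (T.inv_xF_mem hy0 hz) hym ?_⟩
  change (T.C b).r (T.ϖF⁻¹ * T.xx b f ^ eA q a b) ^ 12 * (T.C b).r w = (T.C b).r (y : T.F)
  have h5 : (T.C b).r (y : T.F) = ((⟨_, hc (T.cE b)⟩ : S.R0) ^ 12 * ψ ^ q ^ (mm a b - 1) : S.R0) := by
    rw [← hy, T.chart0.rho_apply]
  rw [h5, hwr]
  apply Subtype.ext
  change (((T.C b).r (T.ϖF⁻¹ * T.xx b f ^ eA q a b) : S.𝓕) : LaurentSeries κ) ^ 12 *
    ((frR S (ee a b (b - mm a b)) (S.dR * S.dR) : S.𝓕) : LaurentSeries κ) ^ q ^ (mm a b - 1) =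
    (algebraMap κ (LaurentSeries κ) (T.cE b)) ^ 12 *
      ((ψ : S.𝓕) : LaurentSeries κ) ^ q ^ (mm a b - 1)
  rw [C_coe hz, hψ, coe_frR, eA, if_neg hb0]
  change _ * qExpand κ (q ^ ee a b (b - mm a b)) (S.dκ * S.dκ) ^ q ^ (mm a b - 1) = _
  rw [map_mul _ (thetaFun (g : LaurentSeries κ) ^ (12 * (q - 1))), map_pow]
  ring

section Top

variable {f : FF k₀ M'} {g : FF κ M'} (hfg : S.RM f (g : LaurentSeries κ))

theorem ty_top {c : Fin (a + 1)} (hc : (c : ℕ) ≠ a - 1) (h : ty c (a - 2) = 1) : 2 ≤ a → False := by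
  intro ha
  rw [ty] at h
  split_ifs at h with h1 h2
  · exact absurd h (by decide)
  · omega
  · exact absurd h (by decide)

include hfg in
theorem nu_div_icr (hx0 : S.xx f ≠ 0) (hf : f ∈ icr k₀ (je k₀ M')) :
    S.nu f * (S.xx f)⁻¹ ∈ icr k₀ S.j1 := by
  have hq1 : 0 < q - 1 := by have := S.hq.two_le; omega
  obtain ⟨n, hn⟩ : ∃ n, 12 * (q - 1) = n + 1 := ⟨12 * (q - 1) - 1, by omega⟩
  rw [Sit.nu_eq0, hn, pow_succ]
  have e : S.xx f ^ n * S.xx f * (S.δ1 * ((algebraMap k₀ S.F S.ϖ)⁻¹ ^ 12 * S.δ2)) *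
      (S.xx f)⁻¹ = S.xx f ^ n * (S.δ1 * ((algebraMap k₀ S.F S.ϖ)⁻¹ ^ 12 * S.δ2)) := by
    field_simp
  rw [e]
  exact mul_mem (pow_mem (Sit.xx_icr hf) _) (mul_mem S.δ1_icr
    (mul_mem (pow_mem (S.ϖ_inv_icr _) _) S.δ2_icr))

include hfg in
theorem nu_div_mem (hx0 : S.xx f ≠ 0) {i : Fin 3} (hi : i ≠ 1) :
    S.nu f * (S.xx f)⁻¹ ∈ (S.P i).O := by
  rw [← Sit.mem_C]
  have hq1 : 0 < q - 1 := by have := S.hq.two_le; omega
  obtain ⟨n, hn⟩ : ∃ n, 12 * (q - 1) = n + 1 := ⟨12 * (q - 1) - 1, by omega⟩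
  fin_cases i
  · change S.nu f * (S.xx f)⁻¹ ∈ (S.C 0).O
    rw [Sit.nu_eq0, hn, pow_succ]
    have e : S.xx f ^ n * S.xx f * (S.δ1 * ((algebraMap k₀ S.F S.ϖ)⁻¹ ^ 12 * S.δ2)) *
        (S.xx f)⁻¹ = S.xx f ^ n * (S.δ1 * ((algebraMap k₀ S.F S.ϖ)⁻¹ ^ 12 * S.δ2)) := by
      field_simp
    rw [e]
    exact mul_mem (pow_mem (Sit.xx_mem hfg 0) _) (mul_mem (S.δ1_memC 0)
      (Sit.mem_C.2 ⟨_, S.R0_δ2⟩))
  · exact absurd rfl hi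
  · change S.nu f * (S.xx f)⁻¹ ∈ (S.C 2).O
    rw [Sit.nu_eq2, hn, pow_succ]
    have e : S.xx f ^ n * S.xx f * (S.δ2 * ((algebraMap k₀ S.F S.ϖ)⁻¹ ^ 12 * S.δ1)) *
        (S.xx f)⁻¹ = S.xx f ^ n * (S.δ2 * ((algebraMap k₀ S.F S.ϖ)⁻¹ ^ 12 * S.δ1)) := by
      field_simp
    rw [e]
    exact mul_mem (pow_mem (Sit.xx_mem hfg 2) _) (mul_mem (S.δ2_memC 2)
      (Sit.mem_C.2 ⟨_, S.R2_δ1⟩))

end Top

include T in
theorem two_le : a - 2 + 2 ≤ a := by have := T.ha; omega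

/-- the component `a - 1` -/
abbrev bt (_ : SitA S a) : Fin (a + 1) := ⟨a - 1, by omega⟩

theorem ty_bt : ty (T.bt : ℕ) (a - 2) = 1 := by
  have := T.ha
  rw [ty, if_neg (by simp only; omega), if_pos (by simp only; omega)]

theorem eA_bt : eA q a (T.bt : ℕ) = q - 1 := by
  have := T.ha
  have h : mm a (T.bt : ℕ) = 1 := by simp only [mm]; omega
  rw [eA, if_neg (by omega), h, Nat.sub_self, pow_zero, one_mul]

/-- local generators at the points of all components -/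
theorem gen_all (hpar : S.HasParam) {𝔪 : Ideal T.B0} (h𝔪 : 𝔪.IsMaximal)
    (hall : T.chart0.P T.bt ≤ 𝔪) : ∃ x, T.chart0.LocGen 𝔪 T.bt x := by
  haveI := h𝔪
  have ha := T.ha
  have hk : a - 2 + 2 ≤ a := T.two_le
  obtain ⟨f, g, hf, hg, hfg, hθ, ψ, hψ, hψ𝔫⟩ := exists_param hpar (nn a (T.bt : ℕ) (a - 2))
    (T.chart0.map_rho_ne_top hall)
  have hS0 : S.xx f ≠ 0 := Sit.xx_ne hfg hθ
  have hx0 : T.δ (a - 2) hk (S.xx f) ≠ 0 := (_root_.map_ne_zero _).2 hS0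
  have hR : ∀ {x : S.F} {y : LaurentSeries κ}, (S.P 1).R x y →
      (T.P T.bt).R (T.δ (a - 2) hk x) (qExpand κ (q ^ nn a (T.bt : ℕ) (a - 2)) y) := by
    intro x y h
    refine T.R_δ T.bt (a - 2) hk ?_
    rw [ty_bt]
    exact h
  have hRx : (T.P T.bt).R (T.δ (a - 2) hk (S.xx f)) 0 := by
    have h := hR (Sit.R1_xx hfg)
    rwa [map_zero] at h
  have hRz : (T.P T.bt).R (T.ϖF⁻¹ * T.δ (a - 2) hk (S.xx f) ^ eA q a (T.bt : ℕ))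
      (qExpand κ (q ^ nn a (T.bt : ℕ) (a - 2)) (-(thetaFun (g : LaurentSeries κ)) ^ (q - 1))) := by
    have h := hR (Sit.R1_xx_pow hfg)
    rw [map_mul, map_inv₀, T.δ_const, map_pow] at h
    rw [T.eA_bt]
    exact h
  have hRν := hR (Sit.R1_nu hfg)
  have hνB : T.δ (a - 2) hk (S.nu f) ∈ T.B0 := T.δ_B0 _ _ (Sit.nu_B0 hfg hf)
  have hνm : (⟨_, hνB⟩ : T.B0) ∉ 𝔪 := by
    intro h
    apply hψ𝔫
    have h1 := Ideal.mem_map_of_mem (T.chart0.rho T.bt) h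
    have h2 : T.chart0.rho T.bt ⟨_, hνB⟩ = ψ := by
      apply Subtype.ext
      apply Subtype.ext
      rw [T.chart0.rho_apply, hψ]
      exact C_coe hRν
    rwa [h2] at h1
  refine ⟨⟨_, T.δ_B0 _ _ (Sit.xx_B0 hfg hf)⟩, fun h => hx0 (congrArg Subtype.val h),
    (T.chart0.mem_P).2 (C_r (z := 0) hRx), fun β hβ => ⟨_, hνm, ?_⟩⟩
  have hβ' := (T.chart0.mem_P).1 hβ
  have hβF := T.mem_B0.1 β.2
  have e1 : T.δ (a - 2) hk (S.nu f) * β * (T.δ (a - 2) hk (S.xx f))⁻¹ =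
      T.δ (a - 2) hk (S.nu f * (S.xx f)⁻¹) * β := by
    rw [map_mul, map_inv₀]
    ring
  have key : T.δ (a - 2) hk (S.nu f) * β * (T.δ (a - 2) hk (S.xx f))⁻¹ ∈ T.B0 := by
    refine T.mem_B0.2 ⟨?_, fun k => ?_⟩
    · rw [e1]
      exact mul_mem (T.δ_B0' _ _ (nu_div_icr hfg hS0 hf)) hβF.1
    · by_cases hkb : k = T.bt
      · subst hkb
        rw [mul_assoc]
        refine mul_mem ((T.mem_B0.1 hνB).2 _) ?_
        have h1 : (β : T.F) * (T.δ (a - 2) hk (S.xx f))⁻¹ = ((T.xF T.bt)⁻¹ * β) *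
            ((T.δ (a - 2) hk (S.xx f))⁻¹ * T.xF T.bt) := by
          have := T.xF_ne T.bt
          field_simp
        rw [h1]
        refine mul_mem (C_div (hβF.2 _) hβ') (T.inv_xF_mem ?_ hRz)
        exact qExp_ne _ (neg_ne_zero.2 (pow_ne_zero _ hθ))
      · rw [e1]
        refine mul_mem (mem_C.2 (T.mem_δ k _ hk (nu_div_mem hfg hS0 fun h => ?_))) (hβF.2 k)
        exact ty_top (fun h' => hkb (Fin.ext h')) h (by omega)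
  refine ⟨⟨_, key⟩, Subtype.ext ?_⟩
  change T.δ (a - 2) hk (S.nu f) * β = T.δ (a - 2) hk (S.nu f) * β *
    (T.δ (a - 2) hk (S.xx f))⁻¹ * T.δ (a - 2) hk (S.xx f)
  rw [inv_mul_cancel_right₀ hx0]

/-- **Local generators on the first chart.** -/
theorem gen0 (hpar : S.HasParam)
    (hall : ∀ 𝔪 : Ideal T.B0, 𝔪.IsMaximal →
      (⟨algebraMap S.A₀ T.F ((q : ℕ) : S.A₀), T.chart0.ϖ_mem⟩ : T.B0) ∈ 𝔪 →
      ∀ i j, i ≠ j → T.chart0.P i ≤ 𝔪 → T.chart0.P j ≤ 𝔪 → ∀ k, T.chart0.P k ≤ 𝔪)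
    (𝔪 : Ideal T.B0) (h𝔪 : 𝔪.IsMaximal)
    (hϖ : (⟨algebraMap S.A₀ T.F ((q : ℕ) : S.A₀), T.chart0.ϖ_mem⟩ : T.B0) ∈ 𝔪) :
    ∃ i x, T.chart0.P i ≤ 𝔪 ∧ T.chart0.LocGen 𝔪 i x := by
  have hp := h𝔪.isPrime
  obtain ⟨b, hb⟩ := T.chart0.exists_P_le hp hϖ
  by_cases h : ∀ k, k ≠ b → ¬ T.chart0.P k ≤ 𝔪
  · obtain ⟨x, hx⟩ := T.gen_single hpar h𝔪 b hb h
    exact ⟨b, x, hb, hx⟩
  · push Not at h
    obtain ⟨k, hkb, hk⟩ := h
    have h1 := hall 𝔪 h𝔪 hϖ k b hkb hk hb T.bt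
    obtain ⟨x, hx⟩ := T.gen_all hpar h𝔪 h1
    exact ⟨_, x, h1, hx⟩

end SitA

end Fermat.Agent.CarG
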