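import Fermat.Agent.CarG.Set1A
import Fermat.Agent.Carayol.Gen1
import Fermat.Agent.CarG.Gen0A

/-!
# The parameters at the cusps
-/

set_option autoImplicit false
set_option linter.unusedSectionVars false
set_option linter.style.haveILetI false
set_option synthInstance.maxHeartbeats 400000

noncomputable section

namespace Fermat.Agent.CarG

open ModularCurve Fermat.Agent.GoodRed Fermat.Agent.ModFun Fermat.Agent.GenusX0
open Fermat.Agent.Models IsLocalRing Polynomial IntermediateField Fermat.Agent.Carayol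
open Fermat.Agent.SSMod AlgebraicCurve Fermat.Agent.Curves

theorem eq_of_pow_eq {Γ : Type*} [LinearOrderedCommGroupWithZero Γ] {x y : Γ} {n : ℕ} (hn : n ≠ 0)
    (h : x ^ n = y ^ n) : x = y := by
  rcases lt_trichotomy x y with h1 | h1 | h1
  · exact absurd h (pow_lt_pow_left₀ h1 zero_le' hn).ne
  · exact h1
  · exact absurd h.symm (pow_lt_pow_left₀ h1 zero_le' hn).ne

namespace SitA

variable {k₀ K κ : Type} [Field k₀] [Field K] [Field κ] [Algebra k₀ K] {q M' : ℕ}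
  [NeZero q] [NeZero M'] {S : Sit k₀ K κ q M'} {a : ℕ} (T : SitA S a)

/-! ### residues -/

theorem qExpand_theta (n : ℕ) : qExpand κ (q ^ n) (thetaFun S.jb) = thetaFun S.jb ^ q ^ n := by
  haveI := S.charP
  haveI : Fact q.Prime := ⟨S.hq⟩
  have h0 : coeffMap (frobenius κ q) (thetaFun S.jb) = thetaFun S.jb := by
    rw [coeffMap_thetaFun, Sit.jb, coeffMap_jqModC]
  induction n with
  | zero =>
    rw [Carayol.qExpand_congr (d' := 1) (pow_zero q), qExpand_one_apply, pow_zero, pow_one]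
  | succ n ih =>
    have h1 : qExpand κ (q ^ (n + 1)) (thetaFun S.jb) =
        qExpand κ q (qExpand κ (q ^ n) (thetaFun S.jb)) := by
      rw [qExpand_qExpand]
      exact Carayol.qExpand_congr (pow_succ' q n) _
    have h2 := Carayol.pow_eq_qExpand (κ := κ) (q := q) (thetaFun S.jb)
    rw [h0] at h2
    rw [h1, ih, map_pow, ← h2, ← pow_mul, ← pow_succ']

/-- the exponent -/
def LL (b : Fin (a + 1)) : ℕ := q ^ (ee a b (b - mm a b) + (mm a b - 1))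

theorem r_xx_pow (b : Fin (a + 1)) (hb : mm a b ≠ 0) :
    T.ϖF⁻¹ * T.xx b (je k₀ M') ^ eA q a b ∈ (T.C b).O ∧
    (T.C b).r (T.ϖF⁻¹ * T.xx b (je k₀ M') ^ eA q a b) =
      algebraMap κ S.𝓕 (T.cE b) * (-S.zR) ^ LL (q := q) (a := a) b := by
  have h := T.R_xx_pow b hb (RM_je (S := S))
  refine ⟨mem_C.2 ⟨_, h⟩, ?_⟩
  apply C_r
  have e : (((algebraMap κ S.𝓕 (T.cE b) * (-S.zR) ^ LL (q := q) (a := a) b : S.𝓕)) :
      LaurentSeries κ) = algebraMap κ _ (T.cE b) *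
        (qExpand κ (q ^ ee a b (b - mm a b)) (thetaFun S.jb)) ^ eA q a b := by
    have e1 : (((algebraMap κ S.𝓕 (T.cE b) * (-S.zR) ^ LL (q := q) (a := a) b : S.𝓕)) :
      LaurentSeries κ) = algebraMap κ _ (T.cE b) *
        (-(S.zR : LaurentSeries κ)) ^ LL (q := q) (a := a) b := rfl
    rw [e1, S.coe_zR, neg_neg, qExpand_theta, eA, if_neg hb, LL, ← pow_mul, ← pow_mul, pow_add]
    congr 2
    ring
  rw [e]
  exact h

/-! ### valuations at the cusps -/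

theorem r_st_one (b : Fin (a + 1)) (k : ℕ) (hk : k ≤ a) (hkb : (b : ℕ) ≤ k) :
    T.st k hk ∈ (T.C b).O ∧ (T.C b).r (T.st k hk) = 1 := by
  have h1 := T.jji_memC b a le_rfl
  have h2 := T.jj_memC b k hk
  refine ⟨mul_mem (pow_mem h1 _) h2, ?_⟩
  have hb : (b : ℕ) ≤ a := Nat.lt_succ_iff.1 b.2
  have he : ee a b k = ee a b a + (a - k) := by
    rw [ee, ee]
    split_ifs <;> omega
  rw [st, Res.r_mul (pow_mem h1 _) h2, Res.r_pow h1, Res.r_inv (T.r_jj_ne b a _), T.C_r_jj,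
    T.C_r_jj, inv_pow, ← pow_mul, ← pow_add, ← he]
  exact inv_mul_cancel₀ (pow_ne_zero _ S.jR_ne)

section Dom

variable {T} {V : ValuationSubring T.F} {𝔪 : Ideal T.B1}

theorem dom_val (hV : Dom V 𝔪) {s : T.B1} (hs : s ∉ 𝔪) : V.valuation (s : T.F) = 1 := by
  have h1 := (V.valuation_le_one_iff _).2 (hV.le s)
  have h2 := (V.valuation_le_one_iff _).2 (hV.inv s hs)
  have h3 : V.valuation (s : T.F) * V.valuation (s : T.F)⁻¹ = 1 := by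
    rw [← map_mul, mul_inv_cancel₀ (hV.ne_zero hs), map_one]
  refine le_antisymm h1 ?_
  by_contra hcon
  push Not at hcon
  have := mul_lt_one_of_lt_of_le hcon h2
  exact absurd h3 this.ne

theorem dom_one (hV : Dom V 𝔪) {x : T.F} {s : T.B1} (hs : s ∉ 𝔪)
    (hx : V.valuation ((s : T.F) * x - s) < 1) : V.valuation x = 1 := by
  have h1 : V.valuation (s : T.F) = 1 := dom_val hV hs
  have h2 : (s : T.F) * x - s = s * (x - 1) := by ring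
  rw [h2, map_mul, h1, one_mul] at hx
  have h3 : x = 1 + (x - 1) := by ring
  rw [h3]
  have h4 : V.valuation (1 : T.F) = 1 := map_one _
  rw [Valuation.map_add_eq_of_lt_left (v := V.valuation) (by rw [h4]; exact hx), h4]

theorem val_ss {b : Fin (a + 1)} (hb : T.two.c1.P b ≤ 𝔪) (hV : Dom V 𝔪) (hp : 𝔪.IsPrime) (k : ℕ)
    (hk : k ≤ a) (hkb : k ≤ b) : V.valuation (T.jj k hk) = V.valuation T.j0 ^ q ^ k := by
  have h1 := hV.lt _ (T.ss_one hb k hk hkb)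
  have h2 : V.valuation (T.ss k hk) = 1 := by
    refine dom_one hV (s := 1) hp.one_notMem ?_
    push_cast
    rw [one_mul]
    exact h1
  have h3 : V.valuation T.j0 ≠ 0 := (V.valuation.ne_zero_iff).2 (T.jj_ne 0 _)
  rw [ss, map_mul, map_pow, map_inv₀, inv_pow] at h2
  rw [eq_comm]
  exact (inv_mul_eq_one₀ (pow_ne_zero _ h3)).1 h2

theorem val_st {b : Fin (a + 1)} (hb : T.two.c1.P b ≤ 𝔪) (hV : Dom V 𝔪) (hp : 𝔪.IsPrime)
    (ht : (⟨T.j0⁻¹, T.j0i_mem⟩ : T.B1) ∈ 𝔪) (k : ℕ)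
    (hk : k ≤ a) (hkb : (b : ℕ) ≤ k) :
    V.valuation (T.jj k hk) = V.valuation (T.jj a le_rfl) ^ q ^ (a - k) := by
  obtain ⟨s, hs, hsx⟩ := T.exists_den1 hp ht (x := T.st k hk) fun V _ hV => hV.st k hk
  have h1 : (⟨_, hsx⟩ : T.B1) - s ∈ 𝔪 := by
    apply hb
    rw [T.two.c1.mem_P]
    push_cast
    have h2 := (T.mem_B1.1 s.2).2 b
    have h3 := T.r_st_one b k hk hkb
    rw [Res.r_sub (mul_mem h2 h3.1) h2, Res.r_mul h2 h3.1, h3.2, mul_one, sub_self]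
  have h2 := hV.lt _ h1
  push_cast at h2
  have h4 := dom_one hV hs h2
  have h3 : V.valuation (T.jj a le_rfl) ≠ 0 := (V.valuation.ne_zero_iff).2 (T.jj_ne a _)
  rw [st, map_mul, map_pow, map_inv₀, inv_pow] at h4
  rw [eq_comm]
  exact (inv_mul_eq_one₀ (pow_ne_zero _ h3)).1 h4

theorem mm_le (b : Fin (a + 1)) : (b : ℕ) + mm a b ≤ a := by
  have h1 : mm a b ≤ a - b := min_le_right _ _
  have h2 := Nat.lt_succ_iff.1 b.2
  omega

theorem mm_le' (b : Fin (a + 1)) : mm a b ≤ b := min_le_left _ _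

theorem sub_le_a (b : Fin (a + 1)) : (b : ℕ) - mm a b ≤ a :=
  (Nat.sub_le _ _).trans (Nat.lt_succ_iff.1 b.2)

theorem val_eq {b : Fin (a + 1)} (hb : T.two.c1.P b ≤ 𝔪) (hV : Dom V 𝔪) (hp : 𝔪.IsPrime)
    (ht : (⟨T.j0⁻¹, T.j0i_mem⟩ : T.B1) ∈ 𝔪) :
    V.valuation (T.jj (b - mm a b) (sub_le_a b)) = V.valuation (T.jj (b + mm a b) (mm_le b)) := by
  have hb' : (b : ℕ) ≤ a := Nat.lt_succ_iff.1 b.2
  have h1 := mm_le b
  have h2 := mm_le' b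
  apply eq_of_pow_eq (n := q ^ mm a b) (pow_ne_zero _ (NeZero.ne q))
  rw [val_ss hb hV hp _ _ (Nat.sub_le _ _), val_st hb hV hp ht _ _ (Nat.le_add_right _ _),
    ← pow_mul, ← pow_mul, ← pow_add, ← pow_add, Nat.sub_add_cancel h2]
  have h3 : a - (b + mm a b) + mm a b = a - b := by omega
  rw [h3, ← val_ss hb hV hp b hb' le_rfl, val_st hb hV hp ht b hb' le_rfl]

end Dom

/-! ### the parameter -/

/-- the parameter without denominators -/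
def xc (b : Fin (a + 1)) : T.F :=
  1 - T.jj (b + mm a b) (mm_le b) * (T.jj (b - mm a b) (sub_le_a b))⁻¹

theorem xc_eq (b : Fin (a + 1)) :
    T.xc b = (T.jj (b - mm a b) (sub_le_a b))⁻¹ * T.xx b (je k₀ M') := by
  have h := T.jj_ne (b - mm a b) (sub_le_a b)
  have e : T.xx b (je k₀ M') = T.jj (b - mm a b) (sub_le_a b) - T.jj (b + mm a b) (mm_le b) := rfl
  rw [xc, e]
  field_simp

theorem exists_xc {𝔪 : Ideal T.B1} (hp : 𝔪.IsPrime) (ht : (⟨T.j0⁻¹, T.j0i_mem⟩ : T.B1) ∈ 𝔪)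
    {b : Fin (a + 1)} (hb : T.two.c1.P b ≤ 𝔪) : ∃ s : T.B1, s ∉ 𝔪 ∧ (s : T.F) * T.xc b ∈ T.B1 := by
  refine T.exists_den1 hp ht fun V hV _ => ?_
  refine sub_mem (one_mem _) ?_
  rw [← V.valuation_le_one_iff, map_mul, map_inv₀, val_eq hb hV hp ht,
    mul_inv_cancel₀ ((V.valuation.ne_zero_iff).2 (T.jj_ne _ _))]

theorem r_1728 (b : Fin (a + 1)) : (T.C b).r (1 - 1728 * T.j0⁻¹) =
    (1 - 1728 * S.jR⁻¹) ^ q ^ ee a b 0 := by
  haveI := S.charP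
  haveI : Fact q.Prime := ⟨S.hq⟩
  haveI : CharP S.𝓕 q := charP_of_injective_algebraMap (algebraMap κ S.𝓕).injective q
  have h1728 : (1728 : T.F) ∈ (T.C b).O := ofNat_mem _ _
  have hr : (T.C b).r (1728 : T.F) = 1728 := by
    have h := T.C_r_const b (1728 : S.A₀)
    rw [map_ofNat, map_ofNat, map_ofNat] at h
    exact h
  have h2 : (1728 : S.𝓕) ^ q ^ ee a b 0 = 1728 := by
    have h3 : ((1728 : ZMod q) ^ q ^ ee a b 0) = 1728 := ZMod.pow_card_pow _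
    have h4 := congrArg (ZMod.castHom (dvd_refl q) S.𝓕) h3
    rw [map_pow, map_ofNat] at h4
    exact h4
  rw [Res.r_sub (one_mem _) (mul_mem h1728 (T.jji_memC b 0 _)), Res.r_one,
    Res.r_mul h1728 (T.jji_memC b 0 _), hr, r_j0i, sub_pow_char_pow, one_pow, mul_pow, h2, inv_pow]

theorem key_pow {L : Type*} [Field L] {s c z j w u : L} {l n : ℕ}
    (hkey : (j⁻¹ ^ n * z) ^ 6 * (j⁻¹ ^ n * w) = u) :
    (s * (j⁻¹ ^ (l * n) * (c * (-z) ^ l))) ^ 6 * (j⁻¹ ^ n * w) ^ l = s ^ 6 * c ^ 6 * u ^ l := by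
  rw [← hkey]
  have h1 : (-z) ^ l = (-1) ^ l * z ^ l := neg_pow z l
  have h2 : ((-1 : L) ^ l) ^ 6 = 1 := by
    rw [← pow_mul, mul_comm, pow_mul]
    norm_num
  have h3 : j⁻¹ ^ (l * n) = (j⁻¹ ^ n) ^ l := by rw [← pow_mul, mul_comm]
  rw [h1, h3]
  generalize j⁻¹ ^ n = J
  calc (s * (J ^ l * (c * ((-1) ^ l * z ^ l)))) ^ 6 * (J * w) ^ l
      = s ^ 6 * c ^ 6 * ((-1) ^ l) ^ 6 * (((J ^ l) ^ 6 * (z ^ l) ^ 6) *
          (J * w) ^ l) := by ring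
    _ = s ^ 6 * c ^ 6 * (((J ^ l) ^ 6 * (z ^ l) ^ 6) *
          (J * w) ^ l) := by rw [h2, mul_one]
    _ = s ^ 6 * c ^ 6 * ((J * z) ^ 6 * (J * w)) ^ l := by
        rw [mul_pow ((J * z) ^ 6), ← pow_mul J, ← pow_mul z, mul_comm l 6, pow_mul J, pow_mul z,
          ← mul_pow (J ^ 6), ← mul_pow J z]

theorem pow_cong {L : Type*} [Monoid L] (X : L) (A B m : ℕ) :
    (X ^ m) ^ (A * B) = ((X ^ A) ^ m) ^ B := by
  simp only [← pow_mul]
  congr 1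
  ring

theorem const_notMem {𝔪 : Ideal T.B1} (hp : 𝔪.IsPrime)
    (hϖ : (⟨algebraMap S.A₀ T.F ((q : ℕ) : S.A₀), T.two.c1.ϖ_mem⟩ : T.B1) ∈ 𝔪) {c : κ}
    (hc : c ≠ 0) : ∃ d : S.A₀, S.π₀ d = c ∧ (⟨algebraMap S.A₀ T.F d, T.algebraMap_mem_B1 d⟩ : T.B1) ∉ 𝔪 := by
  obtain ⟨d, hd⟩ := S.π₀s c
  obtain ⟨d', hd'⟩ := S.π₀s c⁻¹
  refine ⟨d, hd, fun h => ?_⟩
  have h1 : S.π₀ (d * d' - 1) = 0 := by
    rw [map_sub, map_mul, hd, hd', map_one, mul_inv_cancel₀ hc, sub_self]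
  have h2 := T.res_aux hϖ _ h1
  have h3 := 𝔪.mul_mem_right (⟨algebraMap S.A₀ T.F d', T.algebraMap_mem_B1 d'⟩ : T.B1) h
  have h4 := 𝔪.sub_mem h3 h2
  apply hp.one_notMem
  convert h4 using 1
  apply Subtype.ext
  change (1 : T.F) = algebraMap S.A₀ T.F d * algebraMap S.A₀ T.F d' -
    algebraMap S.A₀ T.F (d * d' - 1)
  rw [map_sub, map_mul, map_one]
  ring

theorem LL_mul (b : Fin (a + 1)) (hb0 : mm a b ≠ 0) :
    eA q a b * q ^ ee a b (b - mm a b) = LL (q := q) (a := a) b * (q - 1) := by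
  rw [eA, if_neg hb0, LL, pow_add]
  ring

theorem ez_eq (b : Fin (a + 1)) (s : T.F) :
    T.ϖF⁻¹ * (s * T.xc b) ^ eA q a b = s ^ eA q a b *
      ((T.jj (b - mm a b) (sub_le_a b))⁻¹ ^ eA q a b *
        (T.ϖF⁻¹ * T.xx b (je k₀ M') ^ eA q a b)) := by
  rw [xc_eq, mul_pow, mul_pow]
  ring

theorem r_z {b : Fin (a + 1)} (hb0 : mm a b ≠ 0) {s : T.F} (hsO : s ∈ (T.C b).O) :
    T.ϖF⁻¹ * (s * T.xc b) ^ eA q a b ∈ (T.C b).O ∧
    (T.C b).r (T.ϖF⁻¹ * (s * T.xc b) ^ eA q a b) =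
      (T.C b).r s ^ eA q a b * (S.jR⁻¹ ^ (LL (q := q) (a := a) b * (q - 1)) *
        (algebraMap κ S.𝓕 (T.cE b) * (-S.zR) ^ LL (q := q) (a := a) b)) := by
  have hji := T.jji_memC b (b - mm a b) (sub_le_a b)
  have hxx := T.r_xx_pow b hb0
  rw [T.ez_eq b s]
  refine ⟨mul_mem (pow_mem hsO _) (mul_mem (pow_mem hji _) hxx.1), ?_⟩
  rw [Res.r_mul (pow_mem hsO _) (mul_mem (pow_mem hji _) hxx.1), Res.r_pow hsO,
      Res.r_mul (pow_mem hji _) hxx.1, Res.r_pow hji, hxx.2, Res.r_inv (T.r_jj_ne b _ _),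
      T.C_r_jj, ← LL_mul b hb0, ← inv_pow, ← pow_mul, mul_comm (q ^ _) (eA q a b)]

theorem r_xc (b : Fin (a + 1)) (hb0 : mm a b ≠ 0) : T.xc b ∈ (T.C b).O ∧ (T.C b).r (T.xc b) = 0 := by
  have hji := T.jji_memC b (b - mm a b) (sub_le_a b)
  have h1 := T.jj_memC b (b + mm a b) (mm_le b)
  have hee : ee a b (b + mm a b) = ee a b (b - mm a b) := by
    have h1 : mm a b ≤ a - b := min_le_right _ _
    have h2 : mm a b ≤ b := min_le_left _ _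
    rw [ee, ee, if_neg (by omega), if_pos (by omega)]
    omega
  have h2 : T.xc b ∈ (T.C b).O := sub_mem (one_mem _) (mul_mem h1 hji)
  refine ⟨h2, ?_⟩
  rw [xc, Res.r_sub (one_mem _) (mul_mem h1 hji), Res.r_one,
    Res.r_mul h1 hji, Res.r_inv (T.r_jj_ne b _ _), T.C_r_jj, T.C_r_jj, hee,
    mul_inv_cancel₀ (pow_ne_zero _ S.jR_ne), sub_self]

theorem cEalg_ne (b : Fin (a + 1)) : algebraMap κ S.𝓕 (T.cE b) ≠ 0 :=
  (_root_.map_ne_zero _).2 (T.cE_ne b)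

theorem r_z_ne {b : Fin (a + 1)} (hb0 : mm a b ≠ 0) {s : T.F} (hsO : s ∈ (T.C b).O)
    (hsr : (T.C b).r s ≠ 0) : (T.C b).r (T.ϖF⁻¹ * (s * T.xc b) ^ eA q a b) ≠ 0 := by
  rw [(T.r_z hb0 hsO).2]
  exact mul_ne_zero (pow_ne_zero _ hsr) (mul_ne_zero
      (pow_ne_zero _ (inv_ne_zero S.jR_ne))
      (mul_ne_zero (T.cEalg_ne b) (pow_ne_zero _ (neg_ne_zero.2 S.zR_ne))))

theorem r_y {b : Fin (a + 1)} (s u : T.B1) (d : S.A₀) (m l : ℕ)
    (hd : S.π₀ d = T.cE b ^ 6) (hu : (u : T.F) = 1 - 1728 * T.j0⁻¹) :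
    (T.C b).r (((s ^ eA q a b) ^ 6 * ⟨algebraMap S.A₀ T.F d, T.algebraMap_mem_B1 d⟩ *
      (u ^ m) ^ l : T.B1) : T.F) = ((T.C b).r (s : T.F) ^ eA q a b) ^ 6 *
      algebraMap κ S.𝓕 (T.cE b) ^ 6 * (((1 - 1728 * S.jR⁻¹) ^ q ^ ee a b 0) ^ m) ^ l := by
  have hsO := (T.mem_B1.1 s.2).2 b
  have huO : (u : T.F) ∈ (T.C b).O := (T.mem_B1.1 u.2).2 b
  have hdO := T.const_C b d
  change (T.C b).r (((s : T.F) ^ eA q a b) ^ 6 * algebraMap S.A₀ T.F d *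
      ((u : T.F) ^ m) ^ l) = _
  rw [Res.r_mul (mul_mem (pow_mem (pow_mem hsO _) _) hdO) (pow_mem (pow_mem huO _) _),
      Res.r_mul (pow_mem (pow_mem hsO _) _) hdO, Res.r_pow (pow_mem hsO _), Res.r_pow hsO,
      T.C_r_const, hd, Res.r_pow (pow_mem huO _), Res.r_pow huO, hu, T.r_1728, map_pow]

/-- **Local generators on the second chart.** -/
theorem gen1 (𝔪 : Ideal T.B1) (h𝔪 : 𝔪.IsMaximal)
    (hϖ : (⟨algebraMap S.A₀ T.F ((q : ℕ) : S.A₀), T.two.c1.ϖ_mem⟩ : T.B1) ∈ 𝔪)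
    (ht : (⟨T.j0⁻¹, T.two.t_mem'⟩ : T.B1) ∈ 𝔪) :
    ∃ i x, T.two.c1.P i ≤ 𝔪 ∧ T.two.c1.LocGen 𝔪 i x := by
  have hp := h𝔪.isPrime
  obtain ⟨b, hb⟩ := T.two.c1.exists_P_le hp hϖ
  have hne : ∀ k, k ≠ b → ¬ T.two.c1.P k ≤ 𝔪 := fun k hk h => hk (T.meet1 𝔪 h𝔪 ht k b h hb)
  by_cases hb0 : mm a b = 0
  · exact ⟨b, _, hb, T.locGen_ϖ T.two.c1 (fun x => T.mem_B1) h𝔪 b hb0 hb hne⟩
  obtain ⟨s, hs, hsx⟩ := T.exists_xc hp ht hb
  have hsO := (T.mem_B1.1 s.2).2 b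
  have hsr : (T.C b).r (s : T.F) ≠ 0 := by
    intro h
    exact hs (hb ((T.two.c1.mem_P).2 h))
  have hz := T.r_z hb0 hsO
  have hrz0 := T.r_z_ne hb0 hsO hsr
  have hx0 : (s : T.F) * T.xc b ≠ 0 := by
    intro h
    rw [h, zero_pow (T.eA_pos b).ne', mul_zero, Res.r_zero] at hrz0
    exact hrz0 rfl
  have hdiv : ((s : T.F) * T.xc b)⁻¹ * T.xF b ∈ (T.C b).O := by
    have h1 := C_spec (mem_C.1 hz.1)
    refine T.inv_xF_mem (y := _) ?_ h1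
    intro h2
    exact hrz0 (Subtype.ext h2)
  have hxr : (T.C b).r ((s : T.F) * T.xc b) = 0 := by
    rw [Res.r_mul hsO (T.r_xc b hb0).1, (T.r_xc b hb0).2, mul_zero]
  -- the elements `w`, `y`
  obtain ⟨w, hw, hwr⟩ := T.surj1 b ((S.jR⁻¹ ^ (q - 1) * S.dR) ^ LL (q := q) (a := a) b)
    (pow_mem S.dR_cusp _)
  obtain ⟨d, hd, hdm⟩ := T.const_notMem hp hϖ (pow_ne_zero 6 (T.cE_ne b))
  obtain ⟨u, hu⟩ : ∃ u : T.B1, u = 1 - 1728 * ⟨T.j0⁻¹, T.two.t_mem'⟩ := ⟨_, rfl⟩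
  have hu' : (u : T.F) = 1 - 1728 * T.j0⁻¹ := by rw [hu]; rfl
  have hum : u ∉ 𝔪 := by
    intro h
    have h1 := 𝔪.add_mem h (𝔪.mul_mem_left 1728 ht)
    rw [hu, sub_add_cancel] at h1
    exact hp.one_notMem h1
  obtain ⟨l, hl⟩ : ∃ l, ee a b (b - mm a b) + (mm a b - 1) = ee a b 0 + l :=
    ⟨ee a b (b - mm a b) + (mm a b - 1) - ee a b 0, by
      have : ee a b 0 ≤ ee a b (b - mm a b) := by
        rw [ee, ee, if_pos (Nat.zero_le _), if_pos (Nat.sub_le _ _)]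
        omega
      omega⟩
  have hym : (s ^ eA q a b) ^ 6 * ⟨algebraMap S.A₀ T.F d, T.algebraMap_mem_B1 d⟩ *
      (u ^ (3 * (q - 1))) ^ q ^ l ∉ 𝔪 := by
    intro h
    rcases hp.mem_or_mem h with h1 | h1
    · rcases hp.mem_or_mem h1 with h2 | h2
      · exact hs (hp.mem_of_pow_mem _ (hp.mem_of_pow_mem _ h2))
      · exact hdm h2
    · exact hum (hp.mem_of_pow_mem _ (hp.mem_of_pow_mem _ h1))
  refine ⟨b, ⟨_, hsx⟩, hb, T.locGen_of T.two.c1 (fun x => T.mem_B1) h𝔪 b hb hne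
    (x := ⟨_, hsx⟩) (w := ⟨w, hw⟩) (n := 6) (e := eA q a b) hx0 hxr (by norm_num)
    (T.eA_pos b) hz.1 hdiv hym ?_⟩
  rw [T.r_y s u d _ _ hd hu']
  change (T.C b).r (T.ϖF⁻¹ * ((s : T.F) * T.xc b) ^ eA q a b) ^ 6 * (T.C b).r w = _
  rw [hz.2, hwr]
  have hk : LL (q := q) (a := a) b = q ^ ee a b 0 * q ^ l := by rw [LL, hl, pow_add]
  rw [key_pow S.zR_key, hk, pow_cong]

end SitA

end Fermat.Agent.CarG
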