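import Fermat.Agent.CarayolX.Main
import Fermat.Agent.CarG.Flat

/-!
# Newforms whose level is divisible by `q³` are not unipotent at `q`
-/

set_option autoImplicit false
set_option linter.style.haveILetI false
set_option maxHeartbeats 1000000
set_option synthInstance.maxHeartbeats 200000

noncomputable section

namespace Fermat.Agent.CarG

open Fermat.Agent.DefRing IsLocalRing Matrix Fermat.Agent.GalRep Fermat.Agent.GalRep.HData
open Fermat.Agent.AnJac Fermat.Agent.HeckeQ Fermat.Agent.SSMod Fermat.Agent.Carayol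
open Fermat.Agent.CarayolX
open Fermat.Agent.Newform (S2 GP Eig chi)
open ModularFormClass (qCoeff)

local notation "Qb" => AlgebraicClosure ℚ
local notation "GQ" => Qb ≃ₐ[ℚ] Qb

/-- **Carayol**: the representation attached to a newform of level divisible by `q³`
is not unipotent at `q`. -/
theorem not_unipotent (HC : CarayolGen) {M : ℕ} [NeZero M]
    {g : CuspForm (CongruenceSubgroup.Gamma0 M) 2} (hg : g.IsNewform)
    {lam : ℕ} [Fact lam.Prime] (S : Finset ℕ)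
    {B : Type} [CommRing B] [IsDomain B] [IsLocalRing B] [CharZero B]
    [IsAdicComplete (maximalIdeal B) B] (hp : (lam : B) ∈ maximalIdeal B)
    (chig : CuspForm.heckeAlgebra M 2 (↑S : Set ℕ) →+* ℂ)
    (hchig : ∀ (ℓ : ℕ) (hℓ : ℓ.Prime) (hℓM : ¬ ℓ ∣ M) (hℓS : ℓ ∉ (↑S : Set ℕ)),
      chig (CuspForm.heckeAlgebra.T hℓ hℓM hℓS) = ModularFormClass.qCoeff g ℓ)
    (iota : chig.range →+* B)
    {T : GQ →* Matrix (Fin 2) (Fin 2) B} (hT : MatCont T)
    (hπ : FrobCond (D := hdata M lam (esHyp M lam)) (S := (↑S : Set ℕ))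
      ((iota.comp chig.rangeRestrict).comp (HData.Phi (↑S : Set ℕ) (hdata_link (esHyp M lam)))) T)
    {q : ℕ} (hq : q.Prime) (hqp : q ≠ lam) (hf : 3 ≤ M.factorization q)
    {A : ValuationSubring Qb} (hA : A.LiesOverPrime q)
    (hu : ∀ σ ∈ A.inertiaSubgroupIn ℚ, (T σ).trace = 2) : False := by
  classical
  have hM0 : M ≠ 0 := NeZero.ne M
  have hlam : lam.Prime := Fact.out
  -- the levels
  obtain ⟨a, ha, M₁, hM₁, hcop₁⟩ : ∃ a, 3 ≤ a ∧ ∃ M₁, M = q ^ a * M₁ ∧ Nat.Coprime q M₁ :=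
    ⟨M.factorization q, hf, M / q ^ M.factorization q,
      (Nat.ordProj_mul_ordCompl_eq_self M q).symm, Nat.coprime_ordCompl hq hM0⟩
  have hM₁0 : M₁ ≠ 0 := by
    rintro rfl
    exact hM0 (by rw [hM₁, mul_zero])
  obtain ⟨d, hd, hd0, hdq⟩ : ∃ d : ℕ, ((q ≠ 2 → d = 4) ∧ (q = 2 → d = 9)) ∧ d ≠ 0 ∧
      Nat.Coprime q d := by
    by_cases h : q = 2
    · exact ⟨9, ⟨fun h' => absurd h h', fun _ => rfl⟩, by norm_num, by rw [h]; decide⟩
    · refine ⟨4, ⟨fun _ => rfl, fun h' => absurd h' h⟩, by norm_num, ?_⟩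
      rw [Nat.Prime.coprime_iff_not_dvd hq]
      intro h4
      have h5 : q ∣ 2 ^ 2 := h4
      exact h ((Nat.prime_dvd_prime_iff_eq hq Nat.prime_two).mp (hq.dvd_of_dvd_pow h5))
  set L : ℕ := q ^ (a - 1) * (d * M₁) with hL
  have hL0 : L ≠ 0 := mul_ne_zero (pow_ne_zero _ hq.ne_zero) (mul_ne_zero hd0 hM₁0)
  haveI : NeZero L := ⟨hL0⟩
  have hML : ¬ M ∣ L := by
    have hqa : q ^ a = q ^ (a - 1) * q := by rw [← pow_succ]; congr 1; omega
    rw [hM₁, hL, hqa, mul_assoc]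
    intro h
    have h1 := Nat.dvd_of_mul_dvd_mul_left (pow_pos hq.pos _) h
    have h2 : q ∣ d * M₁ := (dvd_mul_right q M₁).trans h1
    exact (Nat.Prime.coprime_iff_not_dvd hq).1 (Nat.Coprime.mul_right hdq hcop₁) h2
  -- the relation
  let J : Type := {ℓ : ℕ // ℓ.Prime ∧ ¬ ℓ ∣ M * lam ∧ ¬ ℓ ∣ L * lam ∧ ℓ ∉ (↑S : Set ℕ)}
  let t : J → PrimeT := fun j => ⟨j.1, j.2.1⟩
  have hD0 : (M * lam) * (L * lam) * ∏ s ∈ S.erase 0, s ≠ 0 :=
    mul_ne_zero (mul_ne_zero (mul_ne_zero hM0 hlam.ne_zero) (mul_ne_zero hL0 hlam.ne_zero))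
      (Finset.prod_ne_zero_iff.2 fun s hs => (Finset.mem_erase.1 hs).1)
  obtain ⟨P, hP, hPg⟩ := exists_rel hg hML t hD0 (fun l => by
    refine ⟨⟨l.1, l.2.1, fun h => l.2.2 ?_, fun h => l.2.2 ?_, fun h => l.2.2 ?_⟩, rfl⟩
    · exact (h.mul_right _).mul_right _
    · exact (h.mul_left _).mul_right _
    · exact (Finset.dvd_prod_of_mem _ (Finset.mem_erase.2 ⟨l.2.1.ne_zero, h⟩)).mul_left _)
  -- the data
  set D : HData M lam := hdata M lam (esHyp M lam) with hD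
  let K := FractionRing B
  haveI : CharZero K := IsFractionRing.charZero_of_isFractionRing B
  let ψ : D.TT (↑S : Set ℕ) →+* chig.range :=
    chig.rangeRestrict.comp (HData.Phi (↑S : Set ℕ) (hdata_link (esHyp M lam)))
  have hTm : ∀ j : J, D.T j.1 ∈ D.TT (↑S : Set ℕ) := fun j => T_mem j.2.1 j.2.2.1 j.2.2.2.2
  let hh : D.TT (↑S : Set ℕ) := FreeAlgebra.lift ℤ (fun j : J => (⟨D.T j.1, hTm j⟩ :
    D.TT (↑S : Set ℕ))) P
  have hh1 : (hh : Matrix (Fin D.r) (Fin D.r) ℤ) =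
      FreeAlgebra.lift ℤ (fun j => KSys.tm (bL M) (LTot M (t j).1)) P :=
    map_lift (D.TT (↑S : Set ℕ)).val.toRingHom _ P
  have hh2 : ((ψ hh : chig.range) : ℂ) = FreeAlgebra.lift ℤ (fun j => qCoeff g (t j).1) P := by
    refine (map_lift (chig.range.subtype.comp ψ) _ P).trans ?_
    congr 2
    funext j
    have h1 := HData.Phi_T (↑S : Set ℕ) (hdata_link (esHyp M lam)) j.2.1 j.2.2.1 j.2.2.2.2
    show ((chig.rangeRestrict (HData.Phi (↑S : Set ℕ) (hdata_link (esHyp M lam)) _) :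
      chig.range) : ℂ) = _
    rw [h1]
    exact hchig j.1 j.2.1 _ _
  have hψ0 : ψ hh ≠ 0 := fun h => hPg (by rw [← hh2, h]; rfl)
  have hfR : Module.Finite ℤ (D.TT (↑S : Set ℕ)) :=
    inferInstanceAs (Module.Finite ℤ (Subalgebra.toSubmodule (D.TT (↑S : Set ℕ))))
  have hint : IsIntegral ℤ (ψ hh) := by
    have h1 : IsIntegral ℤ hh := Algebra.IsIntegral.isIntegral (R := ℤ) hh
    exact h1.map ψ.toIntAlgHom
  have hι := iota_ne_zero iota hψ0 hint
  -- the eigenspace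
  let π : D.TT (↑S : Set ℕ) →+* B := iota.comp ψ
  let W : Submodule K (Fin D.r → K) :=
    { carrier := {v | ∀ x : D.TT (↑S : Set ℕ),
        castHom D.r K (x : Matrix (Fin D.r) (Fin D.r) ℤ) *ᵥ v = algebraMap B K (π x) • v}
      zero_mem' := fun x => by rw [Matrix.mulVec_zero, smul_zero]
      add_mem' := fun {u v} hu hv x => by rw [Matrix.mulVec_add, hu x, hv x, smul_add]
      smul_mem' := fun c v hv x => by
        rw [Matrix.mulVec_smul, hv x, smul_comm] }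
  have hW : W ≠ ⊥ := by
    obtain ⟨v, hv, hv'⟩ := exists_eigvec (D.TT (↑S : Set ℕ)) ((algebraMap B K).comp π)
    exact (Submodule.ne_bot_iff W).2 ⟨v, hv', hv⟩
  let f : ℤ_[lam] →+* K := (algebraMap B K).comp (padicTo lam (maximalIdeal B) hp)
  have hfinj : Function.Injective f :=
    (IsFractionRing.injective B K).comp (padicTo_injective hp)
  have hfM : ∀ N : Matrix (Fin D.r) (Fin D.r) ℤ_[lam], f.mapMatrix N =
      (algebraMap B K).mapMatrix ((padicTo lam (maximalIdeal B) hp).mapMatrix N) := fun N => rfl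
  have hfc : ∀ N : Matrix (Fin D.r) (Fin D.r) ℤ, f.mapMatrix (castHom D.r ℤ_[lam] N) =
      castHom D.r K N := by
    intro N
    ext i j
    show f ((N i j : ℤ) : ℤ_[lam]) = ((N i j : ℤ) : K)
    rw [map_intCast]
  let R : GQ →* Module.End K (Fin D.r → K) :=
    ((Matrix.toLinAlgEquiv' : Matrix (Fin D.r) (Fin D.r) K ≃ₐ[K]
      Module.End K (Fin D.r → K)).toAlgHom.toRingHom.toMonoidHom).comp
      ((RingHom.mapMatrix (m := Fin D.r) f).toMonoidHom.comp D.ρ)
  have hR : ∀ σ v, R σ v = f.mapMatrix (D.ρ σ) *ᵥ v := fun σ v => rfl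
  have hst : ∀ σ, ∀ v ∈ W, R σ v ∈ W := by
    intro σ v hv x
    have h1 := rho_comm_mem (D := D) σ x.2
    rw [hR, ← hfc, Matrix.mulVec_mulVec, ← map_mul, ← h1, map_mul, ← Matrix.mulVec_mulVec, hfc,
      hv x, Matrix.mulVec_smul]
  have h2 : ∀ σ ∈ A.inertiaSubgroupIn ℚ, ∀ v ∈ W, R σ v + R σ⁻¹ v = v + v := by
    intro σ hσ v hv
    obtain ⟨b, w, hb, hw⟩ := exists_mul_vec (B := B) v
    have h3 : ∀ x : D.TT (↑S : Set ℕ),
        castHom D.r B (x : Matrix (Fin D.r) (Fin D.r) ℤ) *ᵥ w = π x • w := by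
      intro x
      rw [mulVec_iff hb hw]
      have h4 : (algebraMap B K).mapMatrix (castHom D.r B (x : Matrix (Fin D.r) (Fin D.r) ℤ)) =
          castHom D.r K x := by
        ext i j
        show algebraMap B K ((_ : ℤ) : B) = ((_ : ℤ) : K)
        rw [map_intCast]
      rw [h4]
      exact hv x
    have h4 := trace_smul_eig S.finite_toSet hM0 hp hT hπ h3 σ
    rw [mulVec_iff hb hw, ← hfM, hu σ hσ, th, cycP_inertia lam hq hA hqp hσ, one_smul, map_add,
      Matrix.add_mulVec, map_ofNat, two_smul] at h4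
    exact h4
  obtain ⟨v, hvW, hv0, hvI⟩ := exists_fixed R (A.inertiaSubgroupIn ℚ) W hW
    (fun σ _ => hst σ) h2
  have h3 := ker_ext_family hfinj (ι := A.inertiaSubgroupIn ℚ)
    (N₁ := fun σ => D.ρ (σ : GQ) - 1) (N₂ := castHom D.r ℤ_[lam]
      (hh : Matrix (Fin D.r) (Fin D.r) ℤ)) (fun x hx => by
      rw [hh1]
      refine CarG.mulVec_eq_zero HC hq ha hcop₁ hM₁ hd hqp hA t (fun j => j.2.2.1) (fun j => j.2.2.2.1)
        hP fun σ hσ => ?_
      have h4 := hx ⟨σ, hσ⟩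
      rw [Matrix.sub_mulVec, Matrix.one_mulVec, sub_eq_zero] at h4
      exact h4) (v := v) (fun σ => by
      rw [map_sub, map_one, Matrix.sub_mulVec, Matrix.one_mulVec, sub_eq_zero]
      exact hvI σ σ.2)
  rw [hfc, hvW hh] at h3
  rcases smul_eq_zero.mp h3 with h4 | h4
  · exact hι ((map_eq_zero_iff _ (IsFractionRing.injective B K)).mp h4)
  · exact hv0 h4

end Fermat.Agent.CarG
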