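import Fermat.Agent.CarG.SigB
import Fermat.Agent.CarG.ChtA
import Fermat.Agent.CarG.Abs
import Fermat.Agent.Carayol.Fin2

/-!
# The norms at level `q ^ a * M'`
-/

set_option autoImplicit false
set_option linter.unusedSectionVars false
set_option linter.style.haveILetI false
set_option synthInstance.maxHeartbeats 400000

noncomputable section

namespace Fermat.Agent.CarG

open ModularCurve Fermat.Agent.GoodRed Fermat.Agent.ModFun Fermat.Agent.GenusX0
open Fermat.Agent.Models IsLocalRing Polynomial IntermediateField Fermat.Agent.Carayol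
open Fermat.Agent.SSMod AlgebraicCurve Fermat.Agent.Curves

section Gen

variable {K : Type*} [Field K] {q M' : ℕ} [NeZero q] [NeZero M'] {a b : ℕ} {Z : Kˣ}
  {s : FF K (q ^ a * M') →+* LaurentSeries K}

/-- for `a < 2 b` the functions `f(qz)` have expansions in `T ^ q` -/
theorem IsSigA.ex_high (hq : q.Prime) (ha : 1 ≤ a) (hb : a < 2 * b)
    (hs : IsSigA a b Z s) (f : FF K (q ^ (a - 1) * M')) :
    ∃ y : LaurentSeries K, s (Carayol.exN K q (h_exA ha) f) = ModularCurve.qExpand K q y := by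
  have hc : ∀ c : K, ∃ y, ModularCurve.qExpand K q y =
      (s.comp (Carayol.exN K q (h_exA ha))) (algebraMap K (FF K (q ^ (a - 1) * M')) c) := by
    intro c
    refine ⟨algebraMap K _ c, ?_⟩
    rw [RingHom.comp_apply, exN_const, hs.const, Carayol.qExpand_algebraMap]
  obtain ⟨f', hf'⟩ := exists_factor (s.comp (Carayol.exN K q (h_exA ha)))
    (ModularCurve.qExpand K q) hc (by
      intro d _ hd
      obtain ⟨k, d₀, hk, hd₀, hdd⟩ := dvd_casesA hq hd
      haveI := neZero_of_dvd hd₀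
      refine ⟨ModularCurve.qExpand K (q ^ (ee a b (k + 1) - 1))
        (twist (eta q a b (k + 1) Z) (ModularCurve.qExpand K d₀ (jqModC K))), ?_⟩
      rw [RingHom.comp_apply, exN_jel, hs.gen (k + 1) d₀ (q * d) _ (by omega) hd₀
        (by rw [hdd, pow_succ']; ring), qExpand_qExpand]
      refine Carayol.qExpand_congr ?_ _
      rw [← pow_succ']
      congr 1
      rw [ee]
      split_ifs <;> omega)
  exact ⟨f' f, (hf' f).symm⟩

/-- the involution as an isomorphism -/
def IsWA.equiv {w : FF K (q ^ a * M') →+* FF K (q ^ a * M')} (hq : q.Prime) (hw : IsWA a w) :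
    FF K (q ^ a * M') ≃+* FF K (q ^ a * M') :=
  { w with
    invFun := w
    left_inv := fun y => hw.invol hq y
    right_inv := fun y => hw.invol hq y }

/-- norms along `f(z) ↦ f(qz)` -/
theorem IsWA.norm_ex (hq : q.Prime) (ha : 1 ≤ a) {w : FF K (q ^ a * M') →+* FF K (q ^ a * M')}
    (hw : IsWA a w) {w' : FF K (q ^ (a - 1) * M') →+* FF K (q ^ (a - 1) * M')}
    (hw' : IsWA (a - 1) w') (x : FF K (q ^ a * M')) :
    w' (normAlong (Carayol.inc K h_incA) x) =
      normAlong (Carayol.exN K q (h_exA ha)) (w x) :=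
  normAlong_equiv (Carayol.inc K (h_incA (q := q) (M' := M') (a := a)))
    (Carayol.exN K q (h_exA ha)) (hw'.equiv hq) (hw.equiv hq)
    (fun y => by
      change w (Carayol.inc K h_incA y) = Carayol.exN K q (h_exA ha) (w' y)
      rw [hw.exN hq ha hw', hw'.invol hq]) x

theorem psi_step (hq : q.Prime) (hM : Nat.Coprime q M') (ha : 2 ≤ a) :
    dedekindPsi (q ^ a * M') = dedekindPsi (q ^ (a - 1) * M') * q := by
  obtain ⟨c, rfl⟩ : ∃ c, a = c + 2 := ⟨a - 2, by omega⟩
  have := dedekindPsi_step q hq (c + 1) M' ((Nat.Prime.coprime_iff_not_dvd hq).1 hM)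
  rw [if_neg (Nat.succ_ne_zero c)] at this
  exact this

/-- the degree of the projection -/
theorem finrank_incA [CharZero K] (hq : q.Prime) (hM : Nat.Coprime q M') (ha : 2 ≤ a) :
    @Module.finrank (FF K (q ^ (a - 1) * M')) (FF K (q ^ a * M')) _ _
      (Carayol.inc K (h_incA (q := q) (M' := M') (a := a))).toAlgebra.toModule = q := by
  letI := (Carayol.inc K (h_incA (q := q) (M' := M') (a := a))).toAlgebra
  have hle : FF K (q ^ (a - 1) * M') ≤ FF K (q ^ a * M') := FF_mono K h_incA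
  have h1 : Module.finrank (FF K (q ^ (a - 1) * M')) (FF K (q ^ a * M')) =
      relfinrank (FF K (q ^ (a - 1) * M')) (FF K (q ^ a * M')) := by
    rw [relfinrank_eq_finrank_of_le hle]
    refine Algebra.finrank_eq_of_equiv_equiv (RingEquiv.refl _)
      { toFun := fun x => ⟨x.1, x.2⟩
        invFun := fun x => ⟨x.1, x.2⟩
        left_inv := fun _ => rfl
        right_inv := fun _ => rfl
        map_mul' := fun _ _ => rfl
        map_add' := fun _ _ => rfl } ?_
    ext x
    rfl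
  have hjle : K⟮jqModC K⟯ ≤ FF K (q ^ (a - 1) * M') := by
    rw [adjoin_simple_le_iff]
    exact jqModC_mem_full K (q ^ (a - 1) * M')
  have h2 := relfinrank_mul_relfinrank hjle hle
  have e1 := degN_eq' (k := K) (q ^ (a - 1) * M')
  have e2 := degN_eq' (k := K) (q ^ a * M')
  have n1 : ((q ^ (a - 1) * M' : ℕ) : K) ≠ 0 := by
    exact_mod_cast mul_ne_zero (pow_ne_zero (a - 1) (NeZero.ne q)) (NeZero.ne M')
  have n2 : ((q ^ a * M' : ℕ) : K) ≠ 0 := by
    exact_mod_cast mul_ne_zero (pow_ne_zero a (NeZero.ne q)) (NeZero.ne M')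
  rw [degN_eq_psi K _ n1] at e1
  rw [degN_eq_psi K _ n2] at e2
  rw [h1]
  have h3 : dedekindPsi (q ^ (a - 1) * M') *
      relfinrank (FF K (q ^ (a - 1) * M')) (FF K (q ^ a * M')) =
      dedekindPsi (q ^ (a - 1) * M') * q := by
    rw [← psi_step hq hM ha, e1, e2]
    exact h2
  exact Nat.eq_of_mul_eq_mul_left (Nat.pos_of_ne_zero
    (dedekindPsi_pos (mul_ne_zero (pow_ne_zero _ (NeZero.ne q)) (NeZero.ne M')))) h3

theorem finrank_exA [CharZero K] (hq : q.Prime) (hM : Nat.Coprime q M') (ha : 2 ≤ a) (ha1 : 1 ≤ a)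
    {w : FF K (q ^ a * M') →+* FF K (q ^ a * M')}
    (hw : IsWA a w) {w' : FF K (q ^ (a - 1) * M') →+* FF K (q ^ (a - 1) * M')}
    (hw' : IsWA (a - 1) w') :
    @Module.finrank (FF K (q ^ (a - 1) * M')) (FF K (q ^ a * M')) _ _
      (Carayol.exN K q (h_exA (q := q) (M' := M') ha1)).toAlgebra.toModule = q := by
  refine Eq.trans (Eq.symm ?_) (finrank_incA (K := K) hq hM ha)
  exact @Algebra.finrank_eq_of_equiv_equiv _ _ _ _
    (Carayol.inc K (h_incA (q := q) (M' := M') (a := a))).toAlgebra _ _ _ _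
    (Carayol.exN K q (h_exA (q := q) (M' := M') ha1)).toAlgebra (hw'.equiv hq) (hw.equiv hq)
    (RingHom.ext fun y => by
      change Carayol.exN K q (h_exA ha1) (w' y) = w (Carayol.inc K h_incA y)
      rw [hw.exN hq ha1 hw', hw'.invol hq])

end Gen

/-- integrality of the norm -/
theorem norm_icrR {R E F : Type*} [CommRing R] [Field E] [Field F] [Algebra R E] [Algebra R F]
    (f : E →+* F) (hfk : ∀ c, f (algebraMap R E c) = algebraMap R F c) {t : E} {x : F}
    (hx : x ∈ icr R (f t)) : normAlong f x ∈ icr R t := by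
  letI := f.toAlgebra
  letI : Algebra R[X] F := pAlg R (f t)
  letI : Algebra R[X] E := pAlg R t
  haveI : IsScalarTower R[X] E F := IsScalarTower.of_algebraMap_eq fun p => by
    change aeval (f t) p = f (aeval t p)
    rw [aeval_def, aeval_def, hom_eval₂]
    congr 1
    ext c
    exact (hfk c).symm
  rw [mem_icr'] at hx ⊢
  exact Algebra.isIntegral_norm E hx

theorem normAlong_const {E F : Type*} [Field E] [Field F] (f : E →+* F) {n : ℕ}
    (hf : @Module.finrank E F _ _ f.toAlgebra.toModule = n) (c : E) :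
    normAlong f (f c) = c ^ n := by
  letI := f.toAlgebra
  rw [← hf]
  exact Algebra.norm_algebraMap c

namespace SitA

variable {k₀ K κ : Type} [Field k₀] [Field K] [Field κ] [Algebra k₀ K] {q M' : ℕ}
  [NeZero q] [NeZero M'] {S : Sit k₀ K κ q M'} {a : ℕ} (T : SitA S a)

/-- Galois automorphisms -/
def HasGalA : Prop := ∀ i : ℕ, ¬ q ∣ i → ∃ τ : K →+* K,
  (∀ c : k₀, τ (algebraMap k₀ K c) = algebraMap k₀ K c) ∧ τ T.Z = (T.Z : K) ^ i ∧
  ∀ x : S.A, ∃ h : τ x ∈ S.A, S.π ⟨τ x, h⟩ = S.π x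

include T in
theorem ha1 : 1 ≤ a := by have := T.ha; omega
include T in
theorem ha2 : 2 ≤ a := by have := T.ha; omega

/-- the first component -/
abbrev top (_ : SitA S a) : Fin (a + 1) := Fin.last a
/-- its neighbour -/
abbrev sub (_ : SitA S a) : Fin (a + 1) := ⟨a - 1, by omega⟩

/-- the base change of functions -/
abbrev bK (_ : SitA S a) (x : FF k₀ (q ^ a * M')) : FF K (q ^ a * M') := bc S.cK (q ^ a * M') x

theorem ζ_pow : S.ζ ^ q = 1 := Units.ext (by push_cast; exact S.hζ.pow_eq_one)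

/-! ### the involutions -/

include T in
theorem exists_w : ∃ w : FF K (q ^ a * M') →+* FF K (q ^ a * M'), IsWA a w :=
  exists_wA S.ι (RingHom.id K) S.hq S.hM T.Z T.hZ

include T in
theorem exists_w₀ : ∃ w : FF k₀ (q ^ a * M') →+* FF k₀ (q ^ a * M'), IsWA a w :=
  exists_wA S.ι S.cK S.hq S.hM T.Z T.hZ

include T in
theorem hZq : IsPrimitiveRoot ((T.Z ^ q : Kˣ) : K) (q ^ (a - 1)) := by
  rw [Units.val_pow_eq_pow_val]
  refine T.hZ.pow (pow_pos S.hq.pos a) ?_
  rw [← pow_succ']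
  congr 1
  have := T.ha
  omega

include T in
theorem exists_w' : ∃ w : FF K (q ^ (a - 1) * M') →+* FF K (q ^ (a - 1) * M'), IsWA (a - 1) w :=
  exists_wA S.ι (RingHom.id K) S.hq S.hM (T.Z ^ q) T.hZq

include T in
theorem exists_w₀' : ∃ w : FF k₀ (q ^ (a - 1) * M') →+* FF k₀ (q ^ (a - 1) * M'),
    IsWA (a - 1) w :=
  exists_wA S.ι S.cK S.hq S.hM (T.Z ^ q) T.hZq

include T in
theorem finrank_exA₀ : @Module.finrank (FF k₀ (q ^ (a - 1) * M')) (FF k₀ (q ^ a * M')) _ _
      (Carayol.exN k₀ q (h_exA (q := q) (M' := M') T.ha1)).toAlgebra.toModule = q := by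
  haveI := S.charZero₀
  obtain ⟨w, hw⟩ := T.exists_w₀
  obtain ⟨w', hw'⟩ := T.exists_w₀'
  exact CarG.finrank_exA S.hq S.hM T.ha2 T.ha1 hw hw'

include T in
theorem finrank_incA₀ : @Module.finrank (FF k₀ (q ^ (a - 1) * M')) (FF k₀ (q ^ a * M')) _ _
      (Carayol.inc k₀ (h_incA (q := q) (M' := M'))).toAlgebra.toModule = q := by
  haveI := S.charZero₀
  exact CarG.finrank_incA S.hq S.hM T.ha2

/-! ### the norm maps -/

/-- the norm map -/
def NmA : T.F →* T.F where
  toFun x := Carayol.inc k₀ h_incA (normAlong (Carayol.inc k₀ h_incA) x)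
  map_one' := by rw [Carayol.norm_one, map_one]
  map_mul' x y := by rw [Carayol.norm_mul, map_mul]

/-- the second norm map -/
def NmB : T.F →* T.F where
  toFun x := Carayol.exN k₀ q (h_exA T.ha1) (normAlong (Carayol.exN k₀ q (h_exA T.ha1)) x)
  map_one' := by rw [Carayol.norm_one, map_one]
  map_mul' x y := by rw [Carayol.norm_mul, map_mul]

theorem NmA_apply (x : T.F) :
    T.NmA x = Carayol.inc k₀ h_incA (normAlong (Carayol.inc k₀ h_incA) x) := rfl

theorem NmB_apply (x : T.F) : T.NmB x =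
    Carayol.exN k₀ q (h_exA T.ha1) (normAlong (Carayol.exN k₀ q (h_exA T.ha1)) x) := rfl

theorem NmA_const (c : k₀) : T.NmA (algebraMap k₀ T.F c) = algebraMap k₀ T.F c ^ q := by
  have h1 := normAlong_const (Carayol.inc k₀ (h_incA (q := q) (M' := M') (a := a)))
    T.finrank_incA₀ (algebraMap k₀ _ c)
  rw [inc_const] at h1
  rw [NmA_apply, h1, map_pow, inc_const]

theorem NmB_const (c : k₀) : T.NmB (algebraMap k₀ T.F c) = algebraMap k₀ T.F c ^ q := by
  have h1 := normAlong_const (Carayol.exN k₀ q (h_exA (q := q) (M' := M') T.ha1))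
    T.finrank_exA₀ (algebraMap k₀ _ c)
  rw [exN_const] at h1
  rw [NmB_apply, h1, map_pow, exN_const]

theorem NmA_ne {x : T.F} (hx : x ≠ 0) : T.NmA x ≠ 0 := by
  intro h
  have h1 : T.NmA x * T.NmA x⁻¹ = 1 := by rw [← map_mul, mul_inv_cancel₀ hx, map_one]
  rw [h, zero_mul] at h1
  exact zero_ne_one h1

theorem NmB_ne {x : T.F} (hx : x ≠ 0) : T.NmB x ≠ 0 := by
  intro h
  have h1 : T.NmB x * T.NmB x⁻¹ = 1 := by rw [← map_mul, mul_inv_cancel₀ hx, map_one]
  rw [h, zero_mul] at h1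
  exact zero_ne_one h1

/-- reduction of a norm -/
theorem LR_norm {E : Type*} [Field E] [CharZero E] (f : E →+* T.F)
    (hf : @Module.finrank E T.F _ _ f.toAlgebra.toModule = q) (b : Fin (a + 1))
    (e : Fin q → (T.F →+* LaurentSeries K)) (he : ∀ i, (e i).comp f = (T.φ b).comp f)
    (hinj : Function.Injective e) {x : T.F} {y : Fin q → LaurentSeries κ}
    (hy : ∀ i, LR S.π (e i x) (y i)) : (T.P b).R (f (normAlong f x)) (∏ i, y i) := by
  rw [P_R]
  have h := norm_eq_prod f S.hq.pos hf ((T.φ b).comp f) e he hinj x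
  rw [RingHom.comp_apply] at h
  rw [h]
  exact LR_prod _ hy

theorem coeff_jj_twist (W : Kˣ) (n : ℕ) :
    (qExpand K (q ^ n) (twist W (jqModC K))).coeff (-(q ^ n : ℕ) : ℤ) = (W : K)⁻¹ := by
  have h1 : (-(q ^ n : ℕ) : ℤ) = ((q ^ n : ℕ) : ℤ) * (-1) := by ring
  rw [h1, qExpand_coeff_mul, twist_coeff, ModularCurve.coeff_jqModC_neg_one, mul_one, zpow_neg,
    zpow_one, Units.val_inv_eq_inv_val]

theorem ζ_pow_inj {i j : Fin q} (h : (S.ζ : K) ^ (i : ℕ) = (S.ζ : K) ^ (j : ℕ)) : i = j :=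
  Fin.ext (S.hζ.pow_inj i.2 j.2 h)

/-! #### the first norm -/

theorem bc_inc (y : FF k₀ (q ^ (a - 1) * M')) : bc S.cK (q ^ a * M') (Carayol.inc k₀ h_incA y) =
    Carayol.inc K h_incA (bc S.cK (q ^ (a - 1) * M') y) := by
  apply Subtype.ext
  rw [coe_bc, coe_inc, coe_inc, coe_bc]

theorem bc_exN (y : FF k₀ (q ^ (a - 1) * M')) :
    bc S.cK (q ^ a * M') (Carayol.exN k₀ q (h_exA T.ha1) y) =
      Carayol.exN K q (h_exA T.ha1) (bc S.cK (q ^ (a - 1) * M') y) := by
  apply Subtype.ext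
  rw [coe_bc, coe_exN, coe_exN, coe_bc, coeffMap_qExpand]

theorem pow_qExpand_aux (i : ℕ) (y : LaurentSeries K) :
    twist (S.ζ ^ i) (qExpand K q y) = qExpand K q y :=
  twist_qExpand _ q (by rw [← pow_mul, mul_comm, pow_mul, ζ_pow, one_pow]) y

theorem R_NmA_low {b : Fin (a + 1)} (hb : 2 * (b : ℕ) < a) {x : T.F} {y : LaurentSeries κ}
    (h : (T.P b).R x y) : (T.P b).R (T.NmA x) (y ^ q) := by
  haveI := S.charZero₀
  have ha := T.ha
  have hy : y ^ q = ∏ _i : Fin q, y := by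
    rw [Finset.prod_const, Finset.card_univ, Fintype.card_fin]
  rw [hy]
  refine T.LR_norm (Carayol.inc k₀ h_incA) T.finrank_incA₀ b
    (fun i : Fin q => (twist (S.ζ ^ (i : ℕ))).comp (T.φ b)) (fun i => ?_) ?_ (fun i => ?_)
  · apply RingHom.ext
    intro z
    rw [RingHom.comp_apply, RingHom.comp_apply, RingHom.comp_apply, φ_apply, bc_inc]
    obtain ⟨u, hu⟩ := (T.hsg b).inc_low S.hq hb (bc S.cK _ z)
    rw [hu, pow_qExpand_aux]
  · intro i j hij
    have h1 : twist (S.ζ ^ (i : ℕ)) (T.φ b (T.jj a le_rfl)) =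
        twist (S.ζ ^ (j : ℕ)) (T.φ b (T.jj a le_rfl)) :=
      congrArg (fun φ : T.F →+* LaurentSeries K => φ (T.jj a le_rfl)) hij
    have e0 : ee a b a = 0 := by rw [ee]; split_ifs <;> omega
    rw [T.φ_jj, Carayol.qExpand_congr (d' := 1) (by rw [e0, pow_zero]), qExpand_one_apply,
      twist_twist, twist_twist] at h1
    have h2 := congrArg (fun z : LaurentSeries K => z.coeff (-1)) h1
    simp only [twist_coeff, ModularCurve.coeff_jqModC_neg_one, mul_one, zpow_neg, zpow_one,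
      Units.val_inv_eq_inv_val] at h2
    have h3 := inv_injective h2
    rw [Units.val_mul, Units.val_mul] at h3
    have h4 := mul_right_cancel₀ (Units.ne_zero _) h3
    rw [Units.val_pow_eq_pow_val, Units.val_pow_eq_pow_val] at h4
    exact ζ_pow_inj h4
  · rw [RingHom.comp_apply]
    refine R_twist_root S (n := 1) ?_ h
    rw [pow_one, ← pow_mul, mul_comm, pow_mul, ζ_pow, one_pow]

section Gal

variable {T}

theorem map_Z {τ : K →+* K} {i : ℕ} (h : τ T.Z = (T.Z : K) ^ i) :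
    Units.map (τ : K →* K) T.Z = T.Z ^ i := by
  ext
  push_cast
  exact h

theorem R_NmA_mid (hG : T.HasGalA) {b : Fin (a + 1)} (hb : a ≤ 2 * (b : ℕ)) (hb2 : (b : ℕ) + 2 ≤ a)
    {x : T.F} {y : LaurentSeries κ} (h : (T.P b).R x y) : (T.P b).R (T.NmA x) (y ^ q) := by
  haveI := S.charZero₀
  have ha := T.ha
  have hy : y ^ q = ∏ _i : Fin q, y := by
    rw [Finset.prod_const, Finset.card_univ, Fintype.card_fin]
  -- the automorphisms
  have hex : ∀ i : ℕ, ∃ τ : K →+* K, (∀ c : k₀, τ (algebraMap k₀ K c) = algebraMap k₀ K c) ∧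
      τ T.Z = (T.Z : K) ^ (1 + i * q ^ (a - b - 1)) ∧
      ∀ x : S.A, ∃ h : τ x ∈ S.A, S.π ⟨τ x, h⟩ = S.π x := by
    intro i
    refine hG _ fun hd => ?_
    have h1 : q ∣ i * q ^ (a - b - 1) :=
      Dvd.dvd.mul_left (dvd_pow_self q (by omega)) i
    have h2 := (Nat.dvd_add_left h1).1 hd
    exact S.hq.one_lt.ne' (Nat.dvd_one.1 h2)
  choose τ hτ1 hτ2 hτ3 using hex
  have hsg' : ∀ i : ℕ, ∃ s' : FF K (q ^ a * M') →+* LaurentSeries K,
      IsSigA a b (Units.map (τ i : K →* K) T.Z) s' := by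
    intro i
    refine exists_sigA S.ι S.hq S.hM (Nat.lt_succ_iff.1 b.2) _ ?_
    rw [map_Z (hτ2 i), Units.val_pow_eq_pow_val]
    refine T.hZ.pow_of_coprime _ (Nat.Coprime.pow_right _ ?_)
    refine (Nat.coprime_comm.1 ((Nat.Prime.coprime_iff_not_dvd S.hq).2 fun hd => ?_))
    have h1 : q ∣ i * q ^ (a - b - 1) :=
      Dvd.dvd.mul_left (dvd_pow_self q (by omega)) i
    have h2 := (Nat.dvd_add_left h1).1 hd
    exact S.hq.one_lt.ne' (Nat.dvd_one.1 h2)
  choose s' hs' using hsg'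
  have hgal : ∀ (i : ℕ) (z : T.F), coeffMap (τ i) (T.φ b z) = s' i (bc S.cK _ z) := fun i z =>
    (T.hsg b).galois S.hq (τ i) S.cK (hτ1 i) (hs' i) z
  rw [hy]
  refine T.LR_norm (Carayol.inc k₀ h_incA) T.finrank_incA₀ b
    (fun i : Fin q => (coeffMap (τ i)).comp (T.φ b)) (fun i => ?_) ?_ (fun i => ?_)
  · apply RingHom.ext
    intro z
    rw [RingHom.comp_apply, RingHom.comp_apply, RingHom.comp_apply, hgal, φ_apply, bc_inc]
    refine (hs' i).inc_eq S.hq (T.hsg b) (fun k hk => ?_) _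
    rw [map_Z (hτ2 i), eta, eta]
    split_ifs with hkb
    · rfl
    · have e : T.Z ^ ((i : ℕ) * q ^ (a - b - 1 + (a - (k - b)))) = 1 := by
        obtain ⟨m, hm⟩ := Nat.exists_eq_add_of_le (show a ≤ a - b - 1 + (a - (k - b)) by omega)
        rw [hm, pow_add, mul_left_comm, pow_mul, T.hZ1, one_pow]
      have e' : (1 + (i : ℕ) * q ^ (a - b - 1)) * q ^ (a - (k - b)) =
          q ^ (a - (k - b)) + (i : ℕ) * q ^ (a - b - 1 + (a - (k - b))) := by
        rw [pow_add]; ring
      rw [← pow_mul, e', pow_add, e, mul_one]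
  · intro i j hij
    have h1 : coeffMap (τ i) (T.φ b (T.jj a le_rfl)) =
        coeffMap (τ j) (T.φ b (T.jj a le_rfl)) :=
      congrArg (fun φ : T.F →+* LaurentSeries K => φ (T.jj a le_rfl)) hij
    rw [T.φ_jj] at h1
    have h2 := congrArg (fun z : LaurentSeries K => z.coeff (-(q ^ ee a b a : ℕ) : ℤ)) h1
    simp only [coeffMap_coeff, coeff_jj_twist] at h2
    rw [map_inv₀, map_inv₀] at h2
    have h3 := inv_injective h2
    have e1 : eta q a b a T.Z = T.Z ^ q ^ (b : ℕ) := by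
      rw [eta, if_neg (by omega)]
      congr 2
      omega
    have e2 : ∀ i : Fin q, τ i ((T.Z ^ q ^ (b : ℕ) : Kˣ) : K) =
        (T.Z : K) ^ q ^ (b : ℕ) * (S.ζ : K) ^ (i : ℕ) := by
      intro i
      have e' : (1 + (i : ℕ) * q ^ (a - b - 1)) * q ^ (b : ℕ) =
          q ^ (b : ℕ) + q ^ (a - 1) * (i : ℕ) := by
        have : a - 1 = (a - b - 1) + b := by omega
        rw [this, pow_add]; ring
      rw [Units.val_pow_eq_pow_val, map_pow, hτ2, ← pow_mul, e', pow_add, pow_mul, ← T.hZζ,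
        Units.val_pow_eq_pow_val]
    rw [e1, e2, e2] at h3
    exact ζ_pow_inj (mul_left_cancel₀ (pow_ne_zero _ (Units.ne_zero _)) h3)
  · rw [RingHom.comp_apply]
    exact LR_galois (hτ3 i) h

/-- **the norm to level `q ^ (a - 1) * M'`, far components** -/
theorem R_NmA (hG : T.HasGalA) {b : Fin (a + 1)} (hb2 : (b : ℕ) + 2 ≤ a)
    {x : T.F} {y : LaurentSeries κ} (h : (T.P b).R x y) : (T.P b).R (T.NmA x) (y ^ q) := by
  rcases Nat.lt_or_ge (2 * (b : ℕ)) a with hb | hb
  · exact T.R_NmA_low hb h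
  · exact R_NmA_mid hG hb hb2 h

end Gal

end SitA

end Fermat.Agent.CarG
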