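import Fermat.Agent.CarG.NormA

/-!
# The norms at level `q ^ a * M'`, II
-/

set_option autoImplicit false
set_option linter.unusedSectionVars false
set_option linter.style.haveILetI false
set_option synthInstance.maxHeartbeats 400000

noncomputable section

namespace Fermat.Agent.CarG

open ModularCurve Fermat.Agent.GoodRed Fermat.Agent.ModFun Fermat.Agent.GenusX0
open Fermat.Agent.Models IsLocalRing Polynomial IntermediateField Fermat.Agent.Carayol
open Fermat.Agent.SSMod AlgebraicCurve Fermat.Agent.Curves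

namespace SitA

variable {k₀ K κ : Type} [Field k₀] [Field K] [Field κ] [Algebra k₀ K] {q M' : ℕ}
  [NeZero q] [NeZero M'] {S : Sit k₀ K κ q M'} {a : ℕ} (T : SitA S a)

/-! ### the first norm at the first component -/

include T in
theorem exists_sgT (i : ℕ) (hi : ¬ q ∣ i) :
    ∃ s : FF K (q ^ a * M') →+* LaurentSeries K, IsSigA a (a - 1) (T.Z ^ i) s := by
  refine exists_sigA S.ι S.hq S.hM (Nat.sub_le a 1) _ ?_
  rw [Units.val_pow_eq_pow_val]
  exact T.hZ.pow_of_coprime _ (Nat.Coprime.pow_right _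
    ((Nat.Prime.coprime_iff_not_dvd S.hq).2 hi).symm)

/-- the embeddings over level `q ^ (a - 1) * M'` -/
def sgT (i : ℕ) : FF K (q ^ a * M') →+* LaurentSeries K :=
  if h : q ∣ i then algebraMap _ _ else (T.exists_sgT i h).choose

theorem sgT_dvd {i : ℕ} (h : q ∣ i) (x : FF K (q ^ a * M')) : T.sgT i x = x := by
  rw [sgT, dif_pos h]; rfl

theorem sgT_spec {i : ℕ} (h : ¬ q ∣ i) : IsSigA a (a - 1) (T.Z ^ i) (T.sgT i) := by
  rw [sgT, dif_neg h]
  exact (T.exists_sgT i h).choose_spec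

theorem sgT_inc (i : ℕ) (f : FF K (q ^ (a - 1) * M')) :
    T.sgT i (Carayol.inc K h_incA f) = f := by
  by_cases h : q ∣ i
  · rw [T.sgT_dvd h, coe_inc]
  · exact (T.sgT_spec h).inc_sub S.hq T.ha2 f

theorem fin_ne {i : Fin q} (h : i ≠ 0) : ¬ q ∣ (i : ℕ) := fun hd => h (by
  apply Fin.ext
  rw [fin_val_zero]
  exact Nat.eq_zero_of_dvd_of_lt hd i.2)

theorem sgT_inj {k : Type} [Field k] (f : k →+* K) :
    Function.Injective fun i : Fin q => (T.sgT i).comp (bc f (q ^ a * M')) := by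
  have ha := T.ha
  have hq2 := S.hq.two_le
  have hd1 : q ^ a ∣ q ^ a * M' := Dvd.intro _ rfl
  have hc : ∀ i : Fin q, (T.sgT i (jel K (q ^ a) hd1)).coeff (-(q ^ (a - 2) : ℕ) : ℤ) =
      if i = 0 then 0 else ((S.ζ : K) ^ (i : ℕ))⁻¹ := by
    intro i
    split_ifs with h
    · subst h
      rw [T.sgT_dvd (by simp), coe_jel, qExpand_coeff_of_not_dvd]
      intro hd
      have h1 := Int.natAbs_dvd_natAbs.2 hd
      rw [Int.natAbs_neg, Int.natAbs_natCast, Int.natAbs_natCast] at h1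
      have h2 := Nat.le_of_dvd (pow_pos S.hq.pos _) h1
      have h3 : q ^ (a - 2) < q ^ a := Nat.pow_lt_pow_right S.hq.one_lt (by omega)
      omega
    · have hi : ¬ q ∣ (i : ℕ) := fin_ne h
      haveI : NeZero (1 : ℕ) := ⟨one_ne_zero⟩
      have e0 : ee a (a - 1) a = a - 2 := by rw [ee]; split_ifs <;> omega
      have e1 : (eta q a (a - 1) a (T.Z ^ (i : ℕ)) : Kˣ) = S.ζ ^ (i : ℕ) := by
        rw [eta, if_neg (by omega), ← T.hZζ, ← pow_mul, ← pow_mul, mul_comm]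
        congr 3
        omega
      rw [(T.sgT_spec hi).gen a 1 (q ^ a) _ le_rfl (one_dvd _) (mul_one _).symm,
        qExpand_one_apply, ← e0, coeff_jj_twist, e1, Units.val_pow_eq_pow_val]
  intro i i' h
  have h1 : T.sgT i (jel K (q ^ a) hd1) = T.sgT i' (jel K (q ^ a) hd1) := by
    have := congrArg (fun φ : FF k (q ^ a * M') →+* LaurentSeries K =>
      φ (jel k (q ^ a) hd1)) h
    simp only [RingHom.comp_apply] at this
    rwa [bc_jel] at this
  have h2 : (T.sgT i (jel K (q ^ a) hd1)).coeff (-(q ^ (a - 2) : ℕ) : ℤ) =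
      (T.sgT i' (jel K (q ^ a) hd1)).coeff (-(q ^ (a - 2) : ℕ) : ℤ) := by rw [h1]
  rw [hc, hc] at h2
  have hne : ∀ n : ℕ, ((S.ζ : K) ^ n)⁻¹ ≠ 0 := fun n =>
    inv_ne_zero (pow_ne_zero n (S.ζ.ne_zero))
  split_ifs at h2 with h3 h4 h4
  · rw [h3, h4]
  · exact absurd h2.symm (hne _)
  · exact absurd h2 (hne _)
  · exact ζ_pow_inj (inv_injective h2)

/-- **the expansion of the norm** -/
theorem coe_normA {k : Type} [Field k] [CharZero k] (f : k →+* K) (x : FF k (q ^ a * M')) :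
    ((bc f (q ^ (a - 1) * M') (normAlong (Carayol.inc k h_incA) x) :
      FF K (q ^ (a - 1) * M')) : LaurentSeries K) = ∏ i : Fin q, T.sgT i (bc f _ x) := by
  refine norm_eq_prod (Carayol.inc k (h_incA (q := q) (M' := M') (a := a))) S.hq.pos
    (finrank_incA S.hq S.hM T.ha2)
    ((algebraMap (FF K (q ^ (a - 1) * M')) (LaurentSeries K)).comp (bc f (q ^ (a - 1) * M')))
    (fun i : Fin q => (T.sgT i).comp (bc f (q ^ a * M'))) (fun i => ?_) (T.sgT_inj f) x
  apply RingHom.ext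
  intro y
  have h1 : bc f (q ^ a * M') (Carayol.inc k h_incA y) =
      Carayol.inc K h_incA (bc f (q ^ (a - 1) * M') y) := by
    apply Subtype.ext
    rw [coe_bc, coe_inc, coe_inc, coe_bc]
  rw [RingHom.comp_apply, RingHom.comp_apply, h1, sgT_inc]
  rfl

include T in
/-- the norm commutes with base change -/
theorem bc_normA (x : FF k₀ (q ^ a * M')) :
    bc S.cK (q ^ (a - 1) * M') (normAlong (Carayol.inc k₀ h_incA) x) =
      normAlong (Carayol.inc K h_incA) (bc S.cK (q ^ a * M') x) := by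
  haveI := S.charZeroK
  haveI := S.charZero₀
  apply Subtype.ext
  rw [T.coe_normA S.cK x]
  have h := T.coe_normA (RingHom.id K) (bc S.cK (q ^ a * M') x)
  have e : ∀ (N : ℕ) (y : FF K N), bc (RingHom.id K) N y = y := by
    intro N y
    apply Subtype.ext
    rw [coe_bc]
    ext n
    rw [coeffMap_coeff]; rfl
  rw [e, e] at h
  exact h.symm

include T in
/-- the second norm commutes with base change -/
theorem bc_normB (x : FF k₀ (q ^ a * M')) :
    bc S.cK (q ^ (a - 1) * M') (normAlong (Carayol.exN k₀ q (h_exA T.ha1)) x) =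
      normAlong (Carayol.exN K q (h_exA T.ha1)) (bc S.cK (q ^ a * M') x) := by
  obtain ⟨w, hw⟩ := T.exists_w
  obtain ⟨w', hw'⟩ := T.exists_w'
  obtain ⟨v, hv⟩ := T.exists_w₀
  obtain ⟨v', hv'⟩ := T.exists_w₀'
  have h1 := hv.norm_ex S.hq T.ha1 hv' (v x)
  rw [hv.invol S.hq] at h1
  have h2 := hw.norm_ex S.hq T.ha1 hw' (w (bc S.cK (q ^ a * M') x))
  rw [hw.invol S.hq] at h2
  rw [← h1, ← h2, hv'.bc S.hq hw', T.bc_normA, hv.bc S.hq hw]

theorem bK_NmA (x : T.F) : T.bK (T.NmA x) =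
    Carayol.inc K h_incA (normAlong (Carayol.inc K h_incA) (T.bK x)) := by
  rw [← T.bc_normA, NmA_apply]
  exact bc_inc _

theorem bK_NmB (x : T.F) : T.bK (T.NmB x) =
    Carayol.exN K q (h_exA T.ha1) (normAlong (Carayol.exN K q (h_exA T.ha1)) (T.bK x)) := by
  rw [← T.bc_normB, NmB_apply]
  exact T.bc_exN _

/-! ### the first component -/

theorem φ_top (x : T.F) : T.φ T.top x = coeffMap S.cK (x : LaurentSeries k₀) :=
  isSigA_top_iff S.hq (T.hsg T.top) _

theorem φ_top_inc (f : FF k₀ (q ^ (a - 1) * M')) : T.φ T.top (Carayol.inc k₀ h_incA f) =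
    coeffMap S.cK (f : LaurentSeries k₀) := by
  rw [φ_top, coe_inc]

theorem φ_sub_inc (f : FF k₀ (q ^ (a - 1) * M')) : T.φ T.sub (Carayol.inc k₀ h_incA f) =
    coeffMap S.cK (f : LaurentSeries k₀) := by
  rw [φ_apply, bc_inc]
  exact (T.hsg T.sub).inc_sub S.hq T.ha2 _

theorem φ_sub_NmA (x : T.F) : T.φ T.sub (T.NmA x) = T.φ T.top (T.NmA x) := by
  rw [NmA_apply, φ_sub_inc, φ_top_inc]

theorem φ_top_NmA (x : T.F) : T.φ T.top (T.NmA x) = ∏ i : Fin q, T.sgT i (T.bK x) := by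
  haveI := S.charZero₀
  rw [← T.coe_normA S.cK x, NmA_apply, φ_top_inc]
  rfl

theorem R_sub_NmA {x : T.F} {z : LaurentSeries κ} (h : (T.P T.top).R (T.NmA x) z) :
    (T.P T.sub).R (T.NmA x) z := by
  rw [P_R, φ_sub_NmA]; exact h

section Gal

variable {T}

theorem R_sgT (hG : T.HasGalA) {i : ℕ} (hi : ¬ q ∣ i) {x : T.F} {y : LaurentSeries κ}
    (h : (T.P T.sub).R x y) : LR S.π (T.sgT i (T.bK x)) y := by
  obtain ⟨τ, h1, h2, h3⟩ := hG i hi
  have h5 := (T.hsg T.sub).galois S.hq τ S.cK h1 (s' := T.sgT i)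
    (by rw [map_Z h2]; exact T.sgT_spec hi) x
  change LR S.π (T.sgT i (bc S.cK _ x)) y
  rw [← h5]
  exact LR_galois h3 h

theorem LR_sgT (hG : T.HasGalA) (i : Fin q) {x : T.F} {y₀ y₁ : LaurentSeries κ}
    (h₀ : (T.P T.top).R x y₀) (h₁ : (T.P T.sub).R x y₁) :
    LR S.π (T.sgT i (T.bK x)) (if i = 0 then y₀ else y₁) := by
  split_ifs with h
  · subst h
    rw [T.sgT_dvd (by simp)]
    rw [P_R, φ_top] at h₀
    exact h₀
  · exact R_sgT hG (fin_ne h) h₁

/-- **the norm to level `q ^ (a - 1) * M'`, first component** -/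
theorem R_top_NmA (hG : T.HasGalA) {x : T.F} {y₀ y₁ : LaurentSeries κ}
    (h₀ : (T.P T.top).R x y₀) (h₁ : (T.P T.sub).R x y₁) :
    (T.P T.top).R (T.NmA x) (y₀ * y₁ ^ (q - 1)) := by
  rw [P_R, φ_top_NmA, ← prod_fin_ite (q := q) y₀ y₁]
  exact LR_prod _ fun i => LR_sgT hG i h₀ h₁

/-- the norm with constants -/
theorem R_top_NmA_c (hG : T.HasGalA) {x : T.F} (c c' : k₀) {y₀ y₁ : LaurentSeries κ}
    (h₀ : (T.P T.top).R (x * algebraMap k₀ T.F c) y₀)
    (h₁ : (T.P T.sub).R (x * algebraMap k₀ T.F c') y₁) :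
    (T.P T.top).R (T.NmA x * algebraMap k₀ T.F c * algebraMap k₀ T.F c' ^ (q - 1))
      (y₀ * y₁ ^ (q - 1)) := by
  have e : T.φ T.top (T.NmA x * algebraMap k₀ T.F c * algebraMap k₀ T.F c' ^ (q - 1)) =
      ∏ i : Fin q, (T.sgT i (T.bK x) *
        (if i = 0 then algebraMap K (LaurentSeries K) (algebraMap k₀ K c)
          else algebraMap K (LaurentSeries K) (algebraMap k₀ K c'))) := by
    rw [Finset.prod_mul_distrib, prod_fin_ite, map_mul, map_mul, map_pow, φ_const, φ_const,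
      φ_top_NmA, mul_assoc]
  rw [P_R, e, ← prod_fin_ite (q := q) y₀ y₁]
  refine LR_prod _ fun i => ?_
  split_ifs with h
  · subst h
    rw [P_R, map_mul, φ_const, φ_top] at h₀
    rw [T.sgT_dvd (by simp)]
    exact h₀
  · have h2 := R_sgT hG (fin_ne h) h₁
    have h3 : T.sgT i (T.bK (x * algebraMap k₀ T.F c')) = T.sgT i (T.bK x) *
        algebraMap K (LaurentSeries K) (algebraMap k₀ K c') := by
      rw [bK, map_mul, map_mul, bc_const, (T.sgT_spec (fin_ne h)).const]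
    rwa [h3] at h2

end Gal

/-! ### the second norm -/

/-- **the norm along `f(z) ↦ f(qz)`** -/
theorem R_NmB {b : Fin (a + 1)} (hb : a < 2 * (b : ℕ)) {x : T.F} {y : LaurentSeries κ}
    (h : (T.P b).R x y) : (T.P b).R (T.NmB x) (y ^ q) := by
  haveI := S.charZero₀
  have ha := T.ha
  have hy : y ^ q = ∏ _i : Fin q, y := by
    rw [Finset.prod_const, Finset.card_univ, Fintype.card_fin]
  rw [hy]
  refine T.LR_norm (Carayol.exN k₀ q (h_exA T.ha1)) T.finrank_exA₀ b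
    (fun i : Fin q => (twist (S.ζ ^ (i : ℕ))).comp (T.φ b)) (fun i => ?_) ?_ (fun i => ?_)
  · apply RingHom.ext
    intro z
    rw [RingHom.comp_apply, RingHom.comp_apply, RingHom.comp_apply, φ_apply, T.bc_exN]
    obtain ⟨u, hu⟩ := (T.hsg b).ex_high S.hq T.ha1 hb (bc S.cK _ z)
    rw [hu, pow_qExpand_aux]
  · intro i j hij
    have h1 : twist (S.ζ ^ (i : ℕ)) (T.φ b T.j0) = twist (S.ζ ^ (j : ℕ)) (T.φ b T.j0) :=
      congrArg (fun φ : T.F →+* LaurentSeries K => φ T.j0) hij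
    have e0 : ee a b 0 = 0 := by rw [ee]; split_ifs <;> omega
    rw [T.φ_jj, Carayol.qExpand_congr (d' := 1) (by rw [e0, pow_zero]), qExpand_one_apply,
      eta_le (Nat.zero_le _), twist_one] at h1
    have h2 := congrArg (fun z : LaurentSeries K => z.coeff (-1)) h1
    simp only [twist_coeff, ModularCurve.coeff_jqModC_neg_one, mul_one, zpow_neg, zpow_one,
      Units.val_inv_eq_inv_val] at h2
    have h3 := inv_injective h2
    rw [Units.val_pow_eq_pow_val, Units.val_pow_eq_pow_val] at h3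
    exact ζ_pow_inj h3
  · rw [RingHom.comp_apply]
    refine R_twist_root S (n := 1) ?_ h
    rw [pow_one, ← pow_mul, mul_comm, pow_mul, ζ_pow, one_pow]

/-! ### the first chart -/

theorem inc_constA (c : S.A₀) :
    Carayol.inc k₀ h_incA (algebraMap S.A₀ (FF k₀ (q ^ (a - 1) * M')) c) =
      algebraMap S.A₀ (FF k₀ (q ^ a * M')) c := inc_const h_incA (c : k₀)

theorem exN_constA (c : S.A₀) :
    Carayol.exN k₀ q (h_exA T.ha1) (algebraMap S.A₀ (FF k₀ (q ^ (a - 1) * M')) c) =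
      algebraMap S.A₀ (FF k₀ (q ^ a * M')) c := exN_const q _ (c : k₀)

theorem NmA_icrA {x : T.F} {t : FF k₀ (q ^ (a - 1) * M')}
    (hx : x ∈ icr S.A₀ (Carayol.inc k₀ h_incA t)) :
    T.NmA x ∈ icr S.A₀ (Carayol.inc k₀ h_incA t) :=
  icr_map (RingHom.id S.A₀) (Carayol.inc k₀ (h_incA (q := q) (M' := M') (a := a)))
    (fun c => inc_constA c) (norm_icrR (Carayol.inc k₀ h_incA) (fun c => inc_constA c) hx)

theorem NmB_icrA {x : T.F} {t : FF k₀ (q ^ (a - 1) * M')}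
    (hx : x ∈ icr S.A₀ (Carayol.exN k₀ q (h_exA T.ha1) t)) :
    T.NmB x ∈ icr S.A₀ (Carayol.exN k₀ q (h_exA T.ha1) t) :=
  icr_map (RingHom.id S.A₀) (Carayol.exN k₀ q (h_exA (q := q) (M' := M') T.ha1))
    (fun c => T.exN_constA c)
    (norm_icrR (Carayol.exN k₀ q (h_exA T.ha1)) (fun c => T.exN_constA c) hx)

theorem exM_congr {k k' : ℕ} (h : k = k') (hk : k ≤ a) (hk' : k' ≤ a) (f : FF k₀ M') :
    T.exM k hk f = T.exM k' hk' f := by
  subst h; rfl

theorem inc_j : Carayol.inc k₀ h_incA (jel k₀ 1 (one_dvd (q ^ (a - 1) * M'))) = T.j0 := by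
  apply Subtype.ext
  rw [coe_inc, coe_jel, T.coe_j0, qExpand_one_apply]

include T in
theorem dvd_q1 : q ∣ q ^ (a - 1) * M' := by
  have := T.ha
  exact (dvd_pow_self q (by omega)).trans (Dvd.intro _ rfl)

theorem exN_jq : Carayol.exN k₀ q (h_exA T.ha1) (jel k₀ q T.dvd_q1) = T.jj 2 T.ha2 := by
  apply Subtype.ext
  rw [coe_exN, coe_jel, coe_jj, qExpand_qExpand]
  exact Carayol.qExpand_congr (sq q).symm _

theorem NmA_B0 {x : T.F} (hx : x ∈ T.B0) : T.NmA x ∈ T.B0 := by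
  have h := T.NmA_icrA (x := x) (t := jel k₀ 1 (one_dvd _)) (by rw [T.inc_j]; exact hx)
  rwa [T.inc_j] at h

theorem NmB_B0 {x : T.F} (hx : x ∈ T.B0) : T.NmB x ∈ T.B0 := by
  have h1 : x ∈ icr S.A₀ (T.jj 2 T.ha2) := icr_le (T.j0_int 2 T.ha2 (by norm_num)) hx
  have h := T.NmB_icrA (x := x) (t := jel k₀ q T.dvd_q1) (by rw [T.exN_jq]; exact h1)
  rw [T.exN_jq] at h
  exact icr_le (T.jj_int 2 T.ha2) h

section Gal

variable {T}

theorem NmA_r (hG : T.HasGalA) {b : Fin (a + 1)} (hb : (b : ℕ) + 2 ≤ a) {x : T.F}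
    (h : x ∈ (T.C b).O) : T.NmA x ∈ (T.C b).O ∧ (T.C b).r (T.NmA x) = (T.C b).r x ^ q := by
  have h := R_NmA hG hb (C_spec (mem_C.1 h))
  exact ⟨mem_C.2 ⟨_, h⟩, C_r h⟩

theorem NmB_r {b : Fin (a + 1)} (hb : a ≤ (b : ℕ) + 1) {x : T.F}
    (h : x ∈ (T.C b).O) : T.NmB x ∈ (T.C b).O ∧ (T.C b).r (T.NmB x) = (T.C b).r x ^ q := by
  have ha := T.ha
  have h := T.R_NmB (b := b) (by omega) (C_spec (mem_C.1 h))
  exact ⟨mem_C.2 ⟨_, h⟩, C_r h⟩

theorem NmA_top (hG : T.HasGalA) (x : T.F) (h₀ : x ∈ (T.C T.top).O) (h₁ : x ∈ (T.C T.sub).O) :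
    T.NmA x ∈ (T.C T.top).O ∧
      (T.C T.top).r (T.NmA x) = (T.C T.top).r x * (T.C T.sub).r x ^ (q - 1) := by
  have h := R_top_NmA hG (C_spec (mem_C.1 h₀)) (C_spec (mem_C.1 h₁))
  exact ⟨mem_C.2 ⟨_, h⟩, C_r (z := (T.C T.top).r x * (T.C T.sub).r x ^ (q - 1)) h⟩

theorem NmA_sub {x : T.F} (h : T.NmA x ∈ (T.C T.top).O) :
    T.NmA x ∈ (T.C T.sub).O ∧ (T.C T.sub).r (T.NmA x) = (T.C T.top).r (T.NmA x) := by
  have h := T.R_sub_NmA (C_spec (mem_C.1 h))
  exact ⟨mem_C.2 ⟨_, h⟩, C_r h⟩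

variable (T) in
/-- the first norm satisfies the conditions -/
theorem normG_A (hG : T.HasGalA) : NormG T.C T.B0 q T.NmA {b | (b : ℕ) + 2 ≤ a} where
  mem _ hx := T.NmA_B0 hx
  r _ hb _ hx := NmA_r hG hb hx

variable (T) in
/-- the second norm satisfies the conditions -/
theorem normG_B : NormG T.C T.B0 q T.NmB {b | a ≤ (b : ℕ) + 1} where
  mem _ hx := T.NmB_B0 hx
  r _ hb _ hx := NmB_r hb hx

variable (T) in
/-- functions with the same value on the first two components -/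
theorem hts (y : S.𝓕) (hy : y ∈ S.R0) :
    ∃ x ∈ T.B0, (T.C T.top).r x = y ∧ (T.C T.sub).r x = y := by
  obtain ⟨f, hf, hfy⟩ := S.lift0 y hy
  have ha := T.ha
  refine ⟨T.exM 0 (Nat.zero_le _) f, exM_B0 _ _ hf hfy, ?_, ?_⟩
  · have h := T.R_exM_kk T.top hfy
    have e : kk a (T.top : ℕ) = 0 := by
      rw [kk, if_pos]
      change a ≤ 2 * a
      omega
    have e2 : T.exM (kk a (T.top : ℕ)) (kk_le _) f = T.exM 0 (Nat.zero_le _) f :=
      T.exM_congr e _ _ f
    rw [e2] at h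
    exact C_r h
  · have h := T.R_exM_kk T.sub hfy
    have e : kk a (T.sub : ℕ) = 0 := by
      rw [kk, if_pos]
      change a ≤ 2 * (a - 1)
      omega
    have e2 : T.exM (kk a (T.sub : ℕ)) (kk_le _) f = T.exM 0 (Nat.zero_le _) f :=
      T.exM_congr e _ _ f
    rw [e2] at h
    exact C_r h

end Gal

end SitA

end Fermat.Agent.CarG
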