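import Fermat.Agent.CarG.S45Of
import Fermat.Agent.S44
import Fermat.Agent.TWPr.TWSel
import Fermat.Agent.TWInst.Final
import Fermat.Agent.MazurP.Final
import Fermat.Agent.SSMod.Ram
import Fermat.Agent.CarayolY.Main
import Fermat.Agent.Carayol.K0Thm

/-!
# S45 from the function field form of Carayol's theorem at `q ^ a`, `a ≥ 3`
-/

set_option autoImplicit false

namespace Fermat.Agent.CarG

open WeierstrassCurve WeierstrassCurve.Affine WeierstrassCurve.Affine.Point

/-- a modular Frey curve has reducible mod `p` representation -/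
theorem false_of_modular (HG : CarayolGen) (P : FreyPackage) (hmod : P.freyCurve.IsModular)
    (hirr : GaloisRepIsIrreducible (K := AlgebraicClosure ℚ) ℚ P.freyCurve P.p) : False :=
  S43Glue.s43_of
    (fun P _ hc hp hi hm => S44.result P hc hp hi hm)
    (fun p _ hp5 => MazurP.mazurPrinciple p hp5)
    (fun p _ hp5 => TWInst.twCore_of hp5 (TWPr.twSel hp5)
      (CarayolY.carayolCore_of Carayol.carayolK0))
    (fun p _ _ => SSMod.newformRamified p) P (isConductorLevel_frey P) hirr
    (modularRep_frey (CarayolY.carayolCore_of Carayol.carayolK0) HG P hmod)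

/-- **S45** -/
theorem s45_of (HG : CarayolGen) (P : FreyPackage) (hmod : P.freyCurve.IsModular)
    (hirr : GaloisRepIsIrreducible (K := AlgebraicClosure ℚ) ℚ P.freyCurve P.p) :
    ∃ f : CuspForm (CongruenceSubgroup.Gamma0 2) 2, f ≠ 0 :=
  (false_of_modular HG P hmod hirr).elim

/-- **S06** from S04 -/
theorem s06_of (HG : CarayolGen) (P : FreyPackage) (hmod : P.freyCurve.IsModular) :
    ∃ N : ℕ, P.IsConductorLevel N ∧ P.ModularRepOfLevel N :=
  ⟨_, isConductorLevel_frey P,
    modularRep_frey (CarayolY.carayolCore_of Carayol.carayolK0) HG P hmod⟩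

end Fermat.Agent.CarG
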