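import Fermat.Agent.S58X.Main
import Fermat.Agent.CarG.Main
import Fermat.Agent.S43Glue.Model
import Fermat.Agent.Maz.FreyFin
import Fermat.Agent.S43Glue.Main

/-!
# Modularity at the conductor level, and S45
-/

set_option autoImplicit false
set_option linter.style.haveILetI false
set_option maxHeartbeats 400000

noncomputable section

namespace Fermat.Agent.CarG

open Fermat.Agent.DefRing IsLocalRing Matrix Fermat.Agent.GalRep Fermat.Agent.GalRep.HData
open CuspForm Polynomial Fermat.Agent.AnJac Fermat.Agent.HeckeQ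
open ModularFormClass (qCoeff)
open WeierstrassCurve

local notation "Qbar" => AlgebraicClosure ℚ
local notation "GQ" => Qbar ≃ₐ[ℚ] Qbar

section Cases

variable {M : ℕ} [NeZero M] {g : CuspForm (CongruenceSubgroup.Gamma0 M) 2}
  {W : WeierstrassCurve ℤ}
  (hΔ : W.Δ ≠ 0) {S' : Set ℕ} (hS' : S'.Finite)
  (ha : ∀ ℓ : ℕ, ℓ.Prime → ℓ ∉ S' → qCoeff g ℓ = ((W.apOfModel ℓ : ℤ) : ℂ))

include hΔ hS' ha

/-- the cube of a prime does not divide the level -/
theorem factorization_lt_three (HG : CarayolGen) (hg : g.IsNewform)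
    (hss : W.IsSemistableModel) {q : ℕ} (hq : q.Prime) : M.factorization q < 3 := by
  by_contra h2
  push Not at h2
  obtain ⟨lam, hlam, hlam2, hql⟩ := S58X.exists_lam q
  haveI : Fact lam.Prime := ⟨hlam⟩
  obtain ⟨B, i1, i2, i3, i4, i5, ⟨P⟩⟩ := S58X.exists_pack hg lam
  obtain ⟨A, hA, -⟩ := Frob.exists_place_frobenius hq
  exact not_unipotent HG hg ∅ P.hp P.chig P.hchig P.iota P.hT P.hfr hq hql h2 hA
    fun σ hσ => P.inertia hΔ hS' ha hss hq hql hlam2 hA hσ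

end Cases

/-- **Modularity at the conductor level** -/
theorem conductor_of (HC : Carayol.CarayolCore) (HG : CarayolGen) (W : WeierstrassCurve ℤ)
    (hΔ : W.Δ ≠ 0) (hss : W.IsSemistableModel) {N : ℕ} [NeZero N]
    {f : CuspForm (CongruenceSubgroup.Gamma0 N) 2} (hf : f.IsNormalizedEigenform)
    {S' : Set ℕ} (hS' : S'.Finite)
    (hfW : ∀ ℓ : ℕ, ℓ.Prime → ¬ ℓ ∣ N → ℓ ∉ S' → qCoeff f ℓ = ((W.apOfModel ℓ : ℤ) : ℂ)) :
    W.IsModularModelOfLevel W.conductorLevel := by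
  have hN0 : N ≠ 0 := NeZero.ne N
  obtain ⟨M, hM, g, hg, hgf⟩ := Newform.exists_newform hf
  haveI : NeZero M := ⟨fun h => hN0 (Nat.eq_zero_of_zero_dvd (h ▸ hM))⟩
  have ha : ∀ ℓ : ℕ, ℓ.Prime → ℓ ∉ ({ℓ | ℓ ∣ N} ∪ S') →
      qCoeff g ℓ = ((W.apOfModel ℓ : ℤ) : ℂ) := by
    intro ℓ hℓ hℓN
    rw [Set.mem_union, not_or] at hℓN
    have hℓN' : ¬ ℓ ∣ N := hℓN.1
    rw [hgf ℓ hℓ hℓN', hfW ℓ hℓ hℓN' hℓN.2]
  have hfin : ({ℓ | ℓ ∣ N} ∪ S').Finite := ((Set.finite_le_nat N).subset fun ℓ hℓ =>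
    Nat.le_of_dvd (Nat.pos_of_ne_zero hN0) hℓ).union hS'
  have hsq : ∀ q : ℕ, q.Prime → ¬ q ^ 2 ∣ M := by
    intro q hq h2
    have h3 : 2 ≤ M.factorization q := (hq.pow_dvd_iff_le_factorization (NeZero.ne M)).mp h2
    have h4 := factorization_lt_three hΔ hfin ha HG hg hss hq
    exact S58X.factorization_ne_two hΔ hfin ha HC hg hss hq (by omega)
  have hMc : M ∣ W.conductorLevel := by
    have hsqf : Squarefree M := by
      rw [Nat.squarefree_iff_prime_squarefree]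
      intro q hq h
      exact hsq q hq (by rwa [pow_two])
    rw [← Nat.prod_primeFactors_of_squarefree hsqf]
    refine Finset.prod_primes_dvd _ (fun q hq => (Nat.prime_of_mem_primeFactors hq).prime) ?_
    intro q hq
    have hqp := Nat.prime_of_mem_primeFactors hq
    rw [prime_dvd_conductorLevel_iff W hΔ hqp]
    exact S58X.bad_of_exact hΔ hfin ha hg hqp (Nat.dvd_of_mem_primeFactors hq) (hsq q hqp)
  obtain ⟨h, hh, hhg⟩ := S58X.exists_eigenform_of_dvd hg.1 hMc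
  refine ⟨h, hh, fun ℓ hℓ hW hℓc => ?_⟩
  rw [hhg ℓ hℓ hℓc]
  exact S58X.qCoeff_eq hΔ hfin ha hg hℓ (fun h => hℓc (h.trans hMc)) hW

section Frey

open WeierstrassCurve.Affine.Point

theorem isModularModel_frey (HC : Carayol.CarayolCore) (HG : CarayolGen) (P : FreyPackage)
    (hmod : P.freyCurve.IsModular) :
    P.freyCurveInt.IsModularModelOfLevel P.freyCurveInt.conductorLevel := by
  obtain ⟨W, ⟨C, hC⟩, N, hN, f, hf, hfW⟩ := hmod
  haveI : NeZero N := ⟨hN.ne'⟩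
  have hΔ := Maz.FreyS.int_Δ_ne P
  rw [← Maz.FreyS.int_map P] at hC
  obtain ⟨S, hS, hSW⟩ := S43Glue.apOfModel_eq C hC hΔ
  have hWΔ : W.Δ ≠ 0 := by
    intro h0
    have h1 := congrArg WeierstrassCurve.Δ hC
    rw [WeierstrassCurve.variableChange_Δ, WeierstrassCurve.map_Δ, WeierstrassCurve.map_Δ, h0,
      _root_.map_zero] at h1
    rcases mul_eq_zero.mp h1 with h2 | h2
    · exact (pow_ne_zero 12 (Units.ne_zero C.u⁻¹)) (by exact_mod_cast h2)
    · exact hΔ (by simpa using h2)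
  have hfin : {ℓ : ℕ | (ℓ : ℤ) ∣ W.Δ}.Finite :=
    (Set.finite_le_nat W.Δ.natAbs).subset fun ℓ hℓ =>
      Nat.le_of_dvd (Int.natAbs_pos.mpr hWΔ) (Int.natCast_dvd.mp hℓ)
  refine conductor_of HC HG P.freyCurveInt hΔ (fun p hp h => Maz.FreyS.semistable P hp h) hf
    (hS.union hfin) fun ℓ hℓ hℓN hℓS => ?_
  rw [Set.mem_union, not_or] at hℓS
  rw [hfW ℓ hℓ hℓS.2 hℓN, hSW ℓ hℓ hℓS.1]

theorem isConductorLevel_frey (P : FreyPackage) :
    P.IsConductorLevel P.freyCurveInt.conductorLevel where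
  pos := conductorLevel_pos _
  squarefree := squarefree_conductorLevel _
  support := by
    intro q hq hqN
    rw [prime_dvd_conductorLevel_iff _ (Maz.FreyS.int_Δ_ne P) hq, Maz.FreyS.int_Δ] at hqN
    have hI : Prime (q : ℤ) := Nat.prime_iff_prime_int.mp hq
    rcases hI.dvd_or_dvd hqN with h | h
    · have h1 := hI.dvd_of_dvd_pow h
      have h2 : (q : ℤ) ∣ 16 * P.freyCurveInt.a₄ := h1.mul_left _
      rw [Maz.FreyS.a4_eq] at h2
      rcases hI.dvd_or_dvd h2 with h3 | h3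
      · rw [dvd_neg] at h3
        exact ((hI.dvd_of_dvd_pow h3).mul_right _).mul_right _
      · exact ((hI.dvd_of_dvd_pow h3).mul_left _).mul_right _
    · exact (hI.dvd_of_dvd_pow (hI.dvd_of_dvd_pow h)).mul_left _

theorem modularRep_frey (HC : Carayol.CarayolCore) (HG : CarayolGen) (P : FreyPackage)
    (hmod : P.freyCurve.IsModular) : P.ModularRepOfLevel P.freyCurveInt.conductorLevel := by
  obtain ⟨f, hf, hfW⟩ := isModularModel_frey HC HG P hmod
  obtain ⟨𝔪, h𝔪, hp𝔪⟩ := FLTPrelim.exists_maximalIdeal_natCast_prime_mem P.pp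
  refine ⟨f, P.freyCurveInt, 𝔪, hf, ⟨1, by rw [one_smul, Maz.FreyS.int_map]⟩, h𝔪, hp𝔪, ?_⟩
  intro ℓ hℓ hW hℓN _
  refine ⟨((P.freyCurveInt.apOfModel ℓ : ℤ) : integralClosure ℤ ℂ), ?_, ?_⟩
  · rw [hfW ℓ hℓ hW hℓN]
    push_cast
    rfl
  · rw [sub_self]
    exact zero_mem _

end Frey

end Fermat.Agent.CarG
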