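import Fermat.Agent.CarG.Cht1A
import Fermat.Agent.Carayol.Set1

/-!
# Easy properties of the charts at level `q ^ a * M'`
-/

set_option autoImplicit false
set_option linter.unusedSectionVars false
set_option linter.style.haveILetI false
set_option synthInstance.maxHeartbeats 400000

noncomputable section

namespace Fermat.Agent.CarG

open ModularCurve Fermat.Agent.GoodRed Fermat.Agent.ModFun Fermat.Agent.GenusX0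
open Fermat.Agent.Models IsLocalRing Polynomial IntermediateField Fermat.Agent.Carayol
open Fermat.Agent.SSMod AlgebraicCurve Fermat.Agent.Curves

namespace SitA

variable {k₀ K κ : Type} [Field k₀] [Field K] [Field κ] [Algebra k₀ K] {q M' : ℕ}
  [NeZero q] [NeZero M'] {S : Sit k₀ K κ q M'} {a : ℕ} (T : SitA S a)

theorem res_aux {t : T.F} {𝔪 : Ideal (icr S.A₀ t)}
    (hϖ : (⟨algebraMap S.A₀ T.F ((q : ℕ) : S.A₀), const_mem_icr _ _⟩ : icr S.A₀ t) ∈ 𝔪) (c : S.A₀)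
    (hc : S.π₀ c = 0) : (⟨algebraMap S.A₀ T.F c, const_mem_icr t c⟩ : icr S.A₀ t) ∈ 𝔪 := by
  have h1 := S.div_q c c.2 hc
  have h2 : (⟨algebraMap S.A₀ T.F c, const_mem_icr t c⟩ : icr S.A₀ t) =
      ⟨algebraMap S.A₀ T.F ⟨_, h1⟩, const_mem_icr t _⟩ *
        ⟨algebraMap S.A₀ T.F ((q : ℕ) : S.A₀), const_mem_icr _ _⟩ := by
    apply Subtype.ext
    change algebraMap S.A₀ T.F c = algebraMap S.A₀ T.F ⟨_, h1⟩ * algebraMap S.A₀ T.F (q : S.A₀)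
    rw [← map_mul]
    congr 1
    apply Subtype.ext
    push_cast
    rw [mul_comm, mul_inv_cancel_left₀ S.q_ne]
  rw [h2]
  exact 𝔪.mul_mem_left _ hϖ

theorem res0 (𝔪 : Ideal T.B0) (h𝔪 : 𝔪.IsMaximal)
    (hϖ : (⟨algebraMap S.A₀ T.F ((q : ℕ) : S.A₀), T.two.c0.ϖ_mem⟩ : T.B0) ∈ 𝔪) (b : T.B0) :
    ∃ c : S.A₀, b - ⟨algebraMap S.A₀ T.F c, T.two.A_mem0 c⟩ ∈ 𝔪 := by
  haveI : IsAlgClosed κ := S.acκ
  exact icr_residue S.π₀s h𝔪 (T.res_aux hϖ) b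

theorem res1 (𝔪 : Ideal T.B1) (h𝔪 : 𝔪.IsMaximal)
    (hϖ : (⟨algebraMap S.A₀ T.F ((q : ℕ) : S.A₀), T.two.c1.ϖ_mem⟩ : T.B1) ∈ 𝔪) (b : T.B1) :
    ∃ c : S.A₀, b - ⟨algebraMap S.A₀ T.F c, T.two.A_mem1 c⟩ ∈ 𝔪 := by
  haveI : IsAlgClosed κ := S.acκ
  exact icr_residue S.π₀s h𝔪 (T.res_aux hϖ) b

theorem inc1 (h0 : ∀ i j, i ≠ j → ∃ x : T.F, x ∈ T.B0 ∧ (T.C j).r x = 0 ∧ (T.C i).r x ≠ 0)
    (i j : Fin (a + 1)) (h : i ≠ j) : ∃ x : T.F, x ∈ T.B1 ∧ (T.C j).r x = 0 ∧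
    (T.C i).r x ≠ 0 := by
  obtain ⟨x, hx, h1, h2⟩ := h0 i j h
  obtain ⟨n, hn⟩ := T.two.ov0 x hx
  refine ⟨_, hn, ?_, ?_⟩
  · rw [Res.r_mul (pow_mem (T.jji_memC j 0 _) _) ((T.mem_B0.1 hx).2 j), h1, mul_zero]
  · rw [Res.r_mul (pow_mem (T.jji_memC i 0 _) _) ((T.mem_B0.1 hx).2 i),
      Res.r_pow (T.jji_memC i 0 _), Res.r_inv (T.r_jj_ne i 0 _)]
    exact mul_ne_zero (pow_ne_zero _ (inv_ne_zero (T.r_jj_ne i 0 _))) h2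

theorem ss_one {𝔪 : Ideal T.B1} {b : Fin (a + 1)} (h : T.two.c1.P b ≤ 𝔪) (k : ℕ) (hk : k ≤ a)
    (hkb : k ≤ b) : (⟨T.ss k hk, T.ss_B1 k hk⟩ : T.B1) - 1 ∈ 𝔪 := by
  apply h
  rw [T.two.c1.mem_P]
  push_cast
  rw [Res.r_sub ((T.mem_B1.1 (T.ss_B1 k hk)).2 b) (one_mem _), Res.r_one,
    T.r_ss_one b k hk hkb, sub_self]

theorem ss_mem {𝔪 : Ideal T.B1} (h𝔪 : 𝔪.IsPrime) (ht : (⟨T.j0⁻¹, T.two.t_mem'⟩ : T.B1) ∈ 𝔪)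
    {b : Fin (a + 1)} (h : T.two.c1.P b ≤ 𝔪) (k : ℕ) (hk : k ≤ a)
    (hkb : (b : ℕ) < k) : (⟨T.ss k hk, T.ss_B1 k hk⟩ : T.B1) ∈ 𝔪 := by
  obtain ⟨n, hn, hr⟩ := T.r_ss_far b k hk hkb
  have h1 : (⟨T.ss k hk, T.ss_B1 k hk⟩ : T.B1) ^ q ^ ee a b 0 -
      (⟨T.j0⁻¹, T.two.t_mem'⟩ : T.B1) ^ n ∈ 𝔪 := by
    apply h
    rw [T.two.c1.mem_P]
    push_cast
    rw [Res.r_sub (pow_mem ((T.mem_B1.1 (T.ss_B1 k hk)).2 b) _)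
      (pow_mem (T.jji_memC b 0 _) _), hr, sub_self]
  have h2 := 𝔪.add_mem h1 (𝔪.pow_mem_of_mem ht n hn)
  rw [sub_add_cancel] at h2
  exact h𝔪.mem_of_pow_mem _ h2

theorem meet1 (𝔪 : Ideal T.B1) (h𝔪 : 𝔪.IsMaximal)
    (ht : (⟨T.j0⁻¹, T.two.t_mem'⟩ : T.B1) ∈ 𝔪) (i j : Fin (a + 1)) (hi : T.two.c1.P i ≤ 𝔪)
    (hj : T.two.c1.P j ≤ 𝔪) : i = j := by
  have hp := h𝔪.isPrime
  have key : ∀ i j : Fin (a + 1), i < j → T.two.c1.P i ≤ 𝔪 → T.two.c1.P j ≤ 𝔪 → False := by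
    intro i j hij hi hj
    have hja : (j : ℕ) ≤ a := Nat.lt_succ_iff.1 j.2
    have h1 := T.ss_one hj j hja le_rfl
    have h2 := T.ss_mem hp ht hi j hja hij
    have h3 := 𝔪.sub_mem h2 h1
    rw [sub_sub_cancel] at h3
    exact hp.one_notMem h3
  rcases lt_trichotomy i j with h | h | h
  · exact (key i j h hi hj).elim
  · exact h
  · exact (key j i h hj hi).elim

end SitA

end Fermat.Agent.CarG
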