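import Fermat.Agent.CarG.ChtA
import Fermat.Agent.CarG.Abs
import Fermat.Agent.Carayol.Meet

/-!
# The `Δ`-units at level `q ^ a * M'` and the crossing points of the components
-/

set_option autoImplicit false
set_option linter.unusedSectionVars false
set_option linter.style.haveILetI false
set_option synthInstance.maxHeartbeats 400000

noncomputable section

namespace Fermat.Agent.CarG

open ModularCurve Fermat.Agent.GoodRed Fermat.Agent.ModFun Fermat.Agent.GenusX0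
open Fermat.Agent.Models IsLocalRing Polynomial IntermediateField Fermat.Agent.Carayol
open Fermat.Agent.SSMod

section Lvl2

variable {k₀ K κ : Type} [Field k₀] [Field K] [Field κ] [Algebra k₀ K] {q M' : ℕ}
  [NeZero q] [NeZero M'] (S : Sit k₀ K κ q M')

/-- the unit of level `q²` vanishing exactly at the component `c` -/
def u3 (c : Fin 3) : S.F := if c = 0 then S.δ2 else if c = 1 then S.cc else S.δ1

/-- the complementary unit -/
def u3' (c : Fin 3) : S.F :=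
  if c = 0 then S.δ1 * S.cc else if c = 1 then S.δ1 * S.δ2 else S.δ2 * S.cc

theorem u3_mul (c : Fin 3) : u3 S c * u3' S c = algebraMap k₀ S.F S.ϖ ^ 12 := by
  rw [← S.cc_spec, u3, u3']
  fin_cases c <;> simp <;> ring

theorem u3_B0 (c : Fin 3) : u3 S c ∈ S.B0 := by
  rw [u3]
  split_ifs
  exacts [S.δ2_B0, S.cc_B0, S.δ1_B0]

theorem u3'_B0 (c : Fin 3) : u3' S c ∈ S.B0 := by
  rw [u3']
  split_ifs
  exacts [mul_mem S.δ1_B0 S.cc_B0, mul_mem S.δ1_B0 S.δ2_B0, mul_mem S.δ2_B0 S.cc_B0]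

theorem cci_icr : S.cc⁻¹ ∈ icr k₀ S.j1 := by
  have h1 : S.cc⁻¹ = (algebraMap k₀ S.F S.ϖ⁻¹) ^ 12 * (S.δ1 * S.δ2) := by
    rw [Sit.cc, mul_inv, inv_inv, map_inv₀, inv_pow]
  rw [h1]
  exact mul_mem (pow_mem (const_mem_icr _ _) _) (mul_mem S.δ1_icr S.δ2_icr)

theorem u3_icr (c : Fin 3) : u3 S c ∈ icr k₀ S.j1 := by
  rw [u3]
  split_ifs
  exacts [S.δ2_icr, S.cc_icr, S.δ1_icr]

theorem u3i_icr (c : Fin 3) : (u3 S c)⁻¹ ∈ icr k₀ S.j1 := by
  rw [u3]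
  split_ifs
  exacts [S.δ2i_icr, cci_icr S, S.δ1i_icr]

theorem u3_ne (c : Fin 3) : u3 S c ≠ 0 := by
  rw [u3]
  split_ifs
  exacts [S.δ2_ne, S.cc_ne, S.δ1_ne]

theorem R_cc (i : Fin 3) (hi : i ≠ 1) : (S.P i).R S.cc (S.dκ ^ (q - 1)) := by
  have h : ∀ i, S.cc ∈ (S.C i).O ∧ (S.C i).r S.cc = S.dR ^ (q - 1) →
      (S.P i).R S.cc (S.dκ ^ (q - 1)) := by
    intro i hi
    have h1 := S.C_spec (Sit.mem_C.1 hi.1)
    rw [hi.2] at h1
    exact h1
  fin_cases i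
  · exact h _ S.r0_cc
  · exact absurd rfl hi
  · exact h _ S.r2_cc

theorem u3_R {c i : Fin 3} (h : i ≠ c) : ∃ n, 1 ≤ n ∧ (S.P i).R (u3 S c) (S.dκ ^ n) := by
  have hq := S.hq.two_le
  rw [u3]
  split_ifs with h0 h1
  · subst h0
    refine ⟨1, le_rfl, ?_⟩
    rw [pow_one]
    fin_cases i
    · exact absurd rfl h
    · exact S.R1_δ2
    · exact S.R2_δ2
  · subst h1
    exact ⟨q - 1, by omega, R_cc S i h⟩
  · have h2 : c = 2 := by omega
    subst h2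
    refine ⟨1, le_rfl, ?_⟩
    rw [pow_one]
    fin_cases i
    · exact S.R0_δ1
    · exact S.R1_δ1
    · exact absurd rfl h

theorem u3_self (c : Fin 3) : ∃ y, y ≠ 0 ∧
    (S.P c).R ((algebraMap k₀ S.F S.ϖ)⁻¹ ^ 12 * u3 S c) y := by
  have hd := S.dκ_ne
  rw [u3]
  split_ifs with h0 h1
  · subst h0
    exact ⟨_, pow_ne_zero _ (inv_ne_zero hd), S.R0_δ2⟩
  · subst h1
    have h2 : (algebraMap k₀ S.F S.ϖ)⁻¹ ^ 12 * S.cc = (S.δ1 * S.δ2)⁻¹ := by
      rw [Sit.cc, ← mul_assoc, ← mul_pow, inv_mul_cancel₀ S.ϖ_ne, one_pow, one_mul]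
    rw [h2]
    have h3 : S.dκ * S.dκ ≠ 0 := mul_ne_zero hd hd
    exact ⟨_, inv_ne_zero h3, (S.P 1).inv ((S.P 1).mul S.R1_δ1 S.R1_δ2) h3⟩
  · have h2 : c = 2 := by omega
    subst h2
    exact ⟨_, pow_ne_zero _ (inv_ne_zero hd), S.R2_δ1⟩

theorem qExpand_dκ (n : ℕ) : qExpand κ (q ^ n) S.dκ = S.dκ ^ q ^ n := by
  haveI : Fact q.Prime := ⟨S.hq⟩
  haveI := S.charP
  have h1 : qExpand κ q S.dκ = S.dκ ^ q := by
    rw [pow_eq_qExpand, coeffMap_dSer]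
  induction n with
  | zero =>
    rw [Carayol.qExpand_congr (d' := 1) (pow_zero q), qExpand_one_apply, pow_zero, pow_one]
  | succ n ih =>
    have h2 : qExpand κ (q ^ (n + 1)) S.dκ = qExpand κ q (qExpand κ (q ^ n) S.dκ) := by
      rw [qExpand_qExpand]
      exact Carayol.qExpand_congr (pow_succ' q n) _
    rw [h2, ih, map_pow, h1, ← pow_mul, ← pow_succ']

end Lvl2

namespace SitA

variable {k₀ K κ : Type} [Field k₀] [Field K] [Field κ] [Algebra k₀ K] {q M' : ℕ}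
  [NeZero q] [NeZero M'] {S : Sit k₀ K κ q M'} {a : ℕ} (T : SitA S a)

/-- the position of the pair of steps at which the component `d` is special -/
def uk (a d : ℕ) : ℕ := if d = 0 then 0 else if d = a then a - 2 else d - 1

/-- the type of the special component -/
def ut (a d : ℕ) : Fin 3 := if d = 0 then 2 else if d = a then 0 else 1

include T in
theorem uk_le (d : Fin (a + 1)) : uk a d + 2 ≤ a := by
  have ha := T.ha
  have := Nat.lt_succ_iff.1 d.2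
  rw [uk]
  split_ifs <;> omega

include T in
theorem ty_uk {b d : Fin (a + 1)} : ty b (uk a d) = ut a d ↔ b = d := by
  have ha := T.ha
  have hb := Nat.lt_succ_iff.1 b.2
  have hd := Nat.lt_succ_iff.1 d.2
  rw [← Fin.val_inj, uk, ut, ty]
  split_ifs <;> simp <;> omega

/-- **the unit vanishing exactly at the component `d`** -/
def E (d : Fin (a + 1)) : T.F := T.δ (uk a d) (T.uk_le d) (u3 S (ut a d))

/-- the complementary unit -/
def E' (d : Fin (a + 1)) : T.F := T.δ (uk a d) (T.uk_le d) (u3' S (ut a d))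

theorem E_mul (d : Fin (a + 1)) : T.E d * T.E' d = T.ϖF ^ 12 := by
  rw [E, E', ← map_mul, u3_mul, map_pow, T.δ_const]

theorem E_B0 (d : Fin (a + 1)) : T.E d ∈ T.B0 := T.δ_B0 _ _ (u3_B0 S _)

theorem E'_B0 (d : Fin (a + 1)) : T.E' d ∈ T.B0 := T.δ_B0 _ _ (u3'_B0 S _)

theorem E_icr (d : Fin (a + 1)) : T.E d ∈ icr k₀ T.j0 := T.δ_B0' _ _ (u3_icr S _)

theorem Ei_icr (d : Fin (a + 1)) : (T.E d)⁻¹ ∈ icr k₀ T.j0 := by
  rw [E, ← map_inv₀]
  exact T.δ_B0' _ _ (u3i_icr S _)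

theorem E_ne (d : Fin (a + 1)) : T.E d ≠ 0 := (_root_.map_ne_zero _).2 (u3_ne S _)

/-- away from the component `d` the unit reduces to a power of `Δ` -/
theorem E_R {b d : Fin (a + 1)} (h : b ≠ d) : ∃ n, 1 ≤ n ∧ (T.P b).R (T.E d) (S.dκ ^ n) := by
  obtain ⟨n, hn, h1⟩ := u3_R S (c := ut a d) (i := ty b (uk a d)) fun h2 => h (T.ty_uk.1 h2)
  have h2 := T.R_δ b (uk a d) (T.uk_le d) h1
  rw [map_pow, qExpand_dκ, ← pow_mul] at h2
  exact ⟨_, Nat.mul_pos (T.qpos _) hn, h2⟩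

/-- at the component `d` -/
theorem E_self (d : Fin (a + 1)) : ∃ y, y ≠ 0 ∧ (T.P d).R (T.ϖF⁻¹ ^ 12 * T.E d) y := by
  obtain ⟨y, hy, h1⟩ := u3_self S (ut a d)
  rw [← T.ty_uk.2 (rfl : d = d)] at h1
  have h2 := T.R_δ d (uk a d) (T.uk_le d) h1
  rw [map_mul, map_pow, map_inv₀, T.δ_const, T.ty_uk.2 (rfl : d = d)] at h2
  exact ⟨_, qExp_ne _ hy, h2⟩

theorem E_zero (d : Fin (a + 1)) : (T.P d).R (T.E d) 0 := by
  obtain ⟨y, -, h⟩ := T.E_self d
  have h1 : T.E d = T.ϖF ^ 12 * (T.ϖF⁻¹ ^ 12 * T.E d) := by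
    rw [← mul_assoc, ← mul_pow, mul_inv_cancel₀ T.ϖ_ne, one_pow, one_mul]
  rw [h1]
  have h2 := (T.P d).mul (R_pow _ (T.R_ϖ d) 12) h
  rwa [zero_pow (by norm_num), zero_mul] at h2

theorem r_E_self (d : Fin (a + 1)) : (T.C d).r (T.E d) = 0 := C_r (T.E_zero d)

theorem r_E {b d : Fin (a + 1)} (h : b ≠ d) : ∃ n, 1 ≤ n ∧ (T.C b).r (T.E d) = S.dR ^ n := by
  obtain ⟨n, hn, h1⟩ := T.E_R h
  exact ⟨n, hn, C_r (z := S.dR ^ n) h1⟩

theorem r_E_ne {b d : Fin (a + 1)} (h : b ≠ d) : (T.C b).r (T.E d) ≠ 0 := by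
  obtain ⟨n, -, h1⟩ := T.r_E h
  rw [h1]
  exact pow_ne_zero _ S.dR_ne

/-- **components can be separated** -/
theorem inc0 (i j : Fin (a + 1)) (h : i ≠ j) :
    ∃ x : T.F, x ∈ T.B0 ∧ (T.C j).r x = 0 ∧ (T.C i).r x ≠ 0 :=
  ⟨T.E j, T.E_B0 j, T.r_E_self j, T.r_E_ne h⟩

section M

variable {𝔪 : Ideal T.B0}

theorem P_iff (h𝔪 : 𝔪.IsPrime) (d : Fin (a + 1)) :
    T.chart0.P d ≤ 𝔪 ↔ (⟨T.E d, T.E_B0 d⟩ : T.B0) ∈ 𝔪 := by
  constructor
  · intro h
    exact h ((T.chart0.mem_P).2 (T.r_E_self d))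
  · intro h
    refine T.chart0.P_le_of_mem h𝔪 h (n := 12) ⟨⟨T.E' d, T.E'_B0 d⟩, ?_⟩ fun i hi => T.r_E_ne hi
    apply Subtype.ext
    change (algebraMap S.A₀ T.F ((q : ℕ) : S.A₀)) ^ 12 = T.E d * T.E' d
    rw [T.E_mul, T.algebraMap_ϖ]

/-- **two components meet only where all of them meet** -/
theorem all0 (h𝔪 : 𝔪.IsMaximal) (i j : Fin (a + 1)) (hij : i ≠ j) (hi : T.chart0.P i ≤ 𝔪)
    (hj : T.chart0.P j ≤ 𝔪) (k : Fin (a + 1)) : T.chart0.P k ≤ 𝔪 := by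
  haveI := h𝔪
  have hp := h𝔪.isPrime
  rcases eq_or_ne i k with rfl | hik
  · exact hi
  have hmax : (𝔪.map (T.chart0.rho i)).IsMaximal :=
    (Ideal.map_eq_top_or_isMaximal_of_surjective _ (T.chart0.rho_surjective i) h𝔪).resolve_left
      (T.chart0.map_rho_ne_top hi)
  have hn := hmax.isPrime
  have key : ∀ d : Fin (a + 1), i ≠ d → (T.chart0.P d ≤ 𝔪 ↔ S.dB ∈ 𝔪.map (T.chart0.rho i)) := by
    intro d hd
    obtain ⟨n, hn1, h1⟩ := T.r_E hd
    have h2 : T.chart0.rho i ⟨T.E d, T.E_B0 d⟩ = S.dB ^ n := by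
      apply Subtype.ext
      rw [SubmonoidClass.coe_pow, T.chart0.rho_apply, S.two.c0.rho_apply]
      change (T.C i).r (T.E d) = (S.C 0).r S.δ1 ^ n
      rw [h1, S.r0_δ1]
    rw [T.P_iff hp]
    constructor
    · intro h
      have h3 := Ideal.mem_map_of_mem (T.chart0.rho i) h
      rw [h2] at h3
      exact hn.mem_of_pow_mem _ h3
    · intro h
      refine T.chart0.mem_of_rho_mem hi ?_
      rw [h2]
      exact Ideal.pow_mem_of_mem _ h _ hn1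
  exact (key k hik).2 ((key j hij).1 hj)

end M

end SitA

end Fermat.Agent.CarG
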