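import Fermat.Agent.CarG.Gen1A
import Fermat.Agent.CarG.UnitsA
import Fermat.Agent.CarG.FinA

/-!
# The setup at level `q ^ a * M'`
-/

set_option autoImplicit false
set_option linter.unusedSectionVars false
set_option linter.style.haveILetI false
set_option synthInstance.maxHeartbeats 400000

noncomputable section

namespace Fermat.Agent.CarG

open ModularCurve Fermat.Agent.GoodRed Fermat.Agent.ModFun Fermat.Agent.GenusX0
open Fermat.Agent.Models IsLocalRing Polynomial IntermediateField Fermat.Agent.Carayol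
open Fermat.Agent.SSMod AlgebraicCurve Fermat.Agent.Curves

namespace SitA

variable {k₀ K κ : Type} [Field k₀] [Field K] [Field κ] [Algebra k₀ K] {q M' : ℕ}
  [NeZero q] [NeZero M'] {S : Sit k₀ K κ q M'} {a : ℕ} (T : SitA S a)

/-- **the setup** -/
theorem setup (hpar : S.HasParam) :
    SetupG k₀ κ T.C T.B0 T.B1 S.R0 S.R1 T.j0 ((q : ℕ) : S.A₀) S.π₀ where
  toTwoCharts := T.two
  π_surj := S.π₀s
  r_alg i c := T.C_r_const i c
  inc0 := T.inc0
  inc1 := T.inc1 T.inc0
  R_closed0 _ _ hn h := icr_root hn h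
  R_closed1 _ _ hn h := icr_root hn h
  res0 := T.res0
  res1 := T.res1
  gen0 := T.gen0 hpar fun _ h𝔪 _ i j hij hi hj k => T.all0 h𝔪 i j hij hi hj k
  gen1 := T.gen1
  all0 _ h𝔪 _ i j hij hi hj k := T.all0 h𝔪 i j hij hi hj k
  meet1 𝔪 h𝔪 _ ht := T.meet1 𝔪 h𝔪 ht

end SitA

end Fermat.Agent.CarG
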