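import Fermat.Agent.CarG.Interface
import Fermat.Agent.Carayol.Ident

/-!
# The embeddings of the modular function field of level `q ^ a * M'`
-/

set_option autoImplicit false
set_option linter.unusedSectionVars false
set_option linter.style.haveILetI false

noncomputable section

namespace Fermat.Agent.CarG

open ModularCurve IntermediateField Fermat.Agent.GenusX0 Fermat.Agent.ModFun
open UpperHalfPlane Function.Periodic Fermat.Agent.Carayol
open scoped MatrixGroups

/-- the exponents -/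
def ee (a b k : ℕ) : ℕ := if k ≤ b then k + (a - 2 * b) else 2 * b + (a - 2 * b) - k

/-- the roots of unity -/
def eta {K : Type*} [Field K] (q a b k : ℕ) (Z : Kˣ) : Kˣ :=
  if k ≤ b then 1 else Z ^ q ^ (a - (k - b))

theorem ee_F {a b k : ℕ} (h : k < b) : ee a b (k + 1) = ee a b k + 1 := by
  rw [ee, ee, if_pos (Nat.succ_le_of_lt h), if_pos h.le]
  omega

theorem ee_V {a b k : ℕ} (h : b ≤ k) (hk : k < a) : ee a b k = ee a b (k + 1) + 1 := by
  rw [ee, ee, if_neg (by omega : ¬ k + 1 ≤ b)]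
  split_ifs with h1 <;> omega

theorem eta_le {K : Type*} [Field K] {q a b k : ℕ} (h : k ≤ b) (Z : Kˣ) : eta q a b k Z = 1 := by
  rw [eta, if_pos h]

theorem eta_V {K : Type*} [Field K] {q a b k : ℕ} (h : b ≤ k) (hk : k < a) {Z : Kˣ}
    (hZ : Z ^ q ^ a = 1) : eta q a b (k + 1) Z ^ q = eta q a b k Z := by
  rw [eta, eta, if_neg (by omega : ¬ k + 1 ≤ b)]
  split_ifs with h1
  · have : k = b := le_antisymm h1 h
    subst this
    rw [← pow_mul, ← pow_succ]
    have e : a - (k + 1 - k) + 1 = a := by omega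
    rw [e, hZ]
  · rw [← pow_mul, ← pow_succ]
    congr 2
    omega

/-- divisors of `q^a M'` -/
theorem dvd_casesA {q M' d a : ℕ} (hq : q.Prime) (h : d ∣ q ^ a * M') :
    ∃ k d₀, k ≤ a ∧ d₀ ∣ M' ∧ d = q ^ k * d₀ := by
  obtain ⟨y, z, hy, hz, rfl⟩ := Nat.dvd_mul.1 h
  obtain ⟨k, hk, rfl⟩ := (Nat.dvd_prime_pow hq).1 hy
  exact ⟨k, z, hk, hz, rfl⟩

instance neZero_pow_q {q a : ℕ} [NeZero q] : NeZero (q ^ a) := ⟨pow_ne_zero a (NeZero.ne q)⟩

instance neZero_level {q M' a : ℕ} [NeZero q] [NeZero M'] : NeZero (q ^ a * M') :=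
  ⟨mul_ne_zero (pow_ne_zero a (NeZero.ne q)) (NeZero.ne M')⟩

/-- the embeddings -/
structure IsSigA {K : Type*} [Field K] {q M' : ℕ} [NeZero q] [NeZero M'] (a b : ℕ) (Z : Kˣ)
    (s : FF K (q ^ a * M') →+* LaurentSeries K) : Prop where
  const : ∀ c : K, s (algebraMap K _ c) = algebraMap K _ c
  gen : ∀ (k d₀ d : ℕ) [NeZero d₀] [NeZero d] (hd : d ∣ q ^ a * M'), k ≤ a → d₀ ∣ M' →
        d = q ^ k * d₀ →
        s (jel K d hd) = ModularCurve.qExpand K (q ^ ee a b k)
          (twist (eta q a b k Z) (ModularCurve.qExpand K d₀ (jqModC K)))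

section Val

variable {k : Type*} [Field k] (ι : k →+* ℂ)

theorem fn_qExpand (n : ℕ) [NeZero n] (y : LaurentSeries k) (τ : ℍ) :
    fn ι (ModularCurve.qExpand k n y) τ = fn ι y (dm n τ) := by
  rw [fn, fn, coeffMap_qExpand, evf_qExpand]
  congr 1
  rw [qParam, qParam, ← Complex.exp_nat_mul, coe_dm]
  congr 1
  push_cast
  ring

theorem conv_aux (n : ℕ) [NeZero n] {y : LaurentSeries k} (hy : coeffMap ι y ∈ convLaurent) :
    coeffMap ι (ModularCurve.qExpand k n y) ∈ convLaurent := by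
  rw [coeffMap_qExpand]
  exact qExpand_mem_convLaurent n hy

end Val

section Sig

variable {K : Type*} [Field K] (ι : K →+* ℂ) {q M' : ℕ} [NeZero q] [NeZero M']

include ι in
/-- existence of the embeddings -/
theorem exists_sigA (hq : q.Prime) (hcop : Nat.Coprime q M') {a b : ℕ} (hb : b ≤ a) (Z : Kˣ)
    (hZ : IsPrimitiveRoot (Z : K) (q ^ a)) :
    ∃ s : FF K (q ^ a * M') →+* LaurentSeries K, IsSigA a b Z s := by
  have hq0 : 0 < q := hq.pos
  have hqa : q ^ a ≠ 0 := pow_ne_zero a hq0.ne'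
  -- the argument of `Z`
  have hZι : IsPrimitiveRoot (ι Z) (q ^ a) := hZ.map_of_injective ι.injective
  obtain ⟨β, hβq, hβcop, hβ⟩ := (Complex.isPrimitiveRoot_iff (ι Z) (q ^ a) hqa).1 hZι
  have hβ' : ι Z = Complex.exp (2 * Real.pi * Complex.I * ((β : ℤ) / ((q ^ a : ℕ) : ℂ))) := by
    rw [← hβ]; push_cast; rfl
  -- `i` with `i M' β ≡ 1`
  obtain ⟨i, δ, hi⟩ : ∃ i δ : ℤ, i * M' * β + q ^ a * δ = 1 := by
    have h1 : IsCoprime ((M' * β : ℕ) : ℤ) ((q ^ a : ℕ) : ℤ) := by
      rw [Nat.isCoprime_iff_coprime]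
      exact Nat.Coprime.mul_left (hcop.symm.pow_right a) hβcop
    obtain ⟨i, δ, h⟩ := h1
    refine ⟨i, δ, ?_⟩
    push_cast at h
    linear_combination h
  have hdet : (1 : ℤ) * 1 - 0 * (i * q ^ b * M') = 1 := by ring
  obtain ⟨g, hg⟩ : ∃ g, g = mkSL 1 0 (i * q ^ b * M') 1 hdet := ⟨_, rfl⟩
  have hden : ∀ τ : ℍ, ((i : ℂ) * q ^ b * M' * τ + 1) ≠ 0 := by
    intro τ
    have := lin_ne_zero (c := i * q ^ b * M') (d := 1) (Or.inr one_ne_zero) τ
    push_cast at this
    exact this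
  have hcoe : ∀ τ : ℍ, ((g • τ : ℍ) : ℂ) = (τ : ℂ) / ((i : ℂ) * q ^ b * M' * τ + 1) := by
    intro τ
    rw [hg, coe_mkSL_smul]
    push_cast
    ring
  have hqC : (q : ℂ) ≠ 0 := by exact_mod_cast NeZero.ne q
  -- the normalisation
  obtain ⟨s, hs⟩ : ∃ s, s = a - 2 * b := ⟨_, rfl⟩
  have hsa : s ≤ a := by omega
  obtain ⟨m, hm⟩ : ∃ m, m = q ^ (a - s) * M' := ⟨_, rfl⟩
  haveI : NeZero m := ⟨by
    rw [hm]; exact mul_ne_zero (pow_ne_zero _ hq0.ne') (NeZero.ne M')⟩
  have hsm : q ^ s * m = q ^ a * M' := by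
    rw [hm, ← mul_assoc, ← pow_add, Nat.add_sub_cancel' hsa]
  have hcu : cuspUD (q ^ s * m) = cuspUD (q ^ a * M') := by
    congr 1
  have hexp : ∀ {y : LaurentSeries K}, coeffMap ι y ∈ convLaurent →
      HasExp (cuspUD (q ^ a * M')) (fun τ => fn ι y (dv (q ^ s) τ))
        (ModularCurve.qExpand ℂ m (coeffMap ι y)) := by
    intro y hy
    have h1 := hasExp_dv ι (q ^ s) m hy
    rwa [hcu] at h1
  have hqτ : ∀ (e : ℕ) (τ : ℍ), ((dm (q ^ (e + s)) (dv (q ^ s) τ) : ℍ) : ℂ) = (q : ℂ) ^ e * τ := by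
    intro e τ
    rw [coe_dm, coe_dv]
    have : (q : ℂ) ^ s ≠ 0 := pow_ne_zero _ hqC
    push_cast
    rw [pow_add]
    field_simp
  -- values
  have hval : ∀ (k d₀ d : ℕ) [NeZero d₀] [NeZero d] (hd : d ∣ q ^ a * M'), k ≤ a → d₀ ∣ M' →
      d = q ^ k * d₀ → sigma ι (cuspUDN (q ^ a * M')) g (jel K d hd) =
        ModularCurve.qExpand ℂ m (coeffMap ι (ModularCurve.qExpand K (q ^ ee a b k)
          (twist (eta q a b k Z) (ModularCurve.qExpand K d₀ (jqModC K))))) := by
    intro k d₀ d _ _ hd hk hd₀ hdd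
    by_cases hkb : k ≤ b
    · rw [eta_le hkb, twist_one]
      refine sigma_jel_eq ι g hd (hexp (conv_aux ι _ (gen_conv ι d₀))) fun τ => ?_
      rw [fn_qExpand, fn_gen]
      have hγ : jfun (dm d (g • τ)) = jfun (dm d τ) := by
        refine jfun_dm_Gamma0 d (dvd_refl d) ?_ τ
        rw [CongruenceSubgroup.Gamma0_mem, ZMod.intCast_zmod_eq_zero_iff_dvd, hg]
        change (d : ℤ) ∣ i * q ^ b * M'
        rw [mul_assoc]
        refine Dvd.dvd.mul_left ?_ i
        rw [hdd]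
        push_cast
        exact mul_dvd_mul (pow_dvd_pow _ hkb) (by exact_mod_cast hd₀)
      rw [hγ]
      congr 1
      ext
      rw [coe_dm, coe_dm]
      have hee : ee a b k = k + s := by rw [ee, if_pos hkb, hs]
      rw [hee, hqτ k τ, hdd]
      push_cast
      ring
    · have hkb' : b < k := not_le.1 hkb
      have hη : eta q a b k Z = Z ^ q ^ (a - (k - b)) := by rw [eta, if_neg hkb]
      obtain ⟨Q, hQ⟩ : ∃ Q, Q = q ^ (k - b) := ⟨_, rfl⟩
      have hQ0 : 0 < Q := by rw [hQ]; exact pow_pos hq0 _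
      have hQC : (Q : ℂ) ≠ 0 := by exact_mod_cast hQ0.ne'
      have hQa : q ^ (a - (k - b)) * Q = q ^ a := by
        rw [hQ, ← pow_add]; congr 1; omega
      have hηι : ι (eta q a b k Z : Kˣ) =
          Complex.exp (2 * Real.pi * Complex.I * ((β : ℤ) / (Q : ℂ))) := by
        rw [hη, Units.val_pow_eq_pow_val, map_pow, hβ', ← Complex.exp_nat_mul]
        congr 1
        have h1 : ((q ^ a : ℕ) : ℂ) = ((q ^ (a - (k - b)) : ℕ) : ℂ) * Q := by
          rw [← hQa]; push_cast; ring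
        have h2 : ((q ^ (a - (k - b)) : ℕ) : ℂ) ≠ 0 := by
          exact_mod_cast pow_ne_zero _ hq0.ne'
        rw [h1]
        field_simp
      have hηQ : ((eta q a b k Z : Kˣ) : K) ^ Q = 1 := by
        rw [hη, Units.val_pow_eq_pow_val, ← pow_mul, hQa, hZ.pow_eq_one]
      refine sigma_jel_eq ι g hd
        (hexp (conv_aux ι _ (coeffMap_twist_gen_mem ι _ hQ0 hηQ d₀))) fun τ => ?_
      rw [fn_qExpand, fn_twist_gen ι _ hQ0 hηι]
      obtain ⟨m₀, hm₀⟩ := hd₀
      have h3 : (M' : ℤ) = d₀ * m₀ := by exact_mod_cast hm₀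
      have hkk : k - b ≤ a := by omega
      have h4 : (q : ℤ) ^ a = Q * q ^ (a - (k - b)) := by
        rw [hQ]
        push_cast
        rw [← pow_add]
        congr 1
        omega
      refine jfun_mob (Q : ℤ) (-(d₀ * β)) (i * m₀) (q ^ (a - (k - b)) * δ) ?_ ?_
      · rw [h3] at hi
        linear_combination hi - δ * h4
      · have hdC : (d : ℂ) = q ^ b * Q * d₀ := by
          rw [hdd, hQ]
          push_cast
          rw [← pow_add]
          congr 2
          omega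
        have hMC : (M' : ℂ) = d₀ * m₀ := by exact_mod_cast hm₀
        have hiC : (i : ℂ) * M' * β + q ^ a * δ = 1 := by exact_mod_cast hi
        have h4C : (q : ℂ) ^ a = Q * q ^ (a - (k - b)) := by exact_mod_cast h4
        have hd1 := hden τ
        have hX : (τ : ℂ) / ((i : ℂ) * q ^ b * M' * τ + 1) * ((i : ℂ) * q ^ b * M' * τ + 1) = τ :=
          div_mul_cancel₀ _ hd1
        -- the point
        have hW : ((dm (q ^ ee a b k) (dv (q ^ s) τ) : ℍ) : ℂ) * Q = (q : ℂ) ^ b * τ := by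
          rw [coe_dm, coe_dv]
          have hqs : (q : ℂ) ^ s ≠ 0 := pow_ne_zero _ hqC
          have hee : ee a b k + (k - b) = b + s := by
            rw [ee, if_neg hkb, hs]; omega
          have h5 : (q : ℂ) ^ ee a b k * Q = q ^ b * q ^ s := by
            rw [hQ]
            push_cast
            rw [← pow_add, ← pow_add, hee]
          push_cast
          field_simp
          linear_combination (τ : ℂ) * h5
        rw [coe_dm, coe_dm, hcoe, coe_pte]
        generalize ((dm (q ^ ee a b k) (dv (q ^ s) τ) : ℍ) : ℂ) = W at hW ⊢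
        have hY : (((Q : ℂ) * W + (β : ℤ)) / Q) * Q = Q * W + β := by
          rw [div_mul_cancel₀ _ hQC]; push_cast; ring
        generalize (τ : ℂ) / ((i : ℂ) * q ^ b * M' * τ + 1) = X at hX ⊢
        generalize ((Q : ℂ) * W + (β : ℤ)) / Q = Y at hY ⊢
        rw [hdC]
        rw [hMC] at hX hiC
        push_cast
        have hQb := hW
        -- `Y Q = q^b τ + β`
        have hY' : Y * Q = q ^ b * τ + β := by rw [hY]; linear_combination hW
        linear_combination (q ^ b * d₀ * X * (i * m₀ * d₀) - d₀) * hY' +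
          q ^ b * d₀ * hX + q ^ b * d₀ * X * hiC - q ^ b * d₀ * X * δ * h4C
  -- factor
  let f : LaurentSeries K →+* LaurentSeries ℂ := (ModularCurve.qExpand ℂ m).comp (coeffMap ι)
  have hf : ∀ x, f x = ModularCurve.qExpand ℂ m (coeffMap ι x) := fun _ => rfl
  have hfc : ∀ c : K, f (algebraMap K _ c) =
      sigma ι (cuspUDN (q ^ a * M')) g (algebraMap K _ c) := by
    intro c
    rw [hf, Carayol.coeffMap_algebraMap, Carayol.qExpand_algebraMap, sigma_const, C_eq_algebraMap]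
  obtain ⟨s', hs'⟩ := exists_factor (sigma ι (cuspUDN (q ^ a * M')) g) f
    (fun c => ⟨_, hfc c⟩) (by
      intro d _ hd
      obtain ⟨k, d₀, hk, hd₀, hdd⟩ := dvd_casesA hq hd
      haveI : NeZero d₀ := ⟨by rintro rfl; exact NeZero.ne M' (zero_dvd_iff.1 hd₀)⟩
      exact ⟨_, (hf _).trans (hval k d₀ d hd hk hd₀ hdd).symm⟩)
  refine ⟨s', fun c => f.injective ?_, fun k d₀ d _ _ hd hk hd₀ hdd => f.injective ?_⟩
  · rw [hs', hfc]
  · rw [hs', hval k d₀ d hd hk hd₀ hdd, hf]

end Sig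

end Fermat.Agent.CarG
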