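import Fermat.Agent.CarG.SigA

/-!
# Identities between the embeddings at level `q ^ a * M'`
-/

set_option autoImplicit false
set_option linter.unusedSectionVars false
set_option linter.unusedVariables false
set_option linter.style.haveILetI false

noncomputable section

namespace Fermat.Agent.CarG

open ModularCurve IntermediateField Fermat.Agent.GenusX0 Fermat.Agent.ModFun
open Fermat.Agent.Carayol

/-- twists and substitutions -/
theorem twist_qExpand_comm {k : Type*} [Field k] (c : kˣ) (n : ℕ) [NeZero n]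
    (F : LaurentSeries k) :
    twist c (ModularCurve.qExpand k n F) = ModularCurve.qExpand k n (twist (c ^ n) F) := by
  ext m
  rw [twist_coeff]
  by_cases h : (n : ℤ) ∣ m
  · obtain ⟨j, rfl⟩ := h
    rw [qExpand_coeff_mul, qExpand_coeff_mul, twist_coeff, zpow_mul, zpow_natCast]
  · rw [qExpand_coeff_of_not_dvd _ _ h, qExpand_coeff_of_not_dvd _ _ h, mul_zero]

section Eta

variable {K : Type*} [Field K] {q a b k : ℕ} {Z : Kˣ}

theorem eta_inv : eta q a b k Z⁻¹ = (eta q a b k Z)⁻¹ := by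
  rw [eta, eta]
  split_ifs
  · rw [inv_one]
  · rw [inv_pow]

theorem eta_map {K' : Type*} [Field K'] (τ : K →+* K') :
    Units.map (τ : K →* K') (eta q a b k Z) = eta q a b k (Units.map (τ : K →* K') Z) := by
  rw [eta, eta]
  split_ifs
  · rw [map_one]
  · rw [map_pow]

end Eta

section Basic

variable {K : Type*} [Field K] {q M' : ℕ} [NeZero q] [NeZero M'] {a b : ℕ} {Z Z' : Kˣ}
  {s s' : FF K (q ^ a * M') →+* LaurentSeries K}

theorem dvd_pow_mulA {k d₀ : ℕ} (hk : k ≤ a) (h : d₀ ∣ M') : q ^ k * d₀ ∣ q ^ a * M' :=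
  mul_dvd_mul (pow_dvd_pow q hk) h

theorem IsSigA.congr (hs : IsSigA a b Z s) (h : ∀ k ≤ a, eta q a b k Z = eta q a b k Z') :
    IsSigA a b Z' s where
  const := hs.const
  gen k d₀ d _ _ hd hk hd₀ hdd := by rw [hs.gen k d₀ d hd hk hd₀ hdd, h k hk]

theorem IsSigA.unique (hq : q.Prime) (hs : IsSigA a b Z s) (hs' : IsSigA a b Z s') : s = s' := by
  refine ext_gen (fun c => ?_) fun d _ hd => ?_
  · rw [hs.const, hs'.const]
  · obtain ⟨k, d₀, hk, hd₀, hdd⟩ := dvd_casesA hq hd
    haveI := neZero_of_dvd hd₀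
    rw [hs.gen k d₀ d hd hk hd₀ hdd, hs'.gen k d₀ d hd hk hd₀ hdd]

/-- Galois conjugation of the embeddings -/
theorem IsSigA.galois {k : Type*} [Field k] (hq : q.Prime) (hs : IsSigA a b Z s) (τ : K →+* K)
    (f : k →+* K) (hf : ∀ c, τ (f c) = f c) (hs' : IsSigA a b (Units.map (τ : K →* K) Z) s')
    (x : FF k (q ^ a * M')) :
    coeffMap τ (s (Carayol.bc f _ x)) = s' (Carayol.bc f _ x) := by
  have : ((coeffMap τ).comp s).comp (Carayol.bc f (q ^ a * M')) =
      s'.comp (Carayol.bc f (q ^ a * M')) := by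
    refine ext_gen (fun c => ?_) fun d _ hd => ?_
    · rw [RingHom.comp_apply, RingHom.comp_apply, RingHom.comp_apply, bc_const, hs.const,
        hs'.const, Carayol.coeffMap_algebraMap, hf]
    · rw [RingHom.comp_apply, RingHom.comp_apply, RingHom.comp_apply, bc_jel]
      obtain ⟨k, d₀, hk, hd₀, hdd⟩ := dvd_casesA hq hd
      haveI := neZero_of_dvd hd₀
      rw [hs.gen k d₀ d hd hk hd₀ hdd, hs'.gen k d₀ d hd hk hd₀ hdd, coeffMap_qExpand,
        coeffMap_twist, coeffMap_gen', eta_map]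
  exact congrArg (fun g => g x) this

/-- the first embedding -/
theorem isSigA_top (hq : q.Prime) :
    IsSigA a a Z (algebraMap (FF K (q ^ a * M')) (LaurentSeries K)) where
  const _ := rfl
  gen k d₀ d _ _ hd hk hd₀ hdd := by
    rw [eta_le hk, twist_one, qExpand_qExpand]
    refine (coe_jel hd).trans ?_
    refine Carayol.qExpand_congr ?_ _
    rw [hdd, ee, if_pos hk]
    congr 2
    omega

theorem isSigA_top_iff (hq : q.Prime) (hs : IsSigA a a Z s) (x : FF K (q ^ a * M')) :
    s x = (x : LaurentSeries K) := by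
  rw [hs.unique hq (isSigA_top (Z := Z) hq)]
  rfl

end Basic

section Inc

variable {K : Type*} [Field K] {q M' : ℕ} [NeZero q] [NeZero M'] {a b : ℕ} {Z : Kˣ}
  {s : FF K (q ^ a * M') →+* LaurentSeries K}

theorem h_incA {q M' a : ℕ} : q ^ (a - 1) * M' ∣ q ^ a * M' :=
  mul_dvd_mul (pow_dvd_pow q (Nat.sub_le a 1)) dvd_rfl

theorem h_exA {q M' a : ℕ} (ha : 1 ≤ a) : q * (q ^ (a - 1) * M') ∣ q ^ a * M' := by
  obtain ⟨c, rfl⟩ := Nat.exists_eq_succ_of_ne_zero (Nat.one_le_iff_ne_zero.1 ha)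
  rw [Nat.succ_eq_add_one, Nat.add_sub_cancel, pow_succ, ← mul_assoc, mul_comm q]

/-- the restriction to level `q ^ (a - 1) * M'` of the embedding next to the first one -/
theorem IsSigA.inc_sub (hq : q.Prime) (ha : 2 ≤ a) (hs : IsSigA a (a - 1) Z s)
    (f : FF K (q ^ (a - 1) * M')) : s (Carayol.inc K h_incA f) = (f : LaurentSeries K) := by
  have : s.comp (Carayol.inc K h_incA) =
      algebraMap (FF K (q ^ (a - 1) * M')) (LaurentSeries K) := by
    refine ext_gen (fun c => ?_) fun d _ hd => ?_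
    · rw [RingHom.comp_apply, inc_const, hs.const]
      rfl
    · obtain ⟨k, d₀, hk, hd₀, hdd⟩ := dvd_casesA hq hd
      haveI := neZero_of_dvd hd₀
      rw [RingHom.comp_apply, inc_jel, hs.gen k d₀ d _ (hk.trans (Nat.sub_le a 1)) hd₀ hdd,
        eta_le hk, twist_one, qExpand_qExpand]
      refine Eq.trans ?_ (coe_jel hd).symm
      refine Carayol.qExpand_congr ?_ _
      rw [hdd, ee, if_pos hk]
      congr 2
      omega
  exact congrArg (fun g => g f) this

/-- for `2 b < a` the restriction to level `q ^ (a - 1) * M'` has expansions in `T ^ q` -/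
theorem IsSigA.inc_low (hq : q.Prime) (hb : 2 * b < a) (hs : IsSigA a b Z s)
    (f : FF K (q ^ (a - 1) * M')) :
    ∃ y : LaurentSeries K, s (Carayol.inc K h_incA f) = ModularCurve.qExpand K q y := by
  have hc : ∀ c : K, ∃ y, ModularCurve.qExpand K q y =
      (s.comp (Carayol.inc K h_incA)) (algebraMap K (FF K (q ^ (a - 1) * M')) c) := by
    intro c
    refine ⟨algebraMap K _ c, ?_⟩
    rw [RingHom.comp_apply, inc_const, hs.const, Carayol.qExpand_algebraMap]
  obtain ⟨f', hf'⟩ := exists_factor (s.comp (Carayol.inc K h_incA)) (ModularCurve.qExpand K q) hc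
    (by
      intro d _ hd
      obtain ⟨k, d₀, hk, hd₀, hdd⟩ := dvd_casesA hq hd
      haveI := neZero_of_dvd hd₀
      refine ⟨ModularCurve.qExpand K (q ^ (ee a b k - 1))
        (twist (eta q a b k Z) (ModularCurve.qExpand K d₀ (jqModC K))), ?_⟩
      rw [RingHom.comp_apply, inc_jel, hs.gen k d₀ d _ (hk.trans (Nat.sub_le a 1)) hd₀ hdd,
        qExpand_qExpand]
      refine Carayol.qExpand_congr ?_ _
      rw [← pow_succ']
      congr 1
      rw [ee]
      split_ifs <;> omega)
  exact ⟨f' f, (hf' f).symm⟩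

/-- two embeddings over level `q ^ (a - 1) * M'` -/
theorem IsSigA.inc_eq (hq : q.Prime) {Z' : Kˣ} {s' : FF K (q ^ a * M') →+* LaurentSeries K}
    (hs : IsSigA a b Z s) (hs' : IsSigA a b Z' s')
    (h : ∀ k ≤ a - 1, eta q a b k Z = eta q a b k Z') (f : FF K (q ^ (a - 1) * M')) :
    s (Carayol.inc K h_incA f) = s' (Carayol.inc K h_incA f) := by
  have : s.comp (Carayol.inc K h_incA) = s'.comp (Carayol.inc K h_incA) := by
    refine ext_gen (fun c => ?_) fun d _ hd => ?_
    · rw [RingHom.comp_apply, RingHom.comp_apply, inc_const, hs.const, hs'.const]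
    · obtain ⟨k, d₀, hk, hd₀, hdd⟩ := dvd_casesA hq hd
      haveI := neZero_of_dvd hd₀
      rw [RingHom.comp_apply, RingHom.comp_apply, inc_jel,
        hs.gen k d₀ d _ (hk.trans (Nat.sub_le a 1)) hd₀ hdd,
        hs'.gen k d₀ d _ (hk.trans (Nat.sub_le a 1)) hd₀ hdd, h k hk]
  exact congrArg (fun g => g f) this

end Inc

section W

variable {k : Type*} [Field k] {q M' : ℕ} [NeZero q] [NeZero M']

/-- the Atkin–Lehner involution -/
structure IsWA (a : ℕ) (w : FF k (q ^ a * M') →+* FF k (q ^ a * M')) : Prop where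
  const : ∀ c : k, w (algebraMap k _ c) = algebraMap k _ c
  gen : ∀ (i d₀ d d' : ℕ) [NeZero d] [NeZero d'] (hd : d ∣ q ^ a * M') (hd' : d' ∣ q ^ a * M'),
        i ≤ a → d₀ ∣ M' → d = q ^ i * d₀ → d' = q ^ (a - i) * d₀ →
        w (jel k d hd) = jel k d' hd'

variable {a : ℕ} {w : FF k (q ^ a * M') →+* FF k (q ^ a * M')}

theorem IsWA.invol (hq : q.Prime) (hw : IsWA a w) (x : FF k (q ^ a * M')) : w (w x) = x := by
  have : w.comp w = RingHom.id _ := by
    refine ext_gen (fun c => ?_) fun d _ hd => ?_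
    · rw [RingHom.comp_apply, hw.const, hw.const, RingHom.id_apply]
    · obtain ⟨i, d₀, hi, hd₀, rfl⟩ := dvd_casesA hq hd
      haveI := neZero_of_dvd hd₀
      haveI : NeZero (q ^ (a - i)) := neZero_q_pow _
      rw [RingHom.comp_apply, RingHom.id_apply,
        hw.gen i d₀ _ (q ^ (a - i) * d₀) hd (dvd_pow_mulA (Nat.sub_le a i) hd₀) hi hd₀ rfl rfl,
        hw.gen (a - i) d₀ _ (q ^ i * d₀) _ hd (Nat.sub_le a i) hd₀ rfl
          (by rw [Nat.sub_sub_self hi])]
  exact congrArg (fun f => f x) this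

/-- the two degeneracy maps are exchanged by the involutions -/
theorem IsWA.exN (hq : q.Prime) (ha : 1 ≤ a) (hw : IsWA a w)
    {w' : FF k (q ^ (a - 1) * M') →+* FF k (q ^ (a - 1) * M')} (hw' : IsWA (a - 1) w')
    (x : FF k (q ^ (a - 1) * M')) :
    Carayol.exN k q (h_exA ha) x = w (Carayol.inc k h_incA (w' x)) := by
  have : Carayol.exN k q (h_exA ha) = (w.comp (Carayol.inc k h_incA)).comp w' := by
    refine ext_gen (fun c => ?_) fun d _ hd => ?_
    · rw [RingHom.comp_apply, RingHom.comp_apply, hw'.const, inc_const, hw.const, exN_const]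
    · obtain ⟨i, d₀, hi, hd₀, rfl⟩ := dvd_casesA hq hd
      haveI := neZero_of_dvd hd₀
      haveI : NeZero (q ^ (a - 1 - i)) := neZero_q_pow _
      rw [RingHom.comp_apply, RingHom.comp_apply,
        hw'.gen i d₀ _ (q ^ (a - 1 - i) * d₀) hd (dvd_pow_mulA (Nat.sub_le _ i) hd₀) hi hd₀ rfl
          rfl, inc_jel, exN_jel]
      refine (hw.gen (a - 1 - i) d₀ _ _ _ _ ((Nat.sub_le _ _).trans (Nat.sub_le _ _)) hd₀ rfl
        ?_).symm
      rw [← mul_assoc, ← pow_succ']
      congr 2
      omega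
  exact congrArg (fun f => f x) this

end W

section WK

variable {k K : Type*} [Field k] [Field K] {q M' : ℕ} [NeZero q] [NeZero M'] {a : ℕ}

/-- the involution is compatible with base change -/
theorem IsWA.bc (hq : q.Prime) {w : FF k (q ^ a * M') →+* FF k (q ^ a * M')}
    {w' : FF K (q ^ a * M') →+* FF K (q ^ a * M')} (hw : IsWA a w) (hw' : IsWA a w') (f : k →+* K)
    (x : FF k (q ^ a * M')) : Carayol.bc f _ (w x) = w' (Carayol.bc f _ x) := by
  have : (Carayol.bc f _).comp w = w'.comp (Carayol.bc f (q ^ a * M')) := by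
    refine ext_gen (fun c => ?_) fun d _ hd => ?_
    · rw [RingHom.comp_apply, RingHom.comp_apply, hw.const, bc_const, hw'.const]
    · obtain ⟨i, d₀, hi, hd₀, rfl⟩ := dvd_casesA hq hd
      haveI := neZero_of_dvd hd₀
      haveI : NeZero (q ^ (a - i)) := neZero_q_pow _
      rw [RingHom.comp_apply, RingHom.comp_apply, bc_jel,
        hw.gen i d₀ _ (q ^ (a - i) * d₀) hd (dvd_pow_mulA (Nat.sub_le a i) hd₀) hi hd₀ rfl rfl,
        hw'.gen i d₀ _ (q ^ (a - i) * d₀) hd (dvd_pow_mulA (Nat.sub_le a i) hd₀) hi hd₀ rfl rfl,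
        bc_jel]
  exact congrArg (fun g => g x) this

/-- existence of the involution -/
theorem exists_wA (ι : K →+* ℂ) (f : k →+* K) (hq : q.Prime) (hcop : Nat.Coprime q M') (Z : Kˣ)
    (hZ : IsPrimitiveRoot (Z : K) (q ^ a)) :
    ∃ w : FF k (q ^ a * M') →+* FF k (q ^ a * M'), IsWA a w := by
  obtain ⟨s, hs⟩ := exists_sigA ι (M' := M') hq hcop (Nat.zero_le a) Z hZ
  have hZa : Z ^ q ^ a = 1 := Units.ext (by push_cast; exact hZ.pow_eq_one)
  let i : FF k (q ^ a * M') →+* LaurentSeries K :=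
    (algebraMap (FF K (q ^ a * M')) (LaurentSeries K)).comp (Carayol.bc f (q ^ a * M'))
  let g : FF k (q ^ a * M') →+* LaurentSeries K :=
    ((twist Z⁻¹).comp s).comp (Carayol.bc f (q ^ a * M'))
  have hval : ∀ (j d₀ d d' : ℕ) [NeZero d] [NeZero d'] (hd : d ∣ q ^ a * M')
      (hd' : d' ∣ q ^ a * M'), j ≤ a → d₀ ∣ M' → d = q ^ j * d₀ → d' = q ^ (a - j) * d₀ →
      g (jel k d hd) = i (jel k d' hd') := by
    intro j d₀ d d' _ _ hd hd' hj hd₀ hdd hdd'
    haveI := neZero_of_dvd hd₀
    have e1 : i (jel k d' hd') = ModularCurve.qExpand K d' (jqModC K) := by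
      change ((Carayol.bc f _ (jel k d' hd') : FF K (q ^ a * M')) : LaurentSeries K) = _
      rw [bc_jel, coe_jel]
    rw [e1]
    change twist Z⁻¹ (s (Carayol.bc f _ (jel k d hd))) = _
    rw [bc_jel, hs.gen j d₀ d hd hj hd₀ hdd, twist_qExpand_comm, twist_twist]
    have h1 : Z⁻¹ ^ q ^ ee a 0 j * eta q a 0 j Z = 1 := by
      rw [eta]
      split_ifs with h
      · have : j = 0 := Nat.le_zero.1 h
        subst this
        rw [mul_one, ee, if_pos le_rfl]
        simp only [mul_zero, Nat.sub_zero, zero_add, inv_pow]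
        rw [hZa, inv_one]
      · have : ee a 0 j = a - (j - 0) := by
          rw [ee, if_neg h]; omega
        rw [this, inv_pow, inv_mul_cancel]
    rw [h1, twist_one, qExpand_qExpand]
    refine Carayol.qExpand_congr ?_ _
    rw [hdd']
    congr 2
    rw [ee]
    split_ifs <;> omega
  have hconst : ∀ c : k, i (algebraMap k _ c) = g (algebraMap k _ c) := by
    intro c
    change ((Carayol.bc f _ (algebraMap k _ c) : FF K (q ^ a * M')) : LaurentSeries K) =
      twist Z⁻¹ (s (Carayol.bc f _ (algebraMap k _ c)))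
    rw [bc_const, hs.const, twist_const, coe_const]
  obtain ⟨w, hw⟩ := exists_factor g i (fun c => ⟨_, hconst c⟩) (by
      intro d _ hd
      obtain ⟨j, d₀, hj, hd₀, hdd⟩ := dvd_casesA hq hd
      haveI := neZero_of_dvd hd₀
      haveI : NeZero (q ^ (a - j)) := neZero_q_pow _
      exact ⟨jel k (q ^ (a - j) * d₀) (dvd_pow_mulA (Nat.sub_le a j) hd₀),
        (hval j d₀ d _ hd _ hj hd₀ hdd rfl).symm⟩)
  refine ⟨w, fun c => i.injective ?_, fun j d₀ d d' _ _ hd hd' hj hd₀ hdd hdd' => i.injective ?_⟩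
  · rw [hw, hconst]
  · rw [hw, hval j d₀ d d' hd hd' hj hd₀ hdd hdd']

end WK

section Comp

variable {K : Type*} [Field K] {q M' : ℕ} [NeZero q] [NeZero M'] {a b : ℕ} {Z : Kˣ}
  {s s' : FF K (q ^ a * M') →+* LaurentSeries K}

/-- composition with the involution -/
theorem IsSigA.comp_w (hq : q.Prime) (hb : b ≤ a) (hZ : Z ^ q ^ a = 1) (hs : IsSigA a b Z s)
    (hs' : IsSigA a (a - b) Z⁻¹ s') {w : FF K (q ^ a * M') →+* FF K (q ^ a * M')}
    (hw : IsWA a w) (x : FF K (q ^ a * M')) :
    s (w x) = twist (Z ^ q ^ min b (a - b)) (s' x) := by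
  have hZn : ∀ n, a ≤ n → Z ^ q ^ n = 1 := by
    intro n hn
    obtain ⟨m, rfl⟩ := Nat.exists_eq_add_of_le hn
    rw [pow_add, pow_mul, hZ, one_pow]
  have : s.comp w = (twist (Z ^ q ^ min b (a - b))).comp s' := by
    refine ext_gen (fun c => ?_) fun d _ hd => ?_
    · rw [RingHom.comp_apply, RingHom.comp_apply, hw.const, hs.const, hs'.const, twist_const]
    · obtain ⟨i, d₀, hi, hd₀, rfl⟩ := dvd_casesA hq hd
      haveI := neZero_of_dvd hd₀
      haveI : NeZero (q ^ (a - i)) := neZero_q_pow _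
      rw [RingHom.comp_apply, RingHom.comp_apply,
        hw.gen i d₀ _ (q ^ (a - i) * d₀) hd (dvd_pow_mulA (Nat.sub_le a i) hd₀) hi hd₀ rfl rfl,
        hs.gen (a - i) d₀ _ _ (Nat.sub_le a i) hd₀ rfl, hs'.gen i d₀ _ hd hi hd₀ rfl,
        twist_qExpand_comm (Z ^ q ^ min b (a - b)), twist_twist]
      have hee : ee a b (a - i) = ee a (a - b) i := by
        rw [ee, ee]
        split_ifs <;> omega
      have hη : eta q a b (a - i) Z =
          (Z ^ q ^ min b (a - b)) ^ q ^ ee a (a - b) i * eta q a (a - b) i Z⁻¹ := by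
        rw [← pow_mul, ← pow_add, eta_inv, eta, eta, ee]
        split_ifs with h1 h2 h2
        · -- `i = a - b`
          rw [inv_one, mul_one, hZn _ (by omega)]
        · have e : min b (a - b) + (2 * (a - b) + (a - 2 * (a - b)) - i) =
              a - (i - (a - b)) := by omega
          rw [e, mul_inv_cancel]
        · have e : min b (a - b) + (i + (a - 2 * (a - b))) = a - (a - i - b) := by omega
          rw [e, inv_one, mul_one]
        · exfalso; omega
      rw [hη, hee]
  exact congrArg (fun g => g x) this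

end Comp

end Fermat.Agent.CarG
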