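import Fermat.Agent.CarG.SigA
import Fermat.Agent.Carayol.Norm3

/-!
# The modular situation of level `q ^ a * M'`
-/

set_option autoImplicit false
set_option linter.unusedSectionVars false
set_option linter.style.haveILetI false

noncomputable section

namespace Fermat.Agent.CarG

open ModularCurve Fermat.Agent.GoodRed Fermat.Agent.ModFun Fermat.Agent.GenusX0
open Fermat.Agent.Models IsLocalRing Polynomial IntermediateField Fermat.Agent.Carayol

theorem twist_qExpand' {A : Type*} [CommRing A] (c : Aˣ) (N : ℕ) [NeZero N] (F : LaurentSeries A) :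
    twist c (qExpand A N F) = qExpand A N (twist (c ^ N) F) := by
  ext n
  rw [twist_coeff]
  by_cases h : (N : ℤ) ∣ n
  · obtain ⟨m, rfl⟩ := h
    rw [qExpand_coeff_mul, qExpand_coeff_mul, twist_coeff, zpow_mul, zpow_natCast]
  · rw [qExpand_coeff_of_not_dvd N _ h, qExpand_coeff_of_not_dvd N _ h, mul_zero]

section Scale

variable {K κ : Type*} [Field K] [Field κ] {A : ValuationSubring K} (π : A →+* κ) [IsLocalHom π]
  {q M' : ℕ} [NeZero q] [NeZero M']

theorem scale_sigA (hq : q.Prime) {a b : ℕ} {Z : Kˣ} (hZ : Z ^ q ^ a = 1)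
    {s : FF K (q ^ a * M') →+* LaurentSeries K} (hs : IsSigA a b Z s) {x : FF K (q ^ a * M')}
    (hx : x ≠ 0) : ∃ c : K, c ≠ 0 ∧ ∃ y, y ≠ 0 ∧
      LR π (algebraMap K (LaurentSeries K) c * s x) y := by
  let E : IntermediateField K (LaurentSeries K) :=
    IntermediateField.adjoin K (coeffMap (Int.castRingHom K) '' Set.univ)
  have hE : ∀ z : LaurentSeries ℤ, coeffMap (Int.castRingHom K) z ∈ E := fun z =>
    IntermediateField.subset_adjoin _ _ ⟨z, Set.mem_univ _, rfl⟩
  have hz : ∀ (d : ℕ) [NeZero d], qExpand K d (jqModC K) =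
      coeffMap (Int.castRingHom K) (qExpand ℤ d (jqModC ℤ)) := by
    intro d _
    rw [coeffMap_qExpand, coeffMap_jqModC]
  have htw : ∀ (n : ℕ) [NeZero n] (W : Kˣ), W ^ q ^ a = 1 → ∀ z : LaurentSeries ℤ,
      qExpand K n (twist W (coeffMap (Int.castRingHom K) z)) ∈ E := by
    intro n _ W hW z
    haveI : NeZero (q ^ a) := neZero_pow_q
    rw [twist_eq_sum hW, map_sum]
    refine sum_mem fun c _ => ?_
    rw [map_mul]
    refine mul_mem ?_ ?_
    · rw [ModFun.C_eq_algebraMap, Carayol.qExpand_algebraMap]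
      exact IntermediateField.algebraMap_mem _ _
    · rw [← coeffMap_qExpand]
      exact hE _
  obtain ⟨f, hf⟩ := exists_factor s (algebraMap E (LaurentSeries K))
    (fun c => ⟨⟨_, IntermediateField.algebraMap_mem E c⟩, (hs.const c).symm⟩) (by
      intro d _ hd
      obtain ⟨k, d₀, hk, hd₀, hda⟩ := dvd_casesA hq hd
      haveI := neZero_of_dvd hd₀
      rw [hs.gen k d₀ d hd hk hd₀ hda, hz d₀]
      refine ⟨⟨_, htw (q ^ ee a b k) (eta q a b k Z) ?_ _⟩, rfl⟩
      rw [eta]
      split_ifs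
      · rw [one_pow]
      · rw [← pow_mul, mul_comm, pow_mul, hZ, one_pow])
  have h1 : s x ∈ E := by
    rw [← hf]
    exact (f x).2
  have h2 : s x ≠ 0 := (map_ne_zero s).2 hx
  have := exists_scale_LR π Set.univ h2 h1
  simpa only [ModFun.C_eq_algebraMap] using this

end Scale

section Root

variable {k₀ K κ : Type} [Field k₀] [Field K] [Field κ] [Algebra k₀ K] {q M' : ℕ}
  [NeZero q] [NeZero M'] (S : Sit k₀ K κ q M')

theorem exists_unit_root {W : Kˣ} {n : ℕ} (hW : W ^ q ^ n = 1) :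
    ∃ z : S.Aˣ, Units.map (S.A.subtype : S.A →* K) z = W ∧ S.π z = 1 := by
  have hWK : (W : K) ^ q ^ n = 1 := by
    have := congrArg (fun u : Kˣ => (u : K)) hW
    simpa using this
  have hn : q ^ n ≠ 0 := pow_ne_zero n (NeZero.ne q)
  have h1 : S.A.valuation (W : K) ^ q ^ n = 1 := by
    rw [← map_pow, hWK, map_one]
  have h2 : S.A.valuation (W : K) = 1 := by
    rcases lt_trichotomy (S.A.valuation (W : K)) 1 with h | h | h
    · exact absurd h1 (pow_lt_one₀ zero_le h hn).ne
    · exact h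
    · exact absurd h1 (one_lt_pow₀ h hn).ne'
  have h3 : (W : K) ∈ S.A := (S.A.valuation_le_one_iff _).1 h2.le
  have h4 : ((W⁻¹ : Kˣ) : K) ∈ S.A := by
    rw [← S.A.valuation_le_one_iff, Units.val_inv_eq_inv_val, map_inv₀, h2, inv_one]
  let z : S.Aˣ := ⟨⟨_, h3⟩, ⟨_, h4⟩, Subtype.ext W.mul_inv, Subtype.ext W.inv_mul⟩
  refine ⟨z, Units.ext rfl, ?_⟩
  haveI := S.charP
  haveI : Fact q.Prime := ⟨S.hq⟩
  have h5 : (S.π z) ^ q ^ n = 1 := by
    rw [← map_pow]
    have : (z : S.A) ^ q ^ n = 1 := Subtype.ext (by push_cast; exact hWK)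
    rw [this, map_one]
  have h6 : (S.π z - 1) ^ q ^ n = 0 := by
    rw [sub_pow_char_pow, h5, one_pow, sub_self]
  exact sub_eq_zero.1 (eq_zero_of_pow_eq_zero h6)

theorem R_twist_root {W : Kˣ} {n : ℕ} (hW : W ^ q ^ n = 1) {x : LaurentSeries K}
    {y : LaurentSeries κ} (h : LR S.π x y) : LR S.π (twist W x) y := by
  obtain ⟨z, hz, hz1⟩ := exists_unit_root S hW
  rw [← hz]
  exact LR_twist hz1 h

end Root

/-- the situation of level `q ^ a * M'` -/
structure SitA {k₀ K κ : Type} [Field k₀] [Field K] [Field κ] [Algebra k₀ K] {q M' : ℕ}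
    [NeZero q] [NeZero M'] (S : Sit k₀ K κ q M') (a : ℕ) where
  ha : 3 ≤ a
  Z : Kˣ
  hZ : IsPrimitiveRoot (Z : K) (q ^ a)
  hZζ : Z ^ q ^ (a - 1) = S.ζ
  sg : Fin (a + 1) → (FF K (q ^ a * M') →+* LaurentSeries K)
  hsg : ∀ b : Fin (a + 1), IsSigA a (b : ℕ) Z (sg b)

/-- types of pairs of steps -/
def ty (b k : ℕ) : Fin 3 := if k + 2 ≤ b then 0 else if k + 1 = b then 1 else 2

/-- exponents of pairs of steps -/
def nn (a b k : ℕ) : ℕ := if k + 1 ≤ b then ee a b k else ee a b (k + 2)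

namespace SitA

variable {k₀ K κ : Type} [Field k₀] [Field K] [Field κ] [Algebra k₀ K] {q M' : ℕ}
  [NeZero q] [NeZero M'] {S : Sit k₀ K κ q M'} {a : ℕ} (T : SitA S a)

theorem hZ1 : T.Z ^ q ^ a = 1 := Units.ext (by push_cast; exact T.hZ.pow_eq_one)

theorem eta_pow (b k : ℕ) : eta q a b k T.Z ^ q ^ a = 1 := by
  rw [eta]
  split_ifs
  · rw [one_pow]
  · rw [← pow_mul, mul_comm, pow_mul, T.hZ1, one_pow]

/-- the function field -/
abbrev F (_ : SitA S a) := FF k₀ (q ^ a * M')

/-- the embeddings -/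
def φ (b : Fin (a + 1)) : T.F →+* LaurentSeries K := (T.sg b).comp (bc S.cK (q ^ a * M'))

theorem φ_apply (b : Fin (a + 1)) (x : T.F) : T.φ b x = T.sg b (bc S.cK (q ^ a * M') x) := rfl

theorem φ_const (b : Fin (a + 1)) (c : k₀) :
    T.φ b (algebraMap k₀ T.F c) = algebraMap K (LaurentSeries K) (algebraMap k₀ K c) := by
  rw [φ_apply, bc_const, (T.hsg b).const]

theorem φ_scale (b : Fin (a + 1)) (x : T.F) (hx : x ≠ 0) : ∃ c : K, c ≠ 0 ∧ ∃ y, y ≠ 0 ∧
    LR S.π (algebraMap K (LaurentSeries K) c * T.φ b x) y :=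
  scale_sigA S.π S.hq T.hZ1 (T.hsg b) ((_root_.map_ne_zero (bc S.cK _)).2 hx)

/-- the relations -/
def P (b : Fin (a + 1)) : PreRed S.A₀ S.π₀ (T.F) (LaurentSeries κ) := pre S.hinc (T.φ_const b)

theorem P_R {b : Fin (a + 1)} {x : T.F} {y : LaurentSeries κ} :
    (T.P b).R x y ↔ LR S.π (T.φ b x) y := Iff.rfl

/-! ### level `M'` -/

theorem dvdM {k : ℕ} (hk : k ≤ a) : q ^ k * M' ∣ q ^ a * M' := mul_dvd_mul (pow_dvd_pow q hk) dvd_rfl

/-- `f(z) ↦ f(q^k z)` -/
def exM (k : ℕ) (hk : k ≤ a) : FF k₀ M' →+* T.F := exN k₀ (q ^ k) (dvdM hk)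

theorem φ_exM (b : Fin (a + 1)) (k : ℕ) (hk : k ≤ a) (f : FF k₀ M') :
    T.φ b (T.exM k hk f) = qExpand K (q ^ ee a b k)
      (twist (eta q a b k T.Z) (coeffMap S.cK (f : LaurentSeries k₀))) := by
  have : (T.φ b).comp (T.exM k hk) = ((qExpand K (q ^ ee a b k)).comp
      (twist (eta q a b k T.Z))).comp ((coeffMap S.cK).comp
        (algebraMap (FF k₀ M') (LaurentSeries k₀))) := by
    refine ext_gen (fun c => ?_) fun d _ hd => ?_
    · rw [RingHom.comp_apply, exM, exN_const, φ_const]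
      simp only [RingHom.comp_apply]
      change _ = qExpand K (q ^ ee a b k) (twist _ (coeffMap S.cK
        (algebraMap k₀ (LaurentSeries k₀) c)))
      rw [Carayol.coeffMap_algebraMap, twist_const, Carayol.qExpand_algebraMap]
    · rw [RingHom.comp_apply, exM, exN_jel, φ_apply, bc_jel,
        (T.hsg b).gen k d (q ^ k * d) _ hk hd rfl]
      simp only [RingHom.comp_apply]
      change _ = qExpand K (q ^ ee a b k) (twist _ (coeffMap S.cK
        (qExpand k₀ d (jqModC k₀))))
      rw [coeffMap_gen']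
  exact congrArg (fun g => g f) this

theorem R_exM (b : Fin (a + 1)) (k : ℕ) (hk : k ≤ a) {f : FF k₀ M'} {g : LaurentSeries κ}
    (h : S.RM f g) : (T.P b).R (T.exM k hk f) (qExpand κ (q ^ ee a b k) g) := by
  rw [P_R, φ_exM]
  exact LR_qExpand _ (R_twist_root S (T.eta_pow b k) h)

/-- `j(q^k z)` -/
def jj (k : ℕ) (hk : k ≤ a) : T.F := T.exM k hk (je k₀ M')

theorem RM_je : S.RM (je k₀ M') S.jb := by
  have h := S.RM_jel 1 (one_dvd M')
  rw [qExpand_one_apply] at h
  have e : (jel k₀ 1 (one_dvd M') : FF k₀ M') = je k₀ M' := by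
    apply Subtype.ext
    rw [coe_jel, qExpand_one_apply]
    rfl
  rwa [e] at h

theorem qExpand_jb (n : ℕ) : qExpand κ (q ^ n) S.jb = S.jb ^ q ^ n := by
  induction n with
  | zero =>
    rw [Carayol.qExpand_congr (d' := 1) (pow_zero q), qExpand_one_apply, pow_zero, pow_one]
  | succ n ih =>
    have h1 : qExpand κ (q ^ (n + 1)) S.jb = qExpand κ q (qExpand κ (q ^ n) S.jb) := by
      rw [qExpand_qExpand]
      exact Carayol.qExpand_congr (pow_succ' q n) _
    rw [h1, ih, map_pow, ← S.jb_pow, ← pow_mul, ← pow_succ']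

theorem R_jj (b : Fin (a + 1)) (k : ℕ) (hk : k ≤ a) :
    (T.P b).R (T.jj k hk) (S.jb ^ q ^ ee a b k) := by
  rw [← qExpand_jb]
  exact T.R_exM b k hk RM_je

theorem coe_jj (k : ℕ) (hk : k ≤ a) : ((T.jj k hk : T.F) : LaurentSeries k₀) =
    qExpand k₀ (q ^ k) (jqModC k₀) := rfl

/-! ### level `q ^ 2 * M'` -/

theorem dvd2 {k : ℕ} (hk : k + 2 ≤ a) : q ^ k * (q ^ 2 * M') ∣ q ^ a * M' := by
  rw [← mul_assoc, ← pow_add]
  exact mul_dvd_mul (pow_dvd_pow q hk) dvd_rfl

/-- `f(z) ↦ f(q^k z)` -/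
def δ (k : ℕ) (hk : k + 2 ≤ a) : S.F →+* T.F := exN k₀ (q ^ k) (dvd2 hk)

theorem δ_const (k : ℕ) (hk : k + 2 ≤ a) (c : k₀) :
    T.δ k hk (algebraMap k₀ S.F c) = algebraMap k₀ T.F c := exN_const _ _ c

theorem φ_δ_aux (b : Fin (a + 1)) (k : ℕ) (hk : k + 2 ≤ a) : ∃ W : Kˣ, W ^ q ^ a = 1 ∧
    ∀ x : S.F, T.φ b (T.δ k hk x) = qExpand K (q ^ nn a b k) (twist W (S.φ (ty b k) x)) := by
  have hb : (b : ℕ) ≤ a := Nat.lt_succ_iff.1 b.2
  obtain ⟨W, hW⟩ : ∃ W : Kˣ, W = if k + 1 ≤ b then 1 else eta q a b (k + 2) T.Z := ⟨_, rfl⟩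
  have hW1 : W ^ q ^ a = 1 := by
    rw [hW]
    split_ifs
    · rw [one_pow]
    · exact T.eta_pow _ _
  refine ⟨W, hW1, fun x => ?_⟩
  have key : (T.φ b).comp (T.δ k hk) = ((qExpand K (q ^ nn a b k)).comp (twist W)).comp
      (S.φ (ty b k)) := by
    refine ext_gen (fun c => ?_) fun d _ hd => ?_
    · rw [RingHom.comp_apply, δ, exN_const, φ_const]
      simp only [RingHom.comp_apply]
      rw [S.φ_const, twist_const, Carayol.qExpand_algebraMap]
    · obtain ⟨i, d₀, hi, hd₀, hdi⟩ := dvd_cases S.hq hd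
      haveI := neZero_of_dvd hd₀
      have hL : T.φ b (T.δ k hk (jel k₀ d hd)) = qExpand K (q ^ ee a b (k + i))
          (twist (eta q a b (k + i) T.Z) (qExpand K d₀ (jqModC K))) := by
        rw [φ_apply, δ, exN_jel, bc_jel, (T.hsg b).gen (k + i) d₀ (q ^ k * d) _ (by omega) hd₀
          (by rw [hdi, pow_add, mul_assoc])]
      rw [RingHom.comp_apply, hL]
      simp only [RingHom.comp_apply]
      by_cases h0 : k + 2 ≤ b
      · -- two steps of type `F`
        have e1 : ty b k = 0 := by rw [ty, if_pos h0]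
        have e2 : nn a b k = ee a b k := by rw [nn, if_pos (by omega)]
        have e3 : W = 1 := by rw [hW, if_pos (by omega)]
        have e4 : eta q a b (k + i) T.Z = 1 := eta_le (by omega) _
        rw [e1, e2, e3, e4, twist_one, twist_one]
        have e5 : S.φ 0 (jel k₀ d hd) = qExpand K d (jqModC K) := by
          rw [S.φ0, coe_jel, coeffMap_gen']
        rw [e5, qExpand_qExpand, qExpand_qExpand]
        refine Carayol.qExpand_congr ?_ _
        rw [hdi, ← mul_assoc, ← pow_add]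
        congr 2
        rw [ee, ee, if_pos (by omega), if_pos (by omega)]
        omega
      · by_cases h1 : k + 1 = b
        · have e1 : ty b k = 1 := by rw [ty, if_neg h0, if_pos h1]
          have e2 : nn a b k = ee a b k := by rw [nn, if_pos (by omega)]
          have e3 : W = 1 := by rw [hW, if_pos (by omega)]
          rw [e1, e2, e3, twist_one]
          rcases Nat.lt_or_ge i 2 with h2 | h2
          · have e4 : eta q a b (k + i) T.Z = 1 := eta_le (by omega) _
            have e5 : S.φ 1 (jel k₀ d hd) = qExpand K d (jqModC K) := by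
              rw [S.φ1, bc_jel, S.hs.gen1 d _ (by
                rw [hdi]
                exact mul_dvd_mul ((pow_dvd_pow q (by omega : i ≤ 1)).trans (by rw [pow_one])) hd₀)]
            rw [e4, twist_one, e5, qExpand_qExpand, qExpand_qExpand]
            refine Carayol.qExpand_congr ?_ _
            rw [hdi, ← mul_assoc, ← pow_add]
            congr 2
            rw [ee, ee, if_pos (by omega), if_pos (by omega)]
            omega
          · have hi2 : i = 2 := by omega
            subst hi2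
            have e4 : eta q a b (k + 2) T.Z = S.ζ := by
              rw [eta, if_neg (by omega), ← T.hZζ]
              congr 2
              omega
            have e5 : S.φ 1 (jel k₀ d hd) = twist S.ζ (qExpand K d₀ (jqModC K)) := by
              rw [S.φ1, bc_jel, S.hs.gen2 d₀ d _ hd₀ hdi]
            have e6 : ee a b (k + 2) = ee a b k := by
              rw [ee, ee, if_neg (by omega), if_pos (by omega)]
              omega
            rw [e4, e5, e6]
        · -- two steps of type `V`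
          have e1 : ty b k = 2 := by rw [ty, if_neg h0, if_neg h1]
          have e2 : nn a b k = ee a b (k + 2) := by rw [nn, if_neg (by omega)]
          have e3 : W = eta q a b (k + 2) T.Z := by rw [hW, if_neg (by omega)]
          have hs1 : eta q a b (k + 2) T.Z ^ q = eta q a b (k + 1) T.Z :=
            eta_V (by omega) (by omega) T.hZ1
          have hs0 : eta q a b (k + 1) T.Z ^ q = eta q a b k T.Z :=
            eta_V (by omega) (by omega) T.hZ1
          have he1 : ee a b (k + 1) = ee a b (k + 2) + 1 := ee_V (by omega) (by omega)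
          have he0 : ee a b k = ee a b (k + 1) + 1 := ee_V (by omega) (by omega)
          haveI : NeZero (q ^ (2 - i)) := neZero_pow_q
          haveI : NeZero (q ^ (2 - i) * d₀) := ⟨mul_ne_zero (NeZero.ne _) (NeZero.ne _)⟩
          have e5 : S.φ 2 (jel k₀ d hd) = qExpand K (q ^ (2 - i) * d₀) (jqModC K) := by
            rw [S.φ2, S.hw.gen i d₀ d (q ^ (2 - i) * d₀) hd (dvd_pow_mul (Nat.sub_le 2 i) hd₀) hi hd₀
              hdi rfl, S.φ0, coe_jel, coeffMap_gen']
          have e6 : qExpand K (q ^ (2 - i) * d₀) (jqModC K) =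
              qExpand K (q ^ (2 - i)) (qExpand K d₀ (jqModC K)) := by
            rw [qExpand_qExpand]
          have e7 : eta q a b (k + 2) T.Z ^ q ^ (2 - i) = eta q a b (k + i) T.Z := by
            interval_cases i
            · simp only [Nat.add_zero]
              rw [show 2 - 0 = 1 + 1 from rfl, pow_succ, pow_one, pow_mul, hs1, hs0]
            · rw [show 2 - 1 = 1 from rfl, pow_one, hs1]
            · rw [show 2 - 2 = 0 from rfl, pow_zero, pow_one]
          rw [e1, e2, e3, e5, e6, twist_qExpand' (eta q a b (k + 2) T.Z) (q ^ (2 - i))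
            (qExpand K d₀ (jqModC K)), e7, qExpand_qExpand]
          refine Carayol.qExpand_congr ?_ _
          rw [← pow_add]
          congr 1
          interval_cases i
          · simp only [Nat.add_zero]; omega
          · omega
          · omega
  exact congrArg (fun g => g x) key

theorem R_δ (b : Fin (a + 1)) (k : ℕ) (hk : k + 2 ≤ a) {x : S.F} {y : LaurentSeries κ}
    (h : (S.P (ty b k)).R x y) : (T.P b).R (T.δ k hk x) (qExpand κ (q ^ nn a b k) y) := by
  obtain ⟨W, hW, h1⟩ := T.φ_δ_aux b k hk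
  rw [P_R, h1]
  exact LR_qExpand _ (R_twist_root S hW h)

theorem mem_δ (b : Fin (a + 1)) (k : ℕ) (hk : k + 2 ≤ a) {x : S.F}
    (h : x ∈ (S.P (ty b k)).O) : T.δ k hk x ∈ (T.P b).O := by
  obtain ⟨y, hy⟩ := h
  exact ⟨_, T.R_δ b k hk hy⟩

theorem δ_exM0 (k : ℕ) (hk : k + 2 ≤ a) (f : FF k₀ M') :
    T.δ k hk (S.inM f) = T.exM k (by omega) f := by
  apply Subtype.ext
  rw [δ, exM, coe_exN, coe_exN, coe_inc]

theorem δ_exM2 (k : ℕ) (hk : k + 2 ≤ a) (f : FF k₀ M') :
    T.δ k hk (S.exM f) = T.exM (k + 2) hk f := by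
  apply Subtype.ext
  rw [δ, exM, coe_exN, coe_exN, coe_exN, qExpand_qExpand]
  exact Carayol.qExpand_congr (pow_add q k 2).symm _

theorem δ_j1 (k : ℕ) (hk : k + 2 ≤ a) : T.δ k hk S.j1 = T.jj k (by omega) := by
  rw [← S.inM_je, δ_exM0, jj]

theorem δ_j2 (k : ℕ) (hk : k + 2 ≤ a) : T.δ k hk S.j2 = T.jj (k + 2) hk := by
  rw [← S.exM_je, δ_exM2, jj]

theorem δ_jq (k : ℕ) (hk : k + 2 ≤ a) : T.δ k hk S.jq' = T.jj (k + 1) (by omega) := by
  apply Subtype.ext
  rw [δ, coe_exN, coe_jj, coe_jel, qExpand_qExpand]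
  exact Carayol.qExpand_congr (pow_succ q k).symm _

end SitA

end Fermat.Agent.CarG
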